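import Fermat.Agent.GR.F.FormalNorm
import Fermat.Agent.Lib.TruncSeries
import Fermat.Agent.S28.An.GoodDelta

/-!
# LP-EIS: the modular unit `d = Δ(q) / Δ(q^p)` as a formal Laurent series (definitions)

`S28.deltaL Λ = q ∏ (1 - q^n)^24`, `S28.deltaInvL Λ` its inverse (see `S28/An/Defs.lean`,
`S28/An/LevelOne.lean`, `S28/An/GoodDelta.lean` for their API).
-/

set_option autoImplicit false

noncomputable section

namespace Fermat.Agent.LP.EIS

open ModularCurve Fermat.Agent.GR Fermat.Agent.S28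

/-- `d = Δ(q) / Δ(q^p)` with coefficients in `Λ`. -/
def dS (Λ : Type*) [CommRing Λ] (p : ℕ) [NeZero p] : LaurentSeries Λ :=
  deltaL Λ * qExpand Λ p (deltaInvL Λ)

/-- `d⁻¹ = Δ(q^p) / Δ(q)` with coefficients in `Λ`. -/
def dInvS (Λ : Type*) [CommRing Λ] (p : ℕ) [NeZero p] : LaurentSeries Λ :=
  deltaInvL Λ * qExpand Λ p (deltaL Λ)

/-- `∏ (1 - q^n)` with coefficients in `Λ`. -/
def etaL (Λ : Type*) [CommRing Λ] : LaurentSeries Λ :=
  HahnSeries.ofPowerSeries ℤ Λ (etaProd.map (Int.castRingHom Λ))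

/-- `∏_{n ≤ M} (1 - q^n)` with coefficients in `Λ`. -/
def etaFin (Λ : Type*) [CommRing Λ] (M : ℕ) : LaurentSeries Λ :=
  ∏ n ∈ Finset.range M, (1 - HahnSeries.single ((n : ℤ) + 1) (1 : Λ))

end Fermat.Agent.LP.EIS
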