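import Mathlib

/-!
# LP-EIS: extension of refinements of valuation subrings; an integrality criterion
-/

set_option autoImplicit false

namespace Fermat.Agent.LP.EIS

variable {F Ω : Type*} [Field F] [Field Ω]

/-- the maximal ideal of `V` is an ideal of `V` -/
theorem VExt_mul_mem_nonunits {V : ValuationSubring Ω} {a y : Ω} (ha : a ∈ V)
    (hy : y ∈ V.nonunits) : a * y ∈ V.nonunits := by
  rw [ValuationSubring.mem_nonunits_iff] at hy ⊢
  rw [map_mul]
  calc V.valuation a * V.valuation y ≤ 1 * V.valuation y :=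
        mul_le_mul_left ((V.valuation_le_one_iff a).2 ha) _
    _ = V.valuation y := one_mul _
    _ < 1 := hy

/-- `x ∈ W` and `x⁻¹ ∈ 𝔪_W` is impossible. -/
theorem VExt_not_mem_of_inv_mem {W : ValuationSubring Ω} {x : Ω} (hx : x ∈ W)
    (h : x⁻¹ ∈ W.nonunits) : x = 0 := by
  rcases (W.inv_mem_nonunits_iff).1 h with h0 | h0
  · exact h0
  · exact absurd hx h0

/-- the subring `ι₀ V + 𝔪_G`. -/
def VExt_S (ι₀ : F →+* Ω) (G : ValuationSubring Ω) (V : ValuationSubring F)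
    (hV : V ≤ G.comap ι₀) : Subring Ω where
  carrier := {x | ∃ v ∈ V, x - ι₀ v ∈ G.nonunits}
  mul_mem' := by
    rintro x y ⟨v, hv, hx⟩ ⟨w, hw, hy⟩
    refine ⟨v * w, V.mul_mem _ _ hv hw, ?_⟩
    have hxG : x ∈ G := by
      have : x = (x - ι₀ v) + ι₀ v := by ring
      rw [this]
      exact G.add_mem _ _ (ValuationSubring.nonunits_subset hx) (hV hv)
    have e : x * y - ι₀ (v * w) = x * (y - ι₀ w) + ι₀ w * (x - ι₀ v) := by
      rw [map_mul]; ring
    rw [e]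
    exact G.nonunits.add_mem (VExt_mul_mem_nonunits hxG hy) (VExt_mul_mem_nonunits (hV hw) hx)
  one_mem' := ⟨1, V.one_mem, by rw [map_one, sub_self]; exact G.nonunits.zero_mem⟩
  add_mem' := by
    rintro x y ⟨v, hv, hx⟩ ⟨w, hw, hy⟩
    refine ⟨v + w, V.add_mem _ _ hv hw, ?_⟩
    have e : x + y - ι₀ (v + w) = (x - ι₀ v) + (y - ι₀ w) := by
      rw [map_add]; ring
    rw [e]
    exact G.nonunits.add_mem hx hy
  zero_mem' := ⟨0, V.zero_mem, by rw [map_zero, sub_self]; exact G.nonunits.zero_mem⟩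
  neg_mem' := by
    rintro x ⟨v, hv, hx⟩
    refine ⟨-v, V.neg_mem _ hv, ?_⟩
    have e : -x - ι₀ (-v) = -(x - ι₀ v) := by
      rw [map_neg]; ring
    rw [e]
    exact G.nonunits.neg_mem hx

/-- the ideal `ι₀ 𝔪_V + 𝔪_G`. -/
def VExt_I (ι₀ : F →+* Ω) (G : ValuationSubring Ω) (V : ValuationSubring F)
    (hV : V ≤ G.comap ι₀) : Ideal (VExt_S ι₀ G V hV) where
  carrier := {x | ∃ v ∈ V.nonunits, (x : Ω) - ι₀ v ∈ G.nonunits}
  add_mem' := by
    rintro x y ⟨v, hv, hx⟩ ⟨w, hw, hy⟩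
    refine ⟨v + w, V.nonunits.add_mem hv hw, ?_⟩
    have e : ((x + y : VExt_S ι₀ G V hV) : Ω) - ι₀ (v + w) =
        ((x : Ω) - ι₀ v) + ((y : Ω) - ι₀ w) := by
      rw [map_add, Subring.coe_add]; ring
    rw [e]
    exact G.nonunits.add_mem hx hy
  zero_mem' := ⟨0, V.nonunits.zero_mem, by
    rw [map_zero, sub_zero]; exact G.nonunits.zero_mem⟩
  smul_mem' := by
    rintro ⟨c, w, hw, hc⟩ x ⟨v, hv, hx⟩
    refine ⟨w * v, VExt_mul_mem_nonunits hw hv, ?_⟩
    have hcG : c ∈ G := by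
      have : c = (c - ι₀ w) + ι₀ w := by ring
      rw [this]
      exact G.add_mem _ _ (ValuationSubring.nonunits_subset hc) (hV hw)
    have e : (((⟨c, w, hw, hc⟩ : VExt_S ι₀ G V hV) • x : VExt_S ι₀ G V hV) : Ω) - ι₀ (w * v) =
        c * ((x : Ω) - ι₀ v) + ι₀ v * (c - ι₀ w) := by
      rw [map_mul, smul_eq_mul, Subring.coe_mul]; ring
    rw [e]
    exact G.nonunits.add_mem (VExt_mul_mem_nonunits hcG hx)
      (VExt_mul_mem_nonunits (hV (ValuationSubring.nonunits_subset hv)) hc)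

theorem VExt_I_ne_top (ι₀ : F →+* Ω) (G : ValuationSubring Ω) (V : ValuationSubring F)
    (hV : V ≤ G.comap ι₀) : VExt_I ι₀ G V hV ≠ ⊤ := by
  rw [Ideal.ne_top_iff_one]
  rintro ⟨v, hv, h1⟩
  rw [Subring.coe_one, ← map_one ι₀, ← map_sub] at h1
  -- `1 - v` is a unit of `V`
  have h2 : V.valuation (1 - v) = 1 := by
    have h3 : V.valuation (1 - v) = V.valuation 1 :=
      Valuation.map_sub_eq_of_lt_left _ (by rw [map_one]; exact V.mem_nonunits_iff.1 hv)
    rw [h3, map_one]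
  have h0 : (1 - v) ≠ 0 := by
    intro h0
    rw [h0, map_zero] at h2
    exact zero_ne_one h2
  have h4 : (1 - v)⁻¹ ∈ V := by
    rw [← V.valuation_le_one_iff, map_inv₀, h2, inv_one]
  have h5 : ι₀ (1 - v)⁻¹ ∈ G := hV h4
  have h6 : (ι₀ (1 - v)⁻¹)⁻¹ ∈ G.nonunits := by rwa [map_inv₀, inv_inv]
  have h7 := VExt_not_mem_of_inv_mem h5 h6
  rw [map_inv₀, inv_eq_zero, map_eq_zero] at h7
  exact h0 h7

/-- **Extension.** Every refinement `V` of `𝔾 ∩ F` is induced by a refinement `W` of `𝔾`. -/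
theorem exists_le_comap_eq (ι₀ : F →+* Ω) (G : ValuationSubring Ω) (V : ValuationSubring F)
    (hV : V ≤ G.comap ι₀) : ∃ W : ValuationSubring Ω, W ≤ G ∧ W.comap ι₀ = V := by
  obtain ⟨W, hSW, hIW⟩ := Ideal.image_subset_nonunits_valuationSubring (VExt_I ι₀ G V hV)
    (VExt_I_ne_top ι₀ G V hV)
  have hG : ∀ m ∈ G.nonunits, m ∈ W.nonunits := by
    intro m hm
    have hmS : m ∈ VExt_S ι₀ G V hV := ⟨0, V.zero_mem, by rwa [map_zero, sub_zero]⟩
    exact hIW ⟨⟨m, hmS⟩, ⟨0, V.nonunits.zero_mem, by rwa [map_zero, sub_zero]⟩, rfl⟩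
  have hm : ∀ v ∈ V.nonunits, ι₀ v ∈ W.nonunits := by
    intro v hv
    have hvS : ι₀ v ∈ VExt_S ι₀ G V hV :=
      ⟨v, ValuationSubring.nonunits_subset hv, by rw [sub_self]; exact G.nonunits.zero_mem⟩
    exact hIW ⟨⟨ι₀ v, hvS⟩, ⟨v, hv, by rw [sub_self]; exact G.nonunits.zero_mem⟩, rfl⟩
  refine ⟨W, ?_, le_antisymm ?_ ?_⟩
  · intro x hx
    by_contra hxG
    have h1 : x⁻¹ ∈ G.nonunits := (G.inv_mem_nonunits_iff).2 (Or.inr hxG)
    have h2 := VExt_not_mem_of_inv_mem hx (hG _ h1)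
    exact hxG (h2 ▸ G.zero_mem)
  · intro y hy
    by_contra hyV
    have h1 : y⁻¹ ∈ V.nonunits := (V.inv_mem_nonunits_iff).2 (Or.inr hyV)
    have h2 : (ι₀ y)⁻¹ ∈ W.nonunits := by
      rw [← map_inv₀]
      exact hm _ h1
    have hy' : ι₀ y ∈ W := hy
    have h3 := VExt_not_mem_of_inv_mem hy' h2
    rw [map_eq_zero] at h3
    exact hyV (h3 ▸ V.zero_mem)
  · intro v hv
    exact hSW ⟨v, hv, by rw [sub_self]; exact G.nonunits.zero_mem⟩

/-- if `∏ (c - x i) ∈ W` for infinitely many constants `c` (integral, differences units) then all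
the `x i` are in `W`. -/
theorem mem_of_prod_sub_mem {ι : Type*} (s : Finset ι) (W : ValuationSubring Ω) (x : ι → Ω)
    (S : Set Ω) (hSinf : S.Infinite) (hSW : ∀ c ∈ S, c ∈ W)
    (hS : ∀ c ∈ S, ∀ c' ∈ S, c ≠ c' → W.valuation (c - c') = 1)
    (h : ∀ c ∈ S, ∏ i ∈ s, (c - x i) ∈ W) : ∀ i ∈ s, x i ∈ W := by
  classical
  -- the bad constants
  have hbad : (⋃ i ∈ s, {c | c ∈ S ∧ W.valuation (c - x i) < 1}).Finite := by
    refine Set.Finite.biUnion s.finite_toSet ?_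
    intro i _
    apply Set.Subsingleton.finite
    rintro c ⟨hc, hc1⟩ c' ⟨hc', hc1'⟩
    by_contra hne
    have h1 := hS c hc c' hc' hne
    have e : c - c' = (c - x i) - (c' - x i) := by ring
    rw [e] at h1
    have h2 : W.valuation ((c - x i) - (c' - x i)) < 1 := Valuation.map_sub_lt _ hc1 hc1'
    exact absurd h1 h2.ne
  obtain ⟨c, hc, hcbad⟩ := hSinf.exists_notMem_finite hbad
  have hge : ∀ i ∈ s, 1 ≤ W.valuation (c - x i) := by
    intro i hi
    by_contra hlt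
    rw [not_le] at hlt
    exact hcbad (Set.mem_biUnion (Finset.mem_coe.2 hi) ⟨hc, hlt⟩)
  intro i₀ hi₀
  by_contra hx
  have hx1 : 1 < W.valuation (x i₀) := by
    rw [← not_le, W.valuation_le_one_iff]
    exact hx
  have hc1 : W.valuation c ≤ 1 := (W.valuation_le_one_iff _).2 (hSW c hc)
  have h1 : W.valuation (c - x i₀) = W.valuation (x i₀) :=
    Valuation.map_sub_eq_of_lt_right _ (lt_of_le_of_lt hc1 hx1)
  have h2 : W.valuation (∏ i ∈ s, (c - x i)) ≤ 1 := (W.valuation_le_one_iff _).2 (h c hc)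
  rw [← Finset.mul_prod_erase s _ hi₀, map_mul, h1, map_prod] at h2
  have h3 : 1 ≤ ∏ i ∈ s.erase i₀, W.valuation (c - x i) := by
    apply Finset.one_le_prod'
    intro i hi
    exact hge i (Finset.mem_of_mem_erase hi)
  have h4 : W.valuation (x i₀) ≤ W.valuation (x i₀) * ∏ i ∈ s.erase i₀, W.valuation (c - x i) :=
    le_mul_of_one_le_right' h3
  exact absurd (lt_of_lt_of_le hx1 (h4.trans h2)) (lt_irrefl _)

end Fermat.Agent.LP.EIS
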