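import Mathlib

/-!
# LP-EIS, abstract part: a "multiplicative correspondence" preserves `p`-divisibility of divisors

`A` a Dedekind domain with fraction field `κ` (the affine ring of the non-cuspidal part of a curve),
`ι₀, σ i : κ → Ω` field embeddings such that `σ i (A)` is integral over `ι₀ (A)`,
`T : κ → κ` with `ι₀ (T f) = ∏ i, σ i f` (multiplicative Hecke operator).
If all orders of `f` are divisible by `p`, so are all orders of `T f`.
-/

set_option autoImplicit false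

namespace Fermat.Agent.LP.EIS

open IsDedekindDomain

variable {A κ : Type*} [CommRing A] [IsDedekindDomain A] [Field κ] [Algebra A κ] [IsFractionRing A κ]

/-- `p ∣ ord_P f`, phrased without `ord`. -/
def DivAt (P : HeightOneSpectrum A) (p : ℕ) (f : κ) : Prop :=
  ∃ a : κ, a ≠ 0 ∧ P.valuation κ (a ^ p * f) = 1

/-- `p ∣ ord_P f` for all `P`. -/
def DivAll (A : Type*) {κ : Type*} [CommRing A] [IsDedekindDomain A] [Field κ] [Algebra A κ]
    [IsFractionRing A κ] (p : ℕ) (f : κ) : Prop :=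
  ∀ P : HeightOneSpectrum A, DivAt P p f

theorem DivAt.ne_zero {P : HeightOneSpectrum A} {p : ℕ} {f : κ} (h : DivAt P p f) : f ≠ 0 := by
  obtain ⟨a, -, h⟩ := h
  rintro rfl
  simp at h

theorem DivAt.mul {P : HeightOneSpectrum A} {p : ℕ} {f g : κ} (hf : DivAt P p f)
    (hg : DivAt P p g) : DivAt P p (f * g) := by
  obtain ⟨a, ha, h1⟩ := hf
  obtain ⟨b, hb, h2⟩ := hg
  refine ⟨a * b, mul_ne_zero ha hb, ?_⟩
  rw [show (a * b) ^ p * (f * g) = (a ^ p * f) * (b ^ p * g) by ring, map_mul, h1, h2, one_mul]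

theorem DivAt.inv {P : HeightOneSpectrum A} {p : ℕ} {f : κ} (hf : DivAt P p f) :
    DivAt P p f⁻¹ := by
  obtain ⟨a, ha, h1⟩ := hf
  refine ⟨a⁻¹, inv_ne_zero ha, ?_⟩
  rw [show a⁻¹ ^ p * f⁻¹ = (a ^ p * f)⁻¹ by rw [mul_inv, inv_pow], map_inv₀, h1, inv_one]

theorem DivAt.pow {P : HeightOneSpectrum A} {p : ℕ} {f : κ} (hf : DivAt P p f) (n : ℕ) :
    DivAt P p (f ^ n) := by
  obtain ⟨a, ha, h1⟩ := hf
  refine ⟨a ^ n, pow_ne_zero _ ha, ?_⟩
  rw [show (a ^ n) ^ p * f ^ n = (a ^ p * f) ^ n by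
    rw [mul_pow, ← pow_mul, ← pow_mul, mul_comm n p], map_pow, h1, one_pow]

theorem divAt_pow_self (P : HeightOneSpectrum A) (p : ℕ) {h : κ} (hh : h ≠ 0) :
    DivAt P p (h ^ p) := by
  refine ⟨h⁻¹, inv_ne_zero hh, ?_⟩
  rw [← mul_pow, inv_mul_cancel₀ hh, one_pow, map_one]

theorem divAt_of_valuation_eq_one {P : HeightOneSpectrum A} (p : ℕ) {f : κ}
    (hf : P.valuation κ f = 1) : DivAt P p f :=
  ⟨1, one_ne_zero, by rw [one_pow, one_mul, hf]⟩

/-- `DivAt` in terms of the integer valued order. -/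
theorem divAt_iff {P : HeightOneSpectrum A} {p : ℕ} {f : κ} (hf : f ≠ 0) :
    DivAt P p f ↔ (p : ℤ) ∣ WithZero.log (P.valuation κ f) := by
  have hvf : P.valuation κ f ≠ 0 := (Valuation.ne_zero_iff _).2 hf
  constructor
  · rintro ⟨a, ha, h⟩
    have hva : P.valuation κ a ≠ 0 := (Valuation.ne_zero_iff _).2 ha
    have h1 := congrArg WithZero.log h
    rw [map_mul, map_pow, WithZero.log_mul (pow_ne_zero _ hva) hvf, WithZero.log_pow,
      WithZero.log_one] at h1
    refine ⟨-WithZero.log (P.valuation κ a), ?_⟩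
    have h2 : WithZero.log (P.valuation κ f) = -(p • WithZero.log (P.valuation κ a)) := by
      linarith
    rw [h2, nsmul_eq_mul]
    ring
  · rintro ⟨k, hk⟩
    obtain ⟨π, hπ⟩ := P.valuation_exists_uniformizer κ
    have hπ0 : π ≠ 0 := by
      rintro rfl
      rw [map_zero] at hπ
      exact WithZero.exp_ne_zero hπ.symm
    refine ⟨π ^ k, zpow_ne_zero _ hπ0, ?_⟩
    rw [map_mul, map_pow, map_zpow₀, hπ, ← WithZero.exp_log hvf, hk, ← WithZero.exp_zsmul,
      ← WithZero.exp_nsmul, ← WithZero.exp_add, ← WithZero.exp_zero]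
    congr 1
    simp only [smul_eq_mul, nsmul_eq_mul]
    ring

/-- if `p` is prime, `p ∤ n` and `p ∣ ord_P (f ^ n)` then `p ∣ ord_P f`. -/
theorem DivAt.of_pow {P : HeightOneSpectrum A} {p : ℕ} (hp : p.Prime) {f : κ} {n : ℕ}
    (hn : ¬ p ∣ n) (h : DivAt P p (f ^ n)) : DivAt P p f := by
  have hf : f ≠ 0 := by
    rintro rfl
    have hn0 : n ≠ 0 := by rintro rfl; exact hn (dvd_zero _)
    exact h.ne_zero (zero_pow hn0)
  rw [divAt_iff (pow_ne_zero _ hf), map_pow, WithZero.log_pow, nsmul_eq_mul] at h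
  rw [divAt_iff hf]
  rcases (Nat.prime_iff_prime_int.mp hp).dvd_or_dvd h with h1 | h1
  · exact absurd (Int.natCast_dvd_natCast.mp h1) hn
  · exact h1

theorem Abs_exists_int (S : Finset (HeightOneSpectrum A)) (m : HeightOneSpectrum A → ℕ) :
    ∃ y : A, y ≠ 0 ∧ ∀ P ∈ S, P.valuation κ (algebraMap A κ y) = WithZero.exp (-(m P : ℤ)) := by
  classical
  rcases S.eq_empty_or_nonempty with rfl | hS
  · exact ⟨1, one_ne_zero, by simp⟩
  choose π hπ using fun P : HeightOneSpectrum A => P.intValuation_exists_uniformizer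
  obtain ⟨y, hy⟩ := IsDedekindDomain.exists_forall_sub_mem_ideal (s := S)
    (fun P : HeightOneSpectrum A => P.asIdeal) (fun P => m P + 1) (fun P _ => P.prime)
    (fun P _ Q _ hPQ h => hPQ (HeightOneSpectrum.ext h)) (fun P => π P.1 ^ m P.1)
  have key : ∀ P ∈ S, P.valuation κ (algebraMap A κ y) = WithZero.exp (-(m P : ℤ)) := by
    intro P hP
    have h1 := hy P hP
    rw [← P.intValuation_le_pow_iff_mem] at h1
    have h2 : P.intValuation (π P ^ m P) = WithZero.exp (-(m P : ℤ)) := by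
      rw [map_pow, hπ, ← WithZero.exp_nsmul]
      congr 1
      simp
    rw [HeightOneSpectrum.valuation_of_algebraMap, ← h2]
    apply Valuation.map_eq_of_sub_lt
    rw [h2]
    refine lt_of_le_of_lt h1 ?_
    rw [WithZero.exp_lt_exp]
    push_cast
    omega
  refine ⟨y, ?_, key⟩
  rintro rfl
  obtain ⟨P, hP⟩ := hS
  have := key P hP
  rw [map_zero, map_zero] at this
  exact WithZero.exp_ne_zero this.symm

/-- simultaneous approximation at finitely many primes. -/
theorem exists_forall_valuation_eq (S : Finset (HeightOneSpectrum A)) (n : HeightOneSpectrum A → ℤ) :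
    ∃ a : κ, a ≠ 0 ∧ ∀ P ∈ S, P.valuation κ a = WithZero.exp (n P) := by
  obtain ⟨y₁, hy₁, h₁⟩ := Abs_exists_int (κ := κ) S (fun P => (-n P).toNat)
  obtain ⟨y₂, hy₂, h₂⟩ := Abs_exists_int (κ := κ) S (fun P => (n P).toNat)
  have hinj := IsFractionRing.injective A κ
  have e₁ : algebraMap A κ y₁ ≠ 0 := by simpa using hinj.ne hy₁
  have e₂ : algebraMap A κ y₂ ≠ 0 := by simpa using hinj.ne hy₂
  refine ⟨algebraMap A κ y₁ / algebraMap A κ y₂, div_ne_zero e₁ e₂, fun P hP => ?_⟩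
  rw [map_div₀, h₁ P hP, h₂ P hP, ← WithZero.exp_sub]
  congr 1
  have := Int.toNat_sub_toNat_neg (n P)
  omega

theorem Abs_exists_common_root (S : Finset (HeightOneSpectrum A)) {p : ℕ} {f : κ}
    (hf : ∀ P ∈ S, DivAt P p f) :
    ∃ a : κ, a ≠ 0 ∧ ∀ P ∈ S, P.valuation κ (a ^ p * f) = 1 := by
  obtain ⟨a, ha, h⟩ := exists_forall_valuation_eq (κ := κ) S
    (fun P => -(WithZero.log (P.valuation κ f) / (p : ℤ)))
  refine ⟨a, ha, fun P hP => ?_⟩
  have hf0 := (hf P hP).ne_zero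
  have hvf : P.valuation κ f ≠ 0 := (Valuation.ne_zero_iff _).2 hf0
  have hd := (divAt_iff hf0).1 (hf P hP)
  set m := WithZero.log (P.valuation κ f) with hm
  have hfm : P.valuation κ f = WithZero.exp m := (WithZero.exp_log hvf).symm
  rw [map_mul, map_pow, h P hP, ← WithZero.exp_nsmul, hfm, ← WithZero.exp_add,
    ← WithZero.exp_zero]
  congr 1
  rw [nsmul_eq_mul, mul_neg, WithZero.log_exp, Int.mul_ediv_cancel' hd]
  ring

theorem Abs_frac (P' : Ideal A) (ε : κ) (hε : ε ≠ 0)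
    (h : P' = ⊥ ∨ ∃ v : HeightOneSpectrum A, v.asIdeal = P' ∧ v.valuation κ ε = 1) :
    ∃ b c : A, b ∉ P' ∧ c ∉ P' ∧ ε * algebraMap A κ c = algebraMap A κ b := by
  rcases h with rfl | ⟨v, rfl, hv⟩
  · obtain ⟨b, c, hc, rfl⟩ := IsFractionRing.div_surjective (A := A) ε
    have hc0 : c ≠ 0 := nonZeroDivisors.ne_zero hc
    have hc1 : algebraMap A κ c ≠ 0 := by
      simpa using (IsFractionRing.injective A κ).ne hc0
    refine ⟨b, c, ?_, by simpa using hc0, div_mul_cancel₀ _ hc1⟩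
    rw [Ideal.mem_bot]
    rintro rfl
    simp at hε
  · obtain ⟨n, d, hnd⟩ := v.exists_primeCompl_mul_eq_of_integer ε hv.le
    refine ⟨n, d, ?_, d.2, hnd⟩
    rw [← HeightOneSpectrum.valuation_eq_one_iff_notMem (K := κ), ← hnd, map_mul, hv, one_mul,
      HeightOneSpectrum.valuation_eq_one_iff_notMem]
    exact d.2

section Corr

variable {Ω ι : Type*} [Field Ω] [Fintype ι] (ι₀ : κ →+* Ω) (σ : ι → κ →+* Ω)

/-- Key lemma: let `Q` be a prime of the integral closure `B` of `ι₀ A` in `Ω` above `P`.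
If `ε` is a unit at all the primes `σ i ⁻¹ Q` of `A`, then any `e` with `ι₀ e = ∏ σ i ε` is a unit
at `P`. -/
theorem valuation_eq_one_of_prod
    (hint : ∀ (i : ι) (a : A), (ι₀.comp (algebraMap A κ)).IsIntegralElem (σ i (algebraMap A κ a)))
    (P : HeightOneSpectrum A) :
    ∃ S : Finset (HeightOneSpectrum A), ∀ ε e : κ, (∀ P' ∈ S, P'.valuation κ ε = 1) →
      ι₀ e = ∏ i, σ i ε → P.valuation κ e = 1 := by
  classical
  let _ : Algebra A Ω := (ι₀.comp (algebraMap A κ)).toAlgebra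
  have halg : ∀ a : A, algebraMap A Ω a = ι₀ (algebraMap A κ a) := fun _ => rfl
  have hinj : Function.Injective (algebraMap A Ω) :=
    ι₀.injective.comp (IsFractionRing.injective A κ)
  let B := integralClosure A Ω
  have hinjB : Function.Injective (algebraMap A B) := by
    intro x y hxy
    exact hinj (congrArg (fun z : B => (z : Ω)) hxy)
  have hPp : P.asIdeal.IsPrime := P.isPrime
  obtain ⟨Q, hQp, hQ⟩ := Ideal.exists_ideal_over_prime_of_isIntegral_of_isDomain P.asIdeal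
    (S := B) (by
      rw [(RingHom.injective_iff_ker_eq_bot _).mp hinjB]
      exact bot_le)
  let τ : ι → A →+* B := fun i =>
    ((σ i).comp (algebraMap A κ)).codRestrict B (fun a => hint i a)
  have hτ : ∀ i a, ((τ i a : B) : Ω) = σ i (algebraMap A κ a) := fun _ _ => rfl
  have hprime : ∀ i, (Q.comap (τ i)).IsPrime := fun i => Ideal.comap_isPrime _ _
  let g : ι → HeightOneSpectrum A := fun i =>
    if h : Q.comap (τ i) ≠ ⊥ then ⟨Q.comap (τ i), hprime i, h⟩ else P
  have hmem : ∀ a : A, algebraMap A B a ∈ Q ↔ a ∈ P.asIdeal := by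
    intro a
    rw [← hQ, Ideal.mem_comap]
  -- the key statement
  have key : ∀ (x : κ) (β γ : B), β ∉ Q → γ ∉ Q → ι₀ x * (γ : Ω) = (β : Ω) →
      P.valuation κ x ≤ 1 → P.valuation κ x = 1 := by
    intro x β γ hβ hγ hx hle
    obtain ⟨n, d, hnd⟩ := P.exists_primeCompl_mul_eq_of_integer x hle
    have hd : (d : A) ∉ P.asIdeal := d.2
    have h1 : algebraMap A B n * γ = β * algebraMap A B d := by
      apply Subtype.ext
      show algebraMap A Ω n * (γ : Ω) = (β : Ω) * algebraMap A Ω d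
      rw [halg, halg, ← hnd, map_mul, ← hx]
      ring
    have h2 : β * algebraMap A B d ∉ Q := by
      intro h
      rcases hQp.mem_or_mem h with h | h
      · exact hβ h
      · exact hd (hmem _ |>.mp h)
    have h3 : n ∉ P.asIdeal := by
      intro h
      apply h2
      rw [← h1]
      exact Ideal.mul_mem_right _ _ ((hmem _).mpr h)
    have h4 := congrArg (P.valuation κ) hnd
    rw [map_mul, (HeightOneSpectrum.valuation_eq_one_iff_notMem (K := κ) P).mpr hd,
      (HeightOneSpectrum.valuation_eq_one_iff_notMem (K := κ) P).mpr h3, mul_one] at h4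
    exact h4
  refine ⟨insert P (Finset.univ.image g), fun ε e hε he => ?_⟩
  have hε0 : ε ≠ 0 := by
    rintro rfl
    have := hε P (Finset.mem_insert_self _ _)
    simp at this
  have hfrac : ∀ i, ∃ b c : A, b ∉ Q.comap (τ i) ∧ c ∉ Q.comap (τ i) ∧
      ε * algebraMap A κ c = algebraMap A κ b := by
    intro i
    apply Abs_frac _ ε hε0
    by_cases h : Q.comap (τ i) = ⊥
    · exact Or.inl h
    · refine Or.inr ⟨g i, ?_, hε _ (Finset.mem_insert_of_mem
        (Finset.mem_image_of_mem g (Finset.mem_univ i)))⟩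
      simp only [g, dif_pos (show Q.comap (τ i) ≠ ⊥ from h)]
  choose b c hb hc hbc using hfrac
  set β : B := ∏ i, τ i (b i) with hβdef
  set γ : B := ∏ i, τ i (c i) with hγdef
  have hβ : β ∉ Q := by
    rw [hβdef, Ideal.IsPrime.prod_mem_iff]
    rintro ⟨i, -, hi⟩
    exact hb i hi
  have hγ : γ ∉ Q := by
    rw [hγdef, Ideal.IsPrime.prod_mem_iff]
    rintro ⟨i, -, hi⟩
    exact hc i hi
  have hβΩ : (β : Ω) = ∏ i, σ i (algebraMap A κ (b i)) := by
    rw [hβdef, ← Subalgebra.coe_val, map_prod]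
    rfl
  have hγΩ : (γ : Ω) = ∏ i, σ i (algebraMap A κ (c i)) := by
    rw [hγdef, ← Subalgebra.coe_val, map_prod]
    rfl
  have hrel : ι₀ e * (γ : Ω) = (β : Ω) := by
    rw [he, hβΩ, hγΩ, ← Finset.prod_mul_distrib]
    refine Finset.prod_congr rfl fun i _ => ?_
    rw [← map_mul, hbc]
  have hβ0 : (β : Ω) ≠ 0 := by
    intro h
    apply hβ
    have : β = 0 := Subtype.ext h
    rw [this]
    exact Q.zero_mem
  have he0 : e ≠ 0 := by
    rintro rfl
    rw [map_zero, zero_mul] at hrel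
    exact hβ0 hrel.symm
  rcases le_total (P.valuation κ e) 1 with hle | hle
  · exact key e β γ hβ hγ hrel hle
  · have h1 : P.valuation κ e⁻¹ = 1 := by
      apply key e⁻¹ γ β hγ hβ
      · rw [← hrel, map_inv₀, ← mul_assoc, inv_mul_cancel₀ (by simpa using he0), one_mul]
      · rw [map_inv₀]
        exact inv_le_one_of_one_le₀ hle
    rw [map_inv₀, inv_eq_one] at h1
    exact h1

/-- **Main abstract theorem.** -/
theorem divAll_of_prod
    (hint : ∀ (i : ι) (a : A), (ι₀.comp (algebraMap A κ)).IsIntegralElem (σ i (algebraMap A κ a)))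
    (T : κ → κ) (hT : ∀ g : κ, ι₀ (T g) = ∏ i, σ i g) {p : ℕ} {f : κ} (hf : DivAll A p f) :
    DivAll A p (T f) := by
  intro P
  obtain ⟨S, hS⟩ := valuation_eq_one_of_prod ι₀ σ hint P
  obtain ⟨a, ha, h⟩ := Abs_exists_common_root S (fun P' _ => hf P')
  have hTa : T a ≠ 0 := by
    intro h0
    have h1 := hT a
    rw [h0, map_zero] at h1
    exact (Finset.prod_ne_zero_iff.mpr fun i _ => (map_ne_zero (σ i)).mpr ha) h1.symm
  refine ⟨T a, hTa, hS (a ^ p * f) _ h ?_⟩
  rw [map_mul, map_pow, hT, hT, ← Finset.prod_pow, ← Finset.prod_mul_distrib]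
  refine Finset.prod_congr rfl fun i _ => ?_
  rw [map_mul, map_pow]

/-- **Constant slopes force the Eisenstein eigenvalue.**
`u` = reduction of the Kummer function, `d` = reduction of `Δ(q)/Δ(q^p)`, `r` the slope
(`12 ord_P u ≡ r ord_P d` for all `P`), `T u = c u^a h^p`, `T d = c' d^(ℓ+1)`. -/
theorem dvd_of_slopes
    (hint : ∀ (i : ι) (a : A), (ι₀.comp (algebraMap A κ)).IsIntegralElem (σ i (algebraMap A κ a)))
    (T : κ → κ) (hT : ∀ g : κ, ι₀ (T g) = ∏ i, σ i g) {p : ℕ} (hp : p.Prime)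
    {u d h c c' : κ} {r a ℓ : ℕ} (hd0 : d ≠ 0)
    (hslope : DivAll A p (u ^ 12 * (d ^ r)⁻¹))
    (hc : ∀ P : HeightOneSpectrum A, P.valuation κ c = 1)
    (hc' : ∀ P : HeightOneSpectrum A, P.valuation κ c' = 1)
    (hu : T u = c * u ^ a * h ^ p) (hh : h ≠ 0) (hd : T d = c' * d ^ (ℓ + 1))
    (P₀ : HeightOneSpectrum A) (hP₀ : ¬ DivAt P₀ p d) :
    (p : ℤ) ∣ (r : ℤ) * ((ℓ : ℤ) + 1 - a) := by
  have hTF := divAll_of_prod ι₀ σ hint T hT hslope P₀
  have hF := hslope P₀
  have hu0 : u ≠ 0 := by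
    rintro rfl
    exact hF.ne_zero (by simp)
  have hc0 : c ≠ 0 := by
    rintro rfl
    have := hc P₀
    simp at this
  have hc0' : c' ≠ 0 := by
    rintro rfl
    have := hc' P₀
    simp at this
  have hTeq : T (u ^ 12 * (d ^ r)⁻¹) = (T u) ^ 12 * ((T d) ^ r)⁻¹ := by
    apply ι₀.injective
    rw [map_mul, map_pow, map_inv₀, map_pow, hT, hT, hT, ← Finset.prod_pow, ← Finset.prod_pow,
      ← Finset.prod_inv_distrib, ← Finset.prod_mul_distrib]
    refine Finset.prod_congr rfl fun i _ => ?_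
    rw [map_mul, map_pow, map_inv₀, map_pow]
  rw [hTeq, hu, hd] at hTF
  set o : κ → ℤ := fun x => WithZero.log (P₀.valuation κ x) with ho
  have omul : ∀ x y : κ, x ≠ 0 → y ≠ 0 → o (x * y) = o x + o y := by
    intro x y hx hy
    simp only [ho]
    rw [map_mul, WithZero.log_mul ((Valuation.ne_zero_iff _).2 hx) ((Valuation.ne_zero_iff _).2 hy)]
  have opow : ∀ (x : κ) (n : ℕ), o (x ^ n) = n * o x := by
    intro x n
    simp only [ho]
    rw [map_pow, WithZero.log_pow, nsmul_eq_mul]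
  have oinv : ∀ x : κ, o x⁻¹ = -o x := by
    intro x
    simp only [ho]
    rw [map_inv₀, WithZero.log_inv]
  have oc : o c = 0 := by simp only [ho]; rw [hc, WithZero.log_one]
  have oc' : o c' = 0 := by simp only [ho]; rw [hc', WithZero.log_one]
  rw [divAt_iff hF.ne_zero] at hF
  rw [divAt_iff hTF.ne_zero] at hTF
  rw [divAt_iff hd0] at hP₀
  change (p : ℤ) ∣ o _ at hF
  change (p : ℤ) ∣ o _ at hTF
  change ¬ (p : ℤ) ∣ o d at hP₀
  rw [omul _ _ (pow_ne_zero _ hu0) (inv_ne_zero (pow_ne_zero _ hd0)), opow, oinv, opow] at hF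
  rw [omul _ _ (pow_ne_zero _ (mul_ne_zero (mul_ne_zero hc0 (pow_ne_zero _ hu0))
      (pow_ne_zero _ hh))) (inv_ne_zero (pow_ne_zero _ (mul_ne_zero hc0' (pow_ne_zero _ hd0)))),
    opow, oinv, opow, omul _ _ (mul_ne_zero hc0 (pow_ne_zero _ hu0)) (pow_ne_zero _ hh),
    omul _ _ hc0 (pow_ne_zero _ hu0), omul _ _ hc0' (pow_ne_zero _ hd0), opow, opow, opow, oc,
    oc'] at hTF
  have h1 : (p : ℤ) ∣ ((r : ℤ) * ((ℓ : ℤ) + 1 - a)) * o d := by
    obtain ⟨x, hx⟩ := hF
    obtain ⟨y, hy⟩ := hTF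
    refine ⟨a * x - y + 12 * o h, ?_⟩
    push_cast at hx hy ⊢
    linear_combination (a : ℤ) * hx - hy
  rcases (Nat.prime_iff_prime_int.mp hp).dvd_or_dvd h1 with h2 | h2
  · exact h2
  · exact absurd h2 hP₀

end Corr

end Fermat.Agent.LP.EIS
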