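import Fermat.Agent.LP.EIS.EtaLim

/-!
# LP-EIS, formal part 3: `T_ℓ d = d^{ℓ+1}` for `d = Δ(q)/Δ(q^p)`.
-/

set_option autoImplicit false

noncomputable section

namespace Fermat.Agent.LP.EIS

open ModularCurve Fermat.Agent.GR Fermat.Agent.S28

variable {Λ : Type*} [CommRing Λ]

theorem dS_mul_dInvS (p : ℕ) [NeZero p] : dS Λ p * dInvS Λ p = 1 := by
  unfold dS dInvS
  rw [mul_mul_mul_comm, deltaL_mul_deltaInvL, ← map_mul, mul_comm (deltaInvL Λ),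
    deltaL_mul_deltaInvL, map_one, one_mul]

theorem coeffMap_dS {Λ' : Type*} [CommRing Λ'] (φ : Λ →+* Λ') (p : ℕ) [NeZero p] :
    coeffMap φ (dS Λ p) = dS Λ' p := by
  unfold dS
  rw [map_mul, coeffMap_deltaL, coeffMap_qExpand, coeffMap_deltaInvL]

theorem coeffMap_dInvS {Λ' : Type*} [CommRing Λ'] (φ : Λ →+* Λ') (p : ℕ) [NeZero p] :
    coeffMap φ (dInvS Λ p) = dInvS Λ' p := by
  unfold dInvS
  rw [map_mul, coeffMap_deltaInvL, coeffMap_qExpand, coeffMap_deltaL]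

theorem dS_ne_zero [Nontrivial Λ] (p : ℕ) [NeZero p] : dS Λ p ≠ 0 := by
  intro h
  have h1 := dS_mul_dInvS (Λ := Λ) p
  rw [h, zero_mul] at h1
  exact zero_ne_one h1

theorem dInvS_eq_inv (K : Type*) [Field K] (p : ℕ) [NeZero p] : dInvS K p = (dS K p)⁻¹ :=
  eq_inv_of_mul_eq_one_right (dS_mul_dInvS p)

/-- `Δ = q η^24`. -/
theorem deltaL_eq : deltaL Λ = HahnSeries.single (1 : ℤ) (1 : Λ) * etaL Λ ^ 24 := by
  unfold deltaL etaL dedekindEtaUnit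
  rw [map_pow, map_pow]

theorem Formal_scaleHom_single (c : Λˣ) (n : ℤ) (a : Λ) :
    scaleHom c (HahnSeries.single n a) = HahnSeries.single n (((c ^ n : Λˣ) : Λ) * a) := by
  ext m
  rw [scaleHom_coeff, HahnSeries.coeff_single, HahnSeries.coeff_single]
  split_ifs with h
  · rw [h]
  · rw [mul_zero]

theorem Formal_prod_single (s : Finset ℕ) (a : ℕ → Λ) :
    ∏ j ∈ s, HahnSeries.single (1 : ℤ) (a j) = HahnSeries.single (s.card : ℤ) (∏ j ∈ s, a j) := by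
  classical
  induction s using Finset.induction_on with
  | empty => simp
  | insert j s hj ih =>
    rw [Finset.prod_insert hj, Finset.prod_insert hj, ih, HahnSeries.single_mul_single,
      Finset.card_insert_of_notMem hj]
    have h : (1 : ℤ) + (s.card : ℤ) = ((s.card + 1 : ℕ) : ℤ) := by
      push_cast
      ring
    rw [h]

theorem Formal_Uop_single (ℓ : ℕ) [NeZero ℓ] (a : Λ) :
    Uop ℓ (HahnSeries.single (ℓ : ℤ) a) = HahnSeries.single (1 : ℤ) a := by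
  have h : HahnSeries.single (ℓ : ℤ) a = qExpand Λ ℓ (HahnSeries.single (1 : ℤ) a) := by
    rw [qExpand_single, mul_one]
  rw [h, Uop_qExpand]

/-- the product of all `ℓ`-th roots of unity. -/
theorem Formal_prod_pow [IsDomain Λ] (ℓ : ℕ) (hℓ : ℓ.Prime) (ζ : Λˣ) (hζ : IsPrimitiveRoot ζ ℓ) :
    ∏ j ∈ Finset.range ℓ, (((ζ ^ j) ^ (1 : ℤ) : Λˣ) : Λ) * 1 = (-1 : Λ) ^ (ℓ - 1) := by
  simp only [zpow_one, mul_one]
  rcases hℓ.eq_two_or_odd' with rfl | hodd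
  · have h2 : IsPrimitiveRoot (ζ : Λ) 2 := IsPrimitiveRoot.coe_units_iff.2 hζ
    rw [Finset.prod_range_succ, Finset.prod_range_one, pow_zero, pow_one, Units.val_one, one_mul,
      h2.eq_neg_one_of_two_right]
    norm_num
  · obtain ⟨k, hk⟩ := hodd
    have h1 : ∏ j ∈ Finset.range ℓ, ((ζ ^ j : Λˣ) : Λ) = ((ζ ^ (∑ j ∈ Finset.range ℓ, j) : Λˣ) : Λ) := by
      rw [← Finset.prod_pow_eq_pow_sum, Units.coe_prod]
    have h2 : ∑ j ∈ Finset.range ℓ, j = ℓ * k := by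
      have := Finset.sum_range_id_mul_two ℓ
      have h3 : ℓ - 1 = 2 * k := by omega
      rw [h3] at this
      have h4 : (∑ j ∈ Finset.range ℓ, j) * 2 = (ℓ * k) * 2 := by
        rw [this]
        ring
      exact Nat.eq_of_mul_eq_mul_right (by norm_num) h4
    rw [h1, h2, pow_mul, hζ.pow_eq_one, one_pow, Units.val_one]
    have h3 : ℓ - 1 = 2 * k := by omega
    rw [h3, pow_mul, neg_one_sq, one_pow]

/-- `T_ℓ q = (-1)^{ℓ-1} q^{ℓ+1}`. -/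
theorem heckeMulT_single [IsDomain Λ] (ℓ : ℕ) [NeZero ℓ] (hℓ : ℓ.Prime) (ζ : Λˣ)
    (hζ : IsPrimitiveRoot ζ ℓ) :
    heckeMulT ℓ ζ (HahnSeries.single (1 : ℤ) (1 : Λ))
      = HahnSeries.C ((-1 : Λ) ^ (ℓ - 1)) * HahnSeries.single ((ℓ : ℤ) + 1) (1 : Λ) := by
  unfold heckeMulT normT
  simp only [Formal_scaleHom_single]
  rw [Formal_prod_single, Finset.card_range, Formal_Uop_single, Formal_prod_pow ℓ hℓ ζ hζ,
    qExpand_single, mul_one, HahnSeries.single_mul_single, one_mul, HahnSeries.C_apply,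
    HahnSeries.single_mul_single, zero_add, mul_one]

theorem Formal_heckeMulT_one (ℓ : ℕ) [NeZero ℓ] (ζ : Λˣ) :
    heckeMulT ℓ ζ (1 : LaurentSeries Λ) = 1 := by
  have h := heckeMulT_C ℓ ζ (1 : Λ)
  rwa [one_pow, map_one] at h

theorem Formal_heckeMulT_pow [IsDomain Λ] (ℓ : ℕ) [NeZero ℓ] (ζ : Λˣ) (hζ : IsPrimitiveRoot ζ ℓ)
    (u : LaurentSeries Λ) (n : ℕ) : heckeMulT ℓ ζ (u ^ n) = heckeMulT ℓ ζ u ^ n := by
  induction n with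
  | zero => rw [pow_zero, pow_zero, Formal_heckeMulT_one]
  | succ n ih => rw [pow_succ, pow_succ, heckeMulT_mul ℓ ζ hζ, ih]

theorem Formal_sign_sq (ℓ : ℕ) : ((-1 : Λ) ^ (ℓ - 1)) * ((-1 : Λ) ^ (ℓ - 1)) = 1 := by
  rw [← mul_pow, neg_one_mul, neg_neg, one_pow]

/-- `T_ℓ Δ = (-1)^{ℓ-1} Δ^{ℓ+1}`. -/
theorem heckeMulT_deltaL [IsDomain Λ] (ℓ : ℕ) [NeZero ℓ] (hℓ : ℓ.Prime) (ζ : Λˣ)
    (hζ : IsPrimitiveRoot ζ ℓ) :
    heckeMulT ℓ ζ (deltaL Λ) = HahnSeries.C ((-1 : Λ) ^ (ℓ - 1)) * deltaL Λ ^ (ℓ + 1) := by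
  rw [deltaL_eq, heckeMulT_mul ℓ ζ hζ, Formal_heckeMulT_pow ℓ ζ hζ, heckeMulT_etaL ℓ hℓ ζ hζ,
    heckeMulT_single ℓ hℓ ζ hζ, mul_pow, HahnSeries.single_pow, one_pow, ← pow_mul, ← pow_mul,
    mul_comm 24 (ℓ + 1), mul_assoc]
  congr 3
  simp

/-- `T_ℓ Δ⁻¹ = (-1)^{ℓ-1} Δ^{-(ℓ+1)}`. -/
theorem heckeMulT_deltaInvL [IsDomain Λ] (ℓ : ℕ) [NeZero ℓ] (hℓ : ℓ.Prime) (ζ : Λˣ)
    (hζ : IsPrimitiveRoot ζ ℓ) :
    heckeMulT ℓ ζ (deltaInvL Λ) = HahnSeries.C ((-1 : Λ) ^ (ℓ - 1)) * deltaInvL Λ ^ (ℓ + 1) := by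
  have h1 : heckeMulT ℓ ζ (deltaInvL Λ) * heckeMulT ℓ ζ (deltaL Λ) = 1 := by
    rw [← heckeMulT_mul ℓ ζ hζ, mul_comm, deltaL_mul_deltaInvL, Formal_heckeMulT_one]
  have h2 : heckeMulT ℓ ζ (deltaL Λ) *
      (HahnSeries.C ((-1 : Λ) ^ (ℓ - 1)) * deltaInvL Λ ^ (ℓ + 1)) = 1 := by
    rw [heckeMulT_deltaL ℓ hℓ ζ hζ, mul_mul_mul_comm, ← map_mul, Formal_sign_sq, map_one, one_mul,
      ← mul_pow, deltaL_mul_deltaInvL, one_pow]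
  exact left_inv_eq_right_inv h1 h2

theorem Formal_scaleHom_qExpand (p : ℕ) [NeZero p] (c : Λˣ) (u : LaurentSeries Λ) :
    scaleHom c (qExpand Λ p u) = qExpand Λ p (scaleHom (c ^ p) u) := by
  ext n
  by_cases hn : (p : ℤ) ∣ n
  · obtain ⟨m, rfl⟩ := hn
    rw [scaleHom_coeff, qExpand_coeff_mul, qExpand_coeff_mul, scaleHom_coeff, zpow_mul,
      zpow_natCast]
  · rw [scaleHom_coeff, qExpand_coeff_of_not_dvd p _ hn, qExpand_coeff_of_not_dvd p _ hn, mul_zero]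

theorem Formal_qExpand_comm (ℓ p : ℕ) [NeZero ℓ] [NeZero p] (u : LaurentSeries Λ) :
    qExpand Λ ℓ (qExpand Λ p u) = qExpand Λ p (qExpand Λ ℓ u) := by
  have : NeZero (ℓ * p) := ⟨mul_ne_zero (NeZero.ne ℓ) (NeZero.ne p)⟩
  have : NeZero (p * ℓ) := ⟨mul_ne_zero (NeZero.ne p) (NeZero.ne ℓ)⟩
  rw [qExpand_qExpand, qExpand_qExpand]
  exact qExpand_congr (mul_comm ℓ p) u

theorem Formal_normT_qExpand [IsDomain Λ] (ℓ p : ℕ) [NeZero ℓ] [NeZero p] (hℓ : ℓ.Prime)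
    (hℓp : ¬ ℓ ∣ p) (ζ : Λˣ) (hζ : IsPrimitiveRoot ζ ℓ) (u : LaurentSeries Λ) :
    normT ℓ ζ (qExpand Λ p u) = qExpand Λ p (normT ℓ ζ u) := by
  have hζp : IsPrimitiveRoot (ζ ^ p) ℓ :=
    hζ.pow_of_coprime p ((Nat.Prime.coprime_iff_not_dvd hℓ).2 hℓp).symm
  apply qExpand_injective (R := Λ) ℓ
  rw [qExpand_normT ℓ ζ hζ, Formal_qExpand_comm, normT_eq_of_isPrimitiveRoot ℓ ζ (ζ ^ p) hζ hζp,
    qExpand_normT ℓ (ζ ^ p) hζp, map_prod]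
  refine Finset.prod_congr rfl fun j _ => ?_
  rw [Formal_scaleHom_qExpand, ← pow_mul, ← pow_mul, mul_comm j p]

/-- `T_ℓ` commutes with `q ↦ q^p` for `ℓ ∤ p`. -/
theorem heckeMulT_qExpand [IsDomain Λ] (ℓ p : ℕ) [NeZero ℓ] [NeZero p] (hℓ : ℓ.Prime)
    (hℓp : ¬ ℓ ∣ p) (ζ : Λˣ) (hζ : IsPrimitiveRoot ζ ℓ) (u : LaurentSeries Λ) :
    heckeMulT ℓ ζ (qExpand Λ p u) = qExpand Λ p (heckeMulT ℓ ζ u) := by
  unfold heckeMulT
  rw [map_mul, Formal_normT_qExpand ℓ p hℓ hℓp ζ hζ, Formal_qExpand_comm]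

/-- **`T_ℓ d = d^{ℓ+1}`.** -/
theorem heckeMulT_dS [IsDomain Λ] (ℓ p : ℕ) [NeZero ℓ] [NeZero p] (hℓ : ℓ.Prime)
    (hℓp : ¬ ℓ ∣ p) (ζ : Λˣ) (hζ : IsPrimitiveRoot ζ ℓ) :
    heckeMulT ℓ ζ (dS Λ p) = dS Λ p ^ (ℓ + 1) := by
  unfold dS
  rw [heckeMulT_mul ℓ ζ hζ, heckeMulT_qExpand ℓ p hℓ hℓp ζ hζ, heckeMulT_deltaL ℓ hℓ ζ hζ,
    heckeMulT_deltaInvL ℓ hℓ ζ hζ, map_mul, qExpand_C, mul_mul_mul_comm, ← map_mul,
    Formal_sign_sq, map_one, one_mul, map_pow, mul_pow]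

end Fermat.Agent.LP.EIS
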