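import Fermat.Agent.GR.S.R.Gauss

/-!
# LP-EIS: a valuation subring of `K((q))` dominating the Gauss localisation of `A((q))`
-/

set_option autoImplicit false
set_option synthInstance.maxHeartbeats 400000

noncomputable section

namespace Fermat.Agent.LP.EIS

open ModularCurve Fermat.Agent.GR Fermat.Agent.GR.E Fermat.Agent.GR.S.R

/-- all the coefficients lie in the maximal ideal. -/
def IsSmall {K : Type*} [Field K] (A : ValuationSubring K) (f : LaurentSeries K) : Prop :=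
  ∀ n : ℤ, f.coeff n ∈ A.nonunits

/-- `G` dominates the localisation of `A((q))` at the prime `𝔪_A((q))`. -/
structure IsGaussExt {K : Type*} [Field K] (A : ValuationSubring K)
    (G : ValuationSubring (LaurentSeries K)) : Prop where
  int_mem : ∀ f, IsInt A f → f ∈ G
  prim_inv_mem : ∀ g, IsPrim A g → g⁻¹ ∈ G
  small_mem : ∀ f, IsSmall A f → f ∈ G.nonunits

section GaussExtAux

variable {K : Type*} [Field K] (A : ValuationSubring K)

theorem GaussExt_small_of_not_prim {f : LaurentSeries K} (hf : IsInt A f) (h : ¬ IsPrim A f) :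
    IsSmall A f := by
  intro n
  by_contra hn
  exact h ⟨hf, n, hn⟩

theorem GaussExt_small_int {f : LaurentSeries K} (hf : IsSmall A f) : IsInt A f :=
  fun n => A.nonunits_subset (hf n)

theorem GaussExt_small_mul {f g : LaurentSeries K} (hf : IsSmall A f) (hg : IsInt A g) :
    IsSmall A (f * g) :=
  GaussExt_small_of_not_prim A (Gauss_isInt_mul A (GaussExt_small_int A hf) hg)
    (Gauss_not_isPrim_mul A hf hg)

theorem GaussExt_small_add {f g : LaurentSeries K} (hf : IsSmall A f) (hg : IsSmall A g) :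
    IsSmall A (f + g) := fun n => by
  rw [HahnSeries.coeff_add]
  exact A.nonunits.add_mem (hf n) (hg n)

theorem GaussExt_small_zero : IsSmall A (0 : LaurentSeries K) := fun n => by
  rw [HahnSeries.coeff_zero]
  exact A.nonunits.zero_mem

/-- the localisation of `A((q))` at `𝔪_A((q))`. -/
def GaussExt_S : Subring (LaurentSeries K) where
  carrier := {x | ∃ f g, IsInt A f ∧ IsPrim A g ∧ x * g = f}
  mul_mem' := by
    rintro x y ⟨f, g, hf, hg, hx⟩ ⟨f', g', hf', hg', hy⟩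
    exact ⟨f * f', g * g', Gauss_isInt_mul A hf hf', Gauss_isPrim_mul A hg hg', by
      rw [← hx, ← hy]; ring⟩
  one_mem' := ⟨1, 1, (Gauss_isPrim_one A).1, Gauss_isPrim_one A, one_mul 1⟩
  add_mem' := by
    rintro x y ⟨f, g, hf, hg, hx⟩ ⟨f', g', hf', hg', hy⟩
    exact ⟨f * g' + f' * g, g * g',
      Gauss_isInt_add A (Gauss_isInt_mul A hf hg'.1) (Gauss_isInt_mul A hf' hg.1),
      Gauss_isPrim_mul A hg hg', by rw [← hx, ← hy]; ring⟩
  zero_mem' := ⟨0, 1, Gauss_isInt_zero A, Gauss_isPrim_one A, zero_mul 1⟩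
  neg_mem' := by
    rintro x ⟨f, g, hf, hg, hx⟩
    exact ⟨-f, g, Gauss_isInt_neg A hf, hg, by rw [← hx]; ring⟩

/-- its maximal ideal. -/
def GaussExt_I : Ideal (GaussExt_S A) where
  carrier := {x | ∃ f g, IsSmall A f ∧ IsPrim A g ∧ (x : LaurentSeries K) * g = f}
  add_mem' := by
    rintro x y ⟨f, g, hf, hg, hx⟩ ⟨f', g', hf', hg', hy⟩
    exact ⟨f * g' + f' * g, g * g',
      GaussExt_small_add A (GaussExt_small_mul A hf hg'.1) (GaussExt_small_mul A hf' hg.1),
      Gauss_isPrim_mul A hg hg', by rw [← hx, ← hy, Subring.coe_add]; ring⟩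
  zero_mem' := ⟨0, 1, GaussExt_small_zero A, Gauss_isPrim_one A, by
    rw [Subring.coe_zero, zero_mul]⟩
  smul_mem' := by
    rintro ⟨c, f', g', hf', hg', hc⟩ x ⟨f, g, hf, hg, hx⟩
    refine ⟨f * f', g * g', GaussExt_small_mul A hf hf', Gauss_isPrim_mul A hg hg', ?_⟩
    rw [smul_eq_mul, Subring.coe_mul]
    show c * (x : LaurentSeries K) * (g * g') = f * f'
    calc c * (x : LaurentSeries K) * (g * g') = ((x : LaurentSeries K) * g) * (c * g') := by ring
      _ = f * f' := by rw [hx, hc]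

theorem GaussExt_I_ne_top : GaussExt_I A ≠ ⊤ := by
  rw [Ideal.ne_top_iff_one]
  rintro ⟨f, g, hf, hg, h1⟩
  rw [Subring.coe_one, one_mul] at h1
  obtain ⟨-, n, hn⟩ := hg
  rw [h1] at hn
  exact hn (hf n)

end GaussExtAux

/-- Chevalley. -/
theorem exists_isGaussExt {K : Type*} [Field K] (A : ValuationSubring K) :
    ∃ G : ValuationSubring (LaurentSeries K), IsGaussExt A G := by
  obtain ⟨G, hSG, hIG⟩ := Ideal.image_subset_nonunits_valuationSubring (GaussExt_I A)
    (GaussExt_I_ne_top A)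
  refine ⟨G, ?_, ?_, ?_⟩
  · intro f hf
    exact hSG ⟨f, 1, hf, Gauss_isPrim_one A, mul_one f⟩
  · intro g hg
    exact hSG ⟨1, g, (Gauss_isPrim_one A).1, hg, inv_mul_cancel₀ (Gauss_isPrim_ne_zero A hg)⟩
  · intro f hf
    have hfS : f ∈ GaussExt_S A :=
      ⟨f, 1, GaussExt_small_int A hf, Gauss_isPrim_one A, mul_one f⟩
    exact hIG ⟨⟨f, hfS⟩, ⟨f, 1, hf, Gauss_isPrim_one A, mul_one f⟩, rfl⟩

section hom

variable {K : Type*} [Field K] (A : ValuationSubring K)

/-- ring endomorphisms of `K((q))` compatible with the Gauss valuation. -/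
structure GaussHom (σ : LaurentSeries K →+* LaurentSeries K) : Prop where
  int : ∀ f, IsInt A f → IsInt A (σ f)
  prim : ∀ f, IsPrim A f → IsPrim A (σ f)
  small : ∀ f, IsSmall A f → IsSmall A (σ f)

theorem gaussHom_qExpand (n : ℕ) [NeZero n] : GaussHom A (qExpand K n) := by
  have hint : ∀ f, IsInt A f → IsInt A (qExpand K n f) := by
    intro f hf k
    by_cases hk : (n : ℤ) ∣ k
    · obtain ⟨m, rfl⟩ := hk
      rw [qExpand_coeff_mul]
      exact hf m
    · rw [qExpand_coeff_of_not_dvd n f hk]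
      exact A.zero_mem
  refine ⟨hint, ?_, ?_⟩
  · rintro f ⟨hf, m, hm⟩
    refine ⟨hint f hf, (n : ℤ) * m, ?_⟩
    rw [qExpand_coeff_mul]
    exact hm
  · intro f hf k
    by_cases hk : (n : ℤ) ∣ k
    · obtain ⟨m, rfl⟩ := hk
      rw [qExpand_coeff_mul]
      exact hf m
    · rw [qExpand_coeff_of_not_dvd n f hk]
      exact A.nonunits.zero_mem

theorem gaussHom_scaleHom (c : Kˣ) (hc : (c : K) ∈ A) (hc' : ((c⁻¹ : Kˣ) : K) ∈ A) :
    GaussHom A (scaleHom c) := by
  have hval : A.valuation (c : K) = 1 := by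
    have h1 : A.valuation (c : K) ≤ 1 := (A.valuation_le_one_iff _).2 hc
    have h2 : A.valuation ((c⁻¹ : Kˣ) : K) ≤ 1 := (A.valuation_le_one_iff _).2 hc'
    have h3 : A.valuation (c : K) * A.valuation ((c⁻¹ : Kˣ) : K) = 1 := by
      rw [← map_mul, Units.mul_inv, map_one]
    exact eq_one_of_one_le_mul_left h1 h2 h3.ge
  have hpow : ∀ k : ℤ, A.valuation (((c ^ k : Kˣ) : K)) = 1 := by
    intro k
    rw [Units.val_zpow_eq_zpow_val, map_zpow₀, hval, one_zpow]
  have hv : ∀ (f : LaurentSeries K) (k : ℤ),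
      A.valuation ((scaleHom c f).coeff k) = A.valuation (f.coeff k) := by
    intro f k
    rw [scaleHom_coeff, map_mul, hpow, one_mul]
  have hint : ∀ f, IsInt A f → IsInt A (scaleHom c f) := by
    intro f hf k
    rw [← A.valuation_le_one_iff, hv, A.valuation_le_one_iff]
    exact hf k
  refine ⟨hint, ?_, ?_⟩
  · rintro f ⟨hf, m, hm⟩
    refine ⟨hint f hf, m, ?_⟩
    rw [A.mem_nonunits_iff, hv, ← A.mem_nonunits_iff]
    exact hm
  · intro f hf k
    rw [A.mem_nonunits_iff, hv, ← A.mem_nonunits_iff]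
    exact hf k

theorem GaussHom.comp {σ τ : LaurentSeries K →+* LaurentSeries K} (hσ : GaussHom A σ)
    (hτ : GaussHom A τ) : GaussHom A (σ.comp τ) :=
  ⟨fun f hf => hσ.int _ (hτ.int f hf), fun f hf => hσ.prim _ (hτ.prim f hf),
    fun f hf => hσ.small _ (hτ.small f hf)⟩

end hom

variable {A : ValuationSubring Qb} {N : ℕ} {𝒪 : ValuationSubring (FF Qb N)}

theorem gauss_le_comap (h𝒪 : IsGaussRing A N 𝒪) {G : ValuationSubring (LaurentSeries Qb)}
    (hG : IsGaussExt A G) {σ : LaurentSeries Qb →+* LaurentSeries Qb} (hσ : GaussHom A σ) :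
    𝒪 ≤ G.comap (σ.comp (algebraMap (FF Qb N) (LaurentSeries Qb))) := by
  intro u hu
  obtain ⟨f, g, -, -, hf, hg, hug⟩ := (h𝒪.spec u).1 hu
  have hg0 : σ g ≠ 0 := Gauss_isPrim_ne_zero A (hσ.prim g hg)
  have h1 : σ (u : LaurentSeries Qb) = σ f * (σ g)⁻¹ := by
    rw [← hug, map_mul, mul_assoc, mul_inv_cancel₀ hg0, mul_one]
  show σ (u : LaurentSeries Qb) ∈ G
  rw [h1]
  exact G.mul_mem _ _ (hG.int_mem _ (hσ.int f hf)) (hG.prim_inv_mem _ (hσ.prim g hg))

theorem comap_le_gauss (h𝒪 : IsGaussRing A N 𝒪) {G : ValuationSubring (LaurentSeries Qb)}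
    (hG : IsGaussExt A G) {σ : LaurentSeries Qb →+* LaurentSeries Qb} (hσ : GaussHom A σ) :
    G.comap (σ.comp (algebraMap (FF Qb N) (LaurentSeries Qb))) ≤ 𝒪 := by
  intro x hx
  by_contra hx𝒪
  have hxG : σ (x : LaurentSeries Qb) ∈ G := hx
  have h1 : x⁻¹ ∈ 𝒪.nonunits := (𝒪.inv_mem_nonunits_iff).2 (Or.inr hx𝒪)
  obtain ⟨f, g, -, -, hf, hg, hxg⟩ := (h𝒪.spec' _).1 h1
  have hg0 : σ g ≠ 0 := Gauss_isPrim_ne_zero A (hσ.prim g hg)
  have hcoe : ((x⁻¹ : FF Qb N) : LaurentSeries Qb) = (x : LaurentSeries Qb)⁻¹ := rfl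
  have h2 : (σ (x : LaurentSeries Qb))⁻¹ = (σ g)⁻¹ * σ f := by
    rw [← hxg, hcoe, map_mul, map_inv₀]
    field_simp
  have h3 : (σ (x : LaurentSeries Qb))⁻¹ ∈ G.nonunits := by
    rw [h2, mul_comm]
    exact Gauss_mem_nonunits_mul G (hG.small_mem _ (hσ.small f hf))
      (hG.prim_inv_mem _ (hσ.prim g hg))
  rcases (G.inv_mem_nonunits_iff).1 h3 with h6 | h6
  · rw [map_eq_zero] at h6
    have hx0 : x = 0 := Subtype.ext h6
    exact hx𝒪 (hx0 ▸ 𝒪.zero_mem)
  · exact h6 hxG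

end Fermat.Agent.LP.EIS
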