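import Fermat.Agent.LP.EIS.Defs
import Fermat.Agent.GR.B.ModFrac
import Fermat.Agent.GR.B.HeckeFun
import Fermat.Agent.GR.C.MainQbar

/-!
# LP-EIS, analytic part: `d = Δ(q)/Δ(q^p)` and `d⁻¹` are holomorphic modular functions for `Γ₀(p)`,
hence `d ∈ FF K N` for every field `K` of characteristic `0` and every `N` divisible by `p`.
-/

set_option autoImplicit false

noncomputable section

namespace Fermat.Agent.LP.EIS

open UpperHalfPlane ModularCurve Matrix.SpecialLinearGroup CongruenceSubgroup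
open Fermat.Agent.GR Fermat.Agent.S24 Fermat.Agent.S28 Fermat.Agent.GR.A
open scoped MatrixGroups Manifold

/-- the function `Δ(τ)/Δ(pτ)`. -/
def dFun (p : ℕ) : ℍ → ℂ := fun τ => DeltaF τ / DeltaF (affH p 0 1 τ)

variable (p : ℕ) [NeZero p]

theorem isExp_dFun : IsExp 1 (dFun p) (dS ℂ p) := by
  have hp : 0 < p := Nat.pos_of_ne_zero (NeZero.ne p)
  have h1 := isExp_delta_inv.comp_affH (N := 1) (a := p) (δ := 1) (m := p) 0 one_pos hp one_pos rfl
  rw [rootU_one, substL_one] at h1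
  exact (isExp_delta.mul h1).congr fun τ => by
    simp only [Pi.mul_apply, dFun, div_eq_mul_inv]

theorem isExp_dFun_inv : IsExp 1 (fun τ => (dFun p τ)⁻¹) (dInvS ℂ p) := by
  have hp : 0 < p := Nat.pos_of_ne_zero (NeZero.ne p)
  have h1 := isExp_delta.comp_affH (N := 1) (a := p) (δ := 1) (m := p) 0 one_pos hp one_pos rfl
  rw [rootU_one, substL_one] at h1
  exact (isExp_delta_inv.mul h1).congr fun τ => by
    simp only [Pi.mul_apply, dFun]
    rw [inv_div, div_eq_mul_inv, mul_comm]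

theorem dFun_ne_zero (τ : ℍ) : dFun p τ ≠ 0 :=
  div_ne_zero (DeltaF_ne_zero _) (DeltaF_ne_zero _)

/-- invariance under `Γ₀(p)`. -/
theorem dFun_smul (γ : SL(2, ℤ)) (hγ : γ ∈ Gamma0 p) (τ : ℍ) : dFun p (γ • τ) = dFun p τ := by
  have hp : 0 < p := Nat.pos_of_ne_zero (NeZero.ne p)
  obtain ⟨b, hb⟩ := exists_affH_smul γ p hp
  have h1 := (hb τ).1
  rw [gcd_of_mem_Gamma0 hγ dvd_rfl, Nat.div_self hp, isExp_delta.affH_int hp b τ] at h1
  unfold dFun
  rw [← inv_div, h1, ← inv_div (DeltaF (affH p 0 1 τ))]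
  simp

/-- behaviour at the cusps: `d ∘ γ = δ^12 Δ(τ) / Δ((aτ+b)/δ)` with `a δ = p`. -/
theorem exists_dFun_smul_eq (γ : SL(2, ℤ)) :
    ∃ (a δ : ℕ) (b : ℤ), a * δ = p ∧ ∀ τ : ℍ,
      dFun p (γ • τ) = (δ : ℂ) ^ 12 * (DeltaF τ / DeltaF (affH a b δ τ)) := by
  have hp : 0 < p := Nat.pos_of_ne_zero (NeZero.ne p)
  obtain ⟨b, hb⟩ := exists_affH_smul γ p hp
  have hgd : Int.gcd p (γ 1 0) ∣ p := by exact_mod_cast Int.gcd_dvd_left (p : ℤ) (γ 1 0)
  refine ⟨Int.gcd p (γ 1 0), p / Int.gcd p (γ 1 0), b, Nat.mul_div_cancel' hgd, fun τ => ?_⟩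
  have h1 := (hb τ).1
  unfold dFun
  rw [← inv_div, h1, mul_inv, inv_div, inv_pow, inv_inv]

theorem Mem_mdiff_dFun : MDiff (dFun p) := by
  have hp : 0 < p := Nat.pos_of_ne_zero (NeZero.ne p)
  rw [UpperHalfPlane.mdifferentiable_iff]
  have h1 : DifferentiableOn ℂ ((fun τ => DeltaF (affH p 0 1 τ)) ∘ ofComplex) {z | 0 < z.im} :=
    UpperHalfPlane.mdifferentiable_iff.mp (mdiff_comp_affH mdiff_DeltaF 0 hp one_pos)
  have h2 := UpperHalfPlane.mdifferentiable_iff.mp mdiff_DeltaF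
  have h3 : (dFun p ∘ ofComplex) = fun z =>
      (DeltaF ∘ ofComplex) z / ((fun τ => DeltaF (affH p 0 1 τ)) ∘ ofComplex) z := rfl
  rw [h3]
  exact h2.div h1 (fun z _ => DeltaF_ne_zero _)

theorem Mem_mdiff_dFun_inv : MDiff (fun τ => (dFun p τ)⁻¹) := by
  have h1 := UpperHalfPlane.mdifferentiable_iff.mp (Mem_mdiff_dFun p)
  rw [UpperHalfPlane.mdifferentiable_iff]
  have h3 : ((fun τ => (dFun p τ)⁻¹) ∘ ofComplex) = fun z => ((dFun p ∘ ofComplex) z)⁻¹ := rfl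
  rw [h3]
  exact h1.inv (fun z _ => dFun_ne_zero p _)

/-- the expansions at the cusps. -/
theorem Mem_exists_goodU (γ : SL(2, ℤ)) :
    ∃ (M : ℕ) (f : LaurentSeries ℂ) (e : ℤ), 0 < M ∧ GoodU M (fun τ => (dFun p (γ • τ))⁻¹) f e := by
  have hp : 0 < p := Nat.pos_of_ne_zero (NeZero.ne p)
  obtain ⟨a, δ, b, haδ, h⟩ := exists_dFun_smul_eq p γ
  have ha : 0 < a := by
    rcases Nat.eq_zero_or_pos a with h0 | h0
    · rw [h0, zero_mul] at haδ
      omega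
    · exact h0
  have hδ : 0 < δ := by
    rcases Nat.eq_zero_or_pos δ with h0 | h0
    · rw [h0, mul_zero] at haδ
      omega
    · exact h0
  have : NeZero a := ⟨ha.ne'⟩
  have : NeZero δ := ⟨hδ.ne'⟩
  refine ⟨δ, _, _, hδ, (goodU_ratio (N := δ) (a := a) (δ := δ) (m := a) b ha hδ rfl dvd_rfl).congr
    fun τ => ?_⟩
  rw [h τ, mul_inv, inv_div, inv_pow]

theorem isModFun_dFun : IsModFun p (dFun p) := by
  refine Fermat.Agent.GR.B.isModFun_of_exists_level (Mem_mdiff_dFun p) (dFun_smul p) fun γ => ?_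
  obtain ⟨M, f, e, hM, hG⟩ := Mem_exists_goodU p γ
  have : NeZero M := ⟨hM.ne'⟩
  refine ⟨M, hM, Fermat.Agent.GR.B.mem_MerInf_of_isExp (s := f⁻¹) (hG.expInv.congr fun τ => ?_)⟩
  simp only [Pi.inv_apply, inv_inv]

theorem isModFun_dFun_inv : IsModFun p (fun τ => (dFun p τ)⁻¹) := by
  refine Fermat.Agent.GR.B.isModFun_of_exists_level (Mem_mdiff_dFun_inv p)
    (fun γ hγ τ => by rw [dFun_smul p γ hγ]) fun γ => ?_
  obtain ⟨M, f, e, hM, hG⟩ := Mem_exists_goodU p γ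
  have : NeZero M := ⟨hM.ne'⟩
  exact ⟨M, hM, Fermat.Agent.GR.B.mem_MerInf_of_isExp hG.exp⟩

theorem dS_mem_FF_complex : dS ℂ p ∈ FF ℂ p :=
  Fermat.Agent.GR.B.IsModFun.mem_FF (isModFun_dFun p) (isExp_dFun p)

theorem Mem_coeffMap_dS {R S : Type*} [CommRing R] [CommRing S] (f : R →+* S) :
    coeffMap f (dS R p) = dS S p := by
  rw [dS, map_mul, coeffMap_deltaL, coeffMap_qExpand, coeffMap_deltaInvL]
  rfl

theorem Mem_FF_mono (K : Type*) [Field K] {M N : ℕ} (h : M ∣ N) : FF K M ≤ FF K N := by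
  change modularFunctionFieldFullC K M ≤ modularFunctionFieldFullC K N
  rw [modularFunctionFieldFullC, IntermediateField.adjoin_le_iff]
  rintro x ⟨d, hne, hdvd, rfl⟩
  have := hne
  exact jqModCd_mem_full K N (hdvd.trans h)

/-- **`d ∈ FF K N`.** -/
theorem dS_mem_FF (K : Type*) [Field K] [CharZero K] {N : ℕ} (hpN : p ∣ N) : dS K p ∈ FF K N := by
  have h1 : dS ℚ p ∈ FF ℚ p := by
    refine Fermat.Agent.GR.C.mem_FF_of_coeffMap_hom (algebraMap ℚ ℂ) ?_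
    rw [Mem_coeffMap_dS]
    exact dS_mem_FF_complex p
  have h2 : dS K p ∈ FF K p := by
    rw [← Mem_coeffMap_dS p (algebraMap ℚ K)]
    exact Fermat.Agent.GR.C.coeffMap_mem_FF p (algebraMap ℚ K) h1
  exact Mem_FF_mono K hpN h2

end Fermat.Agent.LP.EIS
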