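import Fermat.Agent.GR.F.FormalNorm

/-!
# LP-EIS: `T_ℓ (c - j)` is a polynomial in `j` (formal part)
-/

set_option autoImplicit false

noncomputable section

namespace Fermat.Agent.LP.EIS

open ModularCurve Fermat.Agent.GR

local notation "Qb" => AlgebraicClosure ℚ

/-- Laurent series with all coefficients in a subring. -/
def ModPolyF_SB {Λ : Type*} [CommRing Λ] (B : Subring Λ) : Subring (LaurentSeries Λ) where
  carrier := {u | ∀ n, u.coeff n ∈ B}
  mul_mem' := by
    intro a b ha hb n
    rw [HahnSeries.coeff_mul]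
    exact Subring.sum_mem _ (fun ij _ => B.mul_mem (ha _) (hb _))
  one_mem' := by
    intro n
    rw [HahnSeries.coeff_one]
    split_ifs
    · exact B.one_mem
    · exact B.zero_mem
  add_mem' := by
    intro a b ha hb n
    rw [HahnSeries.coeff_add]
    exact B.add_mem (ha _) (hb _)
  zero_mem' := by
    intro n
    rw [HahnSeries.coeff_zero]
    exact B.zero_mem
  neg_mem' := by
    intro a ha n
    rw [HahnSeries.coeff_neg]
    exact B.neg_mem (ha _)

theorem ModPolyF_mem_SB {Λ : Type*} [CommRing Λ] (B : Subring Λ) (u : LaurentSeries Λ) :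
    u ∈ ModPolyF_SB B ↔ ∀ n, u.coeff n ∈ B := Iff.rfl

theorem ModPolyF_zpow_mem {Λ : Type*} [CommRing Λ] (B : Subring Λ) (c : Λˣ)
    (hc : (c : Λ) ∈ B) (hc' : ((c⁻¹ : Λˣ) : Λ) ∈ B) (n : ℤ) : ((c ^ n : Λˣ) : Λ) ∈ B := by
  cases n with
  | ofNat k =>
    simp only [Int.ofNat_eq_natCast, zpow_natCast, Units.val_pow_eq_pow_val]
    exact B.pow_mem hc k
  | negSucc k =>
    rw [zpow_negSucc, ← inv_pow, Units.val_pow_eq_pow_val]
    exact B.pow_mem hc' _

theorem ModPolyF_scaleHom_mem {Λ : Type*} [CommRing Λ] (B : Subring Λ) (c : Λˣ)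
    (hc : (c : Λ) ∈ B) (hc' : ((c⁻¹ : Λˣ) : Λ) ∈ B) {u : LaurentSeries Λ}
    (hu : u ∈ ModPolyF_SB B) : scaleHom c u ∈ ModPolyF_SB B := by
  intro n
  rw [scaleHom_coeff]
  exact B.mul_mem (ModPolyF_zpow_mem B c hc hc' n) (hu n)

theorem ModPolyF_qExpand_mem {Λ : Type*} [CommRing Λ] (B : Subring Λ) (ℓ : ℕ) [NeZero ℓ]
    {u : LaurentSeries Λ} (hu : u ∈ ModPolyF_SB B) : qExpand Λ ℓ u ∈ ModPolyF_SB B := by
  intro n
  by_cases h : (ℓ : ℤ) ∣ n
  · obtain ⟨k, rfl⟩ := h
    rw [qExpand_coeff_mul]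
    exact hu k
  · rw [qExpand_coeff_of_not_dvd ℓ u h]
    exact B.zero_mem

/-- (MP-b), formal: the Hecke operator preserves series with coefficients in a subring. -/
theorem coeff_heckeMulT_mem {Λ : Type*} [CommRing Λ] (B : Subring Λ) (ℓ : ℕ) [NeZero ℓ] (ζ : Λˣ)
    (hζ : (ζ : Λ) ∈ B) (hζ' : ((ζ⁻¹ : Λˣ) : Λ) ∈ B) {u : LaurentSeries Λ}
    (hu : ∀ n, u.coeff n ∈ B) : ∀ n, (heckeMulT ℓ ζ u).coeff n ∈ B := by
  have hu' : u ∈ ModPolyF_SB B := hu
  have h1 : (∏ j ∈ Finset.range ℓ, scaleHom (ζ ^ j) u) ∈ ModPolyF_SB B := by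
    refine Subring.prod_mem _ (fun j _ => ?_)
    refine ModPolyF_scaleHom_mem B _ ?_ ?_ hu'
    · rw [Units.val_pow_eq_pow_val]
      exact B.pow_mem hζ j
    · rw [← inv_pow, Units.val_pow_eq_pow_val]
      exact B.pow_mem hζ' j
  have h2 : normT ℓ ζ u ∈ ModPolyF_SB B := by
    intro n
    unfold normT
    rw [Uop_coeff]
    exact h1 _
  exact (ModPolyF_SB B).mul_mem (ModPolyF_qExpand_mem B ℓ hu') h2

theorem ModPolyF_jq_mem {K : Type*} [CommRing K] (B : Subring K) :
    jqModC K ∈ ModPolyF_SB B := by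
  intro n
  rw [coeff_jqModC_eq_intCast]
  exact intCast_mem B _

theorem ModPolyF_C_mem {K : Type*} [Field K] (B : Subring K) {b : K} (hb : b ∈ B) :
    algebraMap K (LaurentSeries K) b ∈ ModPolyF_SB B := by
  intro n
  rw [algebraMap_laurentSeries_eq_single, HahnSeries.coeff_single]
  split_ifs
  · exact hb
  · exact B.zero_mem

theorem ModPolyF_coeffMap_algebraMap {K K' : Type*} [Field K] [Field K'] (φ : K →+* K')
    (b : K) : coeffMap φ (algebraMap K (LaurentSeries K) b)
      = algebraMap K' (LaurentSeries K') (φ b) := by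
  rw [algebraMap_laurentSeries_eq_single, algebraMap_laurentSeries_eq_single, coeffMap_single]

theorem ModPolyF_coeff_smul {K : Type*} [Field K] (a : K) (f : LaurentSeries K)
    (m : ℤ) : (algebraMap K (LaurentSeries K) a * f).coeff m = a * f.coeff m := by
  rw [algebraMap_laurentSeries_eq_single, HahnSeries.coeff_single_zero_mul]

/-- The coefficient of `q ^ (-natDegree)` of a polynomial in `j` is the leading coefficient. -/
theorem ModPolyF_coeff_aeval {K : Type*} [Field K] (P : Polynomial K) :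
    (Polynomial.aeval (jqModC K) P).coeff (-(P.natDegree : ℤ)) = P.leadingCoeff := by
  rw [Polynomial.aeval_eq_sum_range, HahnSeries.coeff_sum, Finset.sum_range_succ]
  rw [Finset.sum_eq_zero, zero_add, Algebra.smul_def, ModPolyF_coeff_smul, coeff_jqModC_pow_self,
    mul_one, Polynomial.leadingCoeff]
  intro i hi
  rw [Algebra.smul_def, ModPolyF_coeff_smul, coeff_jqModC_pow_of_lt K, mul_zero]
  have := Finset.mem_range.mp hi
  omega

theorem ModPolyF_coeffMap_injective {K K' : Type*} [Field K] [Field K'] (φ : K →+* K') :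
    Function.Injective (coeffMap φ) := by
  intro x y h
  ext n
  apply φ.injective
  rw [← coeffMap_coeff, ← coeffMap_coeff, h]

theorem ModPolyF_exists_aux {K K' : Type*} [Field K] [Field K'] (φ : K →+* K') (B : Subring K)
    (d : ℕ) : ∀ (g : LaurentSeries K) (_ : g ∈ ModPolyF_SB B) (P : Polynomial K')
      (_ : P.natDegree ≤ d) (_ : coeffMap φ g = Polynomial.aeval (jqModC K') P),
    ∃ Q : Polynomial K, (∀ n, Q.coeff n ∈ B) ∧ g = Polynomial.aeval (jqModC K) Q := by
  induction d with
  | zero =>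
    intro g hg P hd hP
    have hPC : P = Polynomial.C (P.coeff 0) := Polynomial.eq_C_of_natDegree_le_zero hd
    have hb : φ (g.coeff 0) = P.coeff 0 := by
      have h := ModPolyF_coeff_aeval P
      rw [← hP, coeffMap_coeff, Polynomial.leadingCoeff, Nat.le_zero.mp hd] at h
      simpa using h
    refine ⟨Polynomial.C (g.coeff 0), ?_, ?_⟩
    · intro n
      rw [Polynomial.coeff_C]
      split_ifs
      · exact hg 0
      · exact B.zero_mem
    · apply ModPolyF_coeffMap_injective φ
      rw [hP, hPC, Polynomial.aeval_C, Polynomial.aeval_C, ModPolyF_coeffMap_algebraMap, hb]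
  | succ d ih =>
    intro g hg P hd hP
    by_cases hlt : P.natDegree ≤ d
    · exact ih g hg P hlt hP
    have hdeg : P.natDegree = d + 1 := by omega
    set b : K := g.coeff (-((d + 1 : ℕ) : ℤ)) with hbdef
    have hbB : b ∈ B := hg _
    have hb : φ b = P.leadingCoeff := by
      have h := ModPolyF_coeff_aeval P
      rw [← hP, coeffMap_coeff, hdeg] at h
      exact h
    set g' : LaurentSeries K := g - algebraMap K (LaurentSeries K) b * jqModC K ^ (d + 1) with hg'
    have hg'B : g' ∈ ModPolyF_SB B :=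
      (ModPolyF_SB B).sub_mem hg ((ModPolyF_SB B).mul_mem (ModPolyF_C_mem B hbB)
        ((ModPolyF_SB B).pow_mem (ModPolyF_jq_mem B) _))
    have hP' : coeffMap φ g' = Polynomial.aeval (jqModC K') P.eraseLead := by
      have h1 : Polynomial.aeval (jqModC K') P
          = Polynomial.aeval (jqModC K') P.eraseLead
            + algebraMap K' (LaurentSeries K') P.leadingCoeff * jqModC K' ^ (d + 1) := by
        conv_lhs => rw [← Polynomial.eraseLead_add_C_mul_X_pow P]
        rw [map_add, map_mul, map_pow, Polynomial.aeval_C, Polynomial.aeval_X, hdeg]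
      rw [hg', map_sub, map_mul, map_pow, coeffMap_jqModC, ModPolyF_coeffMap_algebraMap, hb, hP,
        h1, add_sub_cancel_right]
    have hd' : P.eraseLead.natDegree ≤ d := by
      have := Polynomial.eraseLead_natDegree_le P
      omega
    obtain ⟨Q', hQ'B, hQ'⟩ := ih g' hg'B P.eraseLead hd' hP'
    refine ⟨Q' + Polynomial.C b * Polynomial.X ^ (d + 1), ?_, ?_⟩
    · intro n
      rw [Polynomial.coeff_add, Polynomial.coeff_C_mul_X_pow]
      refine B.add_mem (hQ'B n) ?_
      split_ifs
      · exact hbB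
      · exact B.zero_mem
    · rw [map_add, map_mul, map_pow, Polynomial.aeval_C, Polynomial.aeval_X, ← hQ', hg',
        sub_add_cancel]

/-- (MP-c), formal: the `q`-expansion principle for polynomials in `j`. -/
theorem exists_poly_of_coeffMap {K K' : Type*} [Field K] [Field K'] (φ : K →+* K') (B : Subring K)
    {g : LaurentSeries K} (hg : ∀ n, g.coeff n ∈ B) (P : Polynomial K')
    (hP : coeffMap φ g = Polynomial.aeval (jqModC K') P) :
    ∃ Q : Polynomial K, (∀ n, Q.coeff n ∈ B) ∧ g = Polynomial.aeval (jqModC K) Q := by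
  exact ModPolyF_exists_aux φ B P.natDegree g hg P le_rfl hP

end Fermat.Agent.LP.EIS
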