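import Fermat.Agent.LP.EIS.ModPolyA
import Fermat.Agent.LP.EIS.ModPolyF
import Fermat.Agent.GR.B.Export

/-!
# LP-EIS: `T_ℓ (c - j)` is a polynomial in `j` with integral coefficients  (`= Φ_ℓ(c, j)`)
-/

set_option autoImplicit false

noncomputable section

namespace Fermat.Agent.LP.EIS

open ModularCurve Fermat.Agent.GR

local notation "Qb" => AlgebraicClosure ℚ

/-- (MP) -/
theorem exists_poly_heckeMulT (B : Subring Qb) (ℓ : ℕ) [Fact ℓ.Prime] (ζ : Qbˣ)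
    (hζ : IsPrimitiveRoot ζ ℓ) (hζB : (ζ : Qb) ∈ B) {c : Qb} (hc : c ∈ B) :
    ∃ Q : Polynomial Qb, (∀ n, Q.coeff n ∈ B) ∧
      heckeMulT ℓ ζ (HahnSeries.C c - jqModC Qb) = Polynomial.aeval (jqModC Qb) Q := by
  obtain ⟨ι⟩ : Nonempty (Qb →+* ℂ) := S24.nonempty_iotaC
  have hℓ : ℓ.Prime := Fact.out
  have hζ' : ((ζ⁻¹ : Qbˣ) : Qb) ∈ B := by
    have h1 : ζ⁻¹ = ζ ^ (ℓ - 1) := by
      rw [inv_eq_iff_mul_eq_one, ← pow_succ', Nat.sub_add_cancel hℓ.one_le, hζ.pow_eq_one]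
    rw [h1, Units.val_pow_eq_pow_val]
    exact pow_mem hζB _
  have hu : ∀ n, (HahnSeries.C c - jqModC Qb).coeff n ∈ B := by
    intro n
    rw [HahnSeries.coeff_sub, coeff_jqModC_eq_intCast]
    refine sub_mem ?_ (intCast_mem B _)
    rw [HahnSeries.C_apply, HahnSeries.coeff_single]
    split_ifs
    · exact hc
    · exact zero_mem B
  obtain ⟨P, hP⟩ := exists_poly_heckeMulT_complex ℓ (Units.map (ι : Qb →* ℂ) ζ)
    (Fermat.Agent.GR.B.isPrimitiveRoot_unitsMap ι hζ) (ι c)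
  refine exists_poly_of_coeffMap ι B (coeff_heckeMulT_mem B ℓ ζ hζB hζ' hu) P ?_
  rw [coeffMap_heckeMulT, map_sub, coeffMap_jqModC, HahnSeries.C_apply, coeffMap_single, ← hP,
    HahnSeries.C_apply]

end Fermat.Agent.LP.EIS
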