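import Mathlib

/-!
# LP-EIS: roots of unity of order prime to `p` as constants with unit differences
-/

set_option autoImplicit false

namespace Fermat.Agent.LP.EIS

/-- the roots of unity of order prime to `p`. -/
def rootsP (K : Type*) [Field K] (p : ℕ) : Set K := {x | ∃ m : ℕ, 0 < m ∧ m.Coprime p ∧ x ^ m = 1}

theorem rootsP_infinite (K : Type*) [Field K] [IsAlgClosed K] [CharZero K] {p : ℕ} (hp : 0 < p) :
    (rootsP K p).Infinite := by
  have hex : ∀ k : ℕ, ∃ z : K, IsPrimitiveRoot z (p * k + 1) := fun k =>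
    HasEnoughRootsOfUnity.exists_primitiveRoot K (p * k + 1)
  choose z hz using hex
  refine Set.infinite_of_injective_forall_mem (f := z) ?_ ?_
  · intro k k' h
    have h1 := (hz k).unique (h ▸ hz k')
    have h2 : p * k = p * k' := by omega
    exact Nat.eq_of_mul_eq_mul_left hp h2
  · intro k
    refine ⟨p * k + 1, Nat.succ_pos _, ?_, (hz k).pow_eq_one⟩
    rw [Nat.coprime_mul_left_add_left]
    exact Nat.coprime_one_left p

theorem isIntegral_of_mem_rootsP {K : Type*} [Field K] {p : ℕ} {x : K} (hx : x ∈ rootsP K p) :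
    IsIntegral ℤ x := by
  obtain ⟨m, hm, _, h⟩ := hx
  exact IsIntegral.of_pow hm (h ▸ isIntegral_one)

theorem map_mem_rootsP {K L : Type*} [Field K] [Field L] (φ : K →+* L) {p : ℕ} {x : K}
    (hx : x ∈ rootsP K p) : φ x ∈ rootsP L p := by
  obtain ⟨m, hm, hmp, h⟩ := hx
  exact ⟨m, hm, hmp, by rw [← map_pow, h, map_one]⟩

/-- elements integral over `ℤ` belong to every valuation subring. -/
theorem mem_of_isIntegral_int {K : Type*} [Field K] (V : ValuationSubring K) {x : K}
    (hx : IsIntegral ℤ x) : x ∈ V := by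
  have h1 : IsIntegral V x := hx.tower_top
  obtain ⟨y, rfl⟩ := IsIntegrallyClosed.isIntegral_iff.mp h1
  exact y.2

theorem valuation_sub_eq_one_of_mem_rootsP {K : Type*} [Field K] (V : ValuationSubring K) {p : ℕ}
    (hp : ((p : K))⁻¹ ∉ V) {x y : K} (hx : x ∈ rootsP K p) (hy : y ∈ rootsP K p) (hxy : x ≠ y) :
    V.valuation (x - y) = 1 := by
  have hxV := mem_of_isIntegral_int V (isIntegral_of_mem_rootsP hx)
  have hyV := mem_of_isIntegral_int V (isIntegral_of_mem_rootsP hy)
  obtain ⟨m, hm, hmp, hxm⟩ := hx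
  obtain ⟨m', hm', hmp', hym⟩ := hy
  set x' : V := ⟨x, hxV⟩ with hx'
  set y' : V := ⟨y, hyV⟩ with hy'
  have hxy' : x' - y' ≠ 0 := fun h => hxy (congrArg Subtype.val (sub_eq_zero.mp h))
  have hxM : x' ^ (m * m') = 1 := by
    apply Subtype.ext
    show x ^ (m * m') = 1
    rw [pow_mul, hxm, one_pow]
  have hyM : y' ^ (m * m') = 1 := by
    apply Subtype.ext
    show y ^ (m * m') = 1
    rw [mul_comm, pow_mul, hym, one_pow]
  have hM0 : m * m' ≠ 0 := (Nat.mul_pos hm hm').ne'
  have hyu : IsUnit y' := IsUnit.of_pow_eq_one hyM hM0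
  -- the geometric sum vanishes
  have hsum : ∑ i ∈ Finset.range (m * m'), x' ^ i * y' ^ (m * m' - 1 - i) = 0 := by
    have h := geom_sum₂_mul x' y' (m * m')
    rw [hxM, hyM, sub_self] at h
    exact (mul_eq_zero.mp h).resolve_right hxy'
  -- modulo `x - y` it is `M y^(M-1)`
  have hdvd : x' - y' ∣ ((m * m' : ℕ) : V) * y' ^ (m * m' - 1) := by
    rw [← Ideal.mem_span_singleton, ← Ideal.Quotient.eq_zero_iff_mem]
    have hπ : Ideal.Quotient.mk (Ideal.span {x' - y'}) x' =
        Ideal.Quotient.mk (Ideal.span {x' - y'}) y' :=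
      Ideal.Quotient.eq.mpr (Ideal.mem_span_singleton_self _)
    have h := congrArg (Ideal.Quotient.mk (Ideal.span {x' - y'})) hsum
    simp only [map_sum, map_mul, map_pow, hπ, map_zero] at h
    rw [geom_sum₂_self] at h
    rw [map_mul, map_pow, map_natCast]
    exact h
  -- `M` is a unit
  have hpu : ¬ IsUnit ((p : ℕ) : V) := by
    rintro ⟨u, hu⟩
    apply hp
    have h1 : (((u⁻¹ : Vˣ) : V) : K) = ((p : K))⁻¹ := by
      apply eq_inv_of_mul_eq_one_left
      have h2 := congrArg (fun a : V => (a : K)) u.inv_mul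
      rw [hu] at h2
      simpa using h2
    rw [← h1]
    exact ((u⁻¹ : Vˣ) : V).2
  have hcop : Nat.Coprime (m * m') p := Nat.Coprime.mul_left hmp hmp'
  have hMu : IsUnit (((m * m' : ℕ) : V)) := by
    obtain ⟨s, t, hst⟩ := Nat.isCoprime_iff_coprime.mpr hcop
    have h1 : ((s : ℤ) : V) * ((m * m' : ℕ) : V) + ((t : ℤ) : V) * ((p : ℕ) : V) = 1 := by
      have := congrArg (Int.cast : ℤ → V) hst
      push_cast at this ⊢
      exact this
    rcases IsLocalRing.isUnit_or_isUnit_of_add_one h1 with h | h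
    · exact isUnit_of_mul_isUnit_right h
    · exact absurd (isUnit_of_mul_isUnit_right h) hpu
  have hu : IsUnit (x' - y') := isUnit_of_dvd_unit hdvd (hMu.mul (hyu.pow _))
  exact (V.valuation_eq_one_iff (x' - y')).mp hu

end Fermat.Agent.LP.EIS
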