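import Fermat.Agent.LP.EIS.VAbs
import Fermat.Agent.LP.EIS.GaussExt
import Fermat.Agent.LP.EIS.Roots
import Fermat.Agent.LP.EIS.ModPoly
import Fermat.Agent.LP.EIS.Formal
import Fermat.Agent.LP.EIS.Mem

/-!
# LP-EIS: the concrete bridge (level `N`, `p ∣ N`, over `Q̄`, rank two valuations)

If `u ^ 12 * d ^ (-r)` is a unit times a `p`-th power at every non-cuspidal point of the
`∞`-component of the fibre at `p`, `d` is not, and `T_ℓ u ~ u ^ a`, then `p ∣ r * (ℓ + 1 - a)`.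
-/

set_option autoImplicit false
set_option synthInstance.maxHeartbeats 400000

noncomputable section

namespace Fermat.Agent.LP.EIS

open ModularCurve Fermat.Agent.GR Fermat.Agent.GR.E Fermat.Agent.GR.S.R

variable {A : ValuationSubring Qb} {N : ℕ} [NeZero N] {𝒪 : ValuationSubring (FF Qb N)}

/-- the non-cuspidal points of the fibre. -/
def fibre (𝒪 : ValuationSubring (FF Qb N)) : Set (ValuationSubring (FF Qb N)) :=
  {V | V ≤ 𝒪 ∧ C.jF Qb N ∈ V}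

/-- the embeddings `g ↦ g(ζ^i t)` (`i < ℓ`) and `g ↦ g(t^(ℓ^2))` (`i ≥ ℓ`). -/
def sig (N ℓ : ℕ) [NeZero ℓ] (ζ : Qbˣ) (i : ℕ) : FF Qb N →+* LaurentSeries Qb :=
  (if i < ℓ then scaleHom (ζ ^ i) else (qExpand Qb ℓ).comp (qExpand Qb ℓ)).comp
    (algebraMap (FF Qb N) (LaurentSeries Qb))

/-- `g ↦ g(t^ℓ)`. -/
def sig0 (N ℓ : ℕ) [NeZero ℓ] : FF Qb N →+* LaurentSeries Qb :=
  (qExpand Qb ℓ).comp (algebraMap (FF Qb N) (LaurentSeries Qb))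

/-- the Hecke operator on the function field. -/
def heckeFF (ℓ : ℕ) [Fact ℓ.Prime] (hℓN : ¬ ℓ ∣ N) (ζ : Qbˣ) (hζ : IsPrimitiveRoot ζ ℓ)
    (g : FF Qb N) : FF Qb N :=
  ⟨heckeMulT ℓ ζ g, B.heckeMulT_mem_FF_Qbar ℓ hℓN ζ hζ g.2⟩

theorem sig0_heckeFF (ℓ : ℕ) [Fact ℓ.Prime] (hℓN : ¬ ℓ ∣ N) (ζ : Qbˣ) (hζ : IsPrimitiveRoot ζ ℓ)
    (g : FF Qb N) :
    sig0 N ℓ (heckeFF ℓ hℓN ζ hζ g) = ∏ i ∈ Finset.range (ℓ + 1), sig N ℓ ζ i g := by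
  have h1 : sig0 N ℓ (heckeFF ℓ hℓN ζ hζ g) = qExpand Qb ℓ (heckeMulT ℓ ζ (g : LaurentSeries Qb)) :=
    rfl
  have h2 : sig N ℓ ζ ℓ g = qExpand Qb ℓ (qExpand Qb ℓ (g : LaurentSeries Qb)) := by
    unfold sig
    rw [if_neg (lt_irrefl ℓ)]
    rfl
  have h3 : ∀ i ∈ Finset.range ℓ, sig N ℓ ζ i g = scaleHom (ζ ^ i) (g : LaurentSeries Qb) := by
    intro i hi
    unfold sig
    rw [if_pos (Finset.mem_range.1 hi)]
    rfl
  rw [h1, Finset.prod_range_succ, h2, Finset.prod_congr rfl h3, heckeMulT, map_mul,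
    qExpand_normT ℓ ζ hζ, mul_comm]

/-- the constants. -/
def constS (N p : ℕ) : Set (FF Qb N) := algebraMap Qb (FF Qb N) '' rootsP Qb p

theorem constS_infinite {p : ℕ} (hp : 0 < p) : (constS N p).Infinite :=
  (rootsP_infinite Qb hp).image (algebraMap Qb (FF Qb N)).injective.injOn

theorem inv_p_notMem {p : ℕ} (hp0 : p ≠ 0) (hpA : (p : Qb) ∈ A.nonunits) (h𝒪 : IsGaussRing A N 𝒪)
    {V : ValuationSubring (FF Qb N)} (hV : V ≤ 𝒪) : ((p : FF Qb N))⁻¹ ∉ V := by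
  intro h
  have h1 : (p : FF Qb N) ∈ 𝒪.nonunits := by
    rw [h𝒪.spec']
    refine ⟨((p : FF Qb N) : LaurentSeries Qb), 1, (p : FF Qb N).2, one_mem _, ?_,
      Gauss_isPrim_one A, mul_one _⟩
    intro n
    have h2 : ((p : FF Qb N) : LaurentSeries Qb) = HahnSeries.C (p : Qb) := by
      rw [map_natCast]
      rfl
    rw [h2, HahnSeries.C_apply, HahnSeries.coeff_single]
    split_ifs
    · exact hpA
    · rw [ValuationSubring.mem_nonunits_iff, map_zero]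
      exact zero_lt_one
  have h3 := hV h
  rw [ValuationSubring.mem_nonunits_iff] at h1
  rw [← 𝒪.valuation_le_one_iff, map_inv₀] at h3
  have h4 : 𝒪.valuation (p : FF Qb N) ≠ 0 := by
    rw [Ne, map_eq_zero]
    exact_mod_cast hp0
  exact absurd h1 (not_lt.2 ((inv_le_one₀ (zero_lt_iff.2 h4)).1 h3))

theorem coe_const (c : Qb) :
    ((algebraMap Qb (FF Qb N) c : FF Qb N) : LaurentSeries Qb) = HahnSeries.C c := by
  have h1 : ((algebraMap Qb (FF Qb N) c : FF Qb N) : LaurentSeries Qb) =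
      algebraMap Qb (LaurentSeries Qb) c := rfl
  rw [h1, algebraMap_laurentSeries_eq_single, HahnSeries.C_apply]

theorem sig_const (ℓ : ℕ) [NeZero ℓ] (ζ : Qbˣ) (i : ℕ) (c : Qb) :
    sig N ℓ ζ i (algebraMap Qb (FF Qb N) c) = HahnSeries.C c := by
  have h : algebraMap (FF Qb N) (LaurentSeries Qb) (algebraMap Qb (FF Qb N) c) = HahnSeries.C c :=
    coe_const (N := N) c
  unfold sig
  rw [RingHom.comp_apply, h]
  split_ifs
  · exact scaleHom_C _ _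
  · rw [RingHom.comp_apply, qExpand_C, qExpand_C]

theorem isIntegral_zeta {ℓ : ℕ} [NeZero ℓ] {ζ : Qbˣ} (hζ : IsPrimitiveRoot ζ ℓ) (k : ℤ) :
    IsIntegral ℤ (((ζ ^ k : Qbˣ)) : Qb) := by
  refine ⟨Polynomial.X ^ ℓ - 1, Polynomial.monic_X_pow_sub_C 1 (NeZero.ne ℓ), ?_⟩
  have h1 : ((ζ ^ k : Qbˣ) : Qb) ^ ℓ = 1 := by
    rw [← Units.val_pow_eq_pow_val, ← zpow_natCast, ← zpow_mul, mul_comm, zpow_mul, zpow_natCast,
      hζ.pow_eq_one, one_zpow, Units.val_one]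
  rw [Polynomial.eval₂_sub, Polynomial.eval₂_pow, Polynomial.eval₂_X, Polynomial.eval₂_one, h1,
    sub_self]

/-- `T_ℓ (c - j) ∈ V` if `j ∈ V` and `c` is integral over `ℤ`. -/
theorem heckeFF_const_sub_j_mem (ℓ : ℕ) [Fact ℓ.Prime] (hℓN : ¬ ℓ ∣ N) (ζ : Qbˣ)
    (hζ : IsPrimitiveRoot ζ ℓ) (V : ValuationSubring (FF Qb N)) (hjV : C.jF Qb N ∈ V) {c : Qb}
    (hc : IsIntegral ℤ c) :
    heckeFF ℓ hℓN ζ hζ (algebraMap Qb (FF Qb N) c - C.jF Qb N) ∈ V := by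
  have hζB : (ζ : Qb) ∈ (integralClosure ℤ Qb).toSubring := by
    have := isIntegral_zeta hζ 1
    rwa [zpow_one] at this
  obtain ⟨Q, hQ, hQe⟩ := exists_poly_heckeMulT (integralClosure ℤ Qb).toSubring ℓ ζ hζ hζB
    (c := c) hc
  have h1 : heckeFF ℓ hℓN ζ hζ (algebraMap Qb (FF Qb N) c - C.jF Qb N) =
      Polynomial.aeval (C.jF Qb N) Q := by
    apply Subtype.ext
    have h2 : ((Polynomial.aeval (C.jF Qb N) Q : FF Qb N) : LaurentSeries Qb) =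
        Polynomial.aeval (jqModC Qb) Q :=
      (Polynomial.aeval_algHom_apply (FF Qb N).val (C.jF Qb N) Q).symm
    rw [h2, ← hQe, ← coe_const (N := N) c]
    rfl
  rw [h1, Polynomial.aeval_eq_sum_range]
  refine sum_mem fun k _ => ?_
  rw [Algebra.smul_def]
  refine mul_mem (mem_of_isIntegral_int V ?_) (pow_mem hjV k)
  exact (hQ k : IsIntegral ℤ (Q.coeff k)).map (algebraMap Qb (FF Qb N)).toIntAlgHom

/-- the Hecke correspondence maps the non-cuspidal points of the fibre to such points. -/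
theorem exists_corr {p : ℕ} (hp0 : p ≠ 0) (hpA : (p : Qb) ∈ A.nonunits) (h𝒪 : IsGaussRing A N 𝒪)
    (ℓ : ℕ) [Fact ℓ.Prime] (hℓN : ¬ ℓ ∣ N) (ζ : Qbˣ) (hζ : IsPrimitiveRoot ζ ℓ)
    (V : ValuationSubring (FF Qb N)) (hV : V ∈ fibre 𝒪) :
    ∃ W : ValuationSubring (LaurentSeries Qb), W.comap (sig0 N ℓ) = V ∧
      ∀ i ∈ Finset.range (ℓ + 1), W.comap (sig N ℓ ζ i) ∈ fibre 𝒪 := by
  obtain ⟨hV𝒪, hjV⟩ := hV
  obtain ⟨G, hG⟩ := exists_isGaussExt A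
  have hq : GaussHom A (qExpand Qb ℓ) := gaussHom_qExpand A ℓ
  obtain ⟨W, hWG, hWV⟩ := exists_le_comap_eq (sig0 N ℓ) G V
    (hV𝒪.trans (gauss_le_comap h𝒪 hG hq))
  have hpW : ((p : LaurentSeries Qb))⁻¹ ∉ W := by
    intro h
    apply inv_p_notMem hp0 hpA h𝒪 hV𝒪
    rw [← hWV, ValuationSubring.mem_comap, map_inv₀, map_natCast]
    exact h
  refine ⟨W, hWV, fun i hi => ⟨?_, ?_⟩⟩
  · have hσ : GaussHom A
        (if i < ℓ then scaleHom (ζ ^ i) else (qExpand Qb ℓ).comp (qExpand Qb ℓ)) := by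
      split_ifs
      · refine gaussHom_scaleHom A (ζ ^ i) (mem_of_isIntegral_int A ?_) (mem_of_isIntegral_int A ?_)
        · have := isIntegral_zeta hζ (i : ℤ)
          rwa [zpow_natCast] at this
        · have := isIntegral_zeta hζ (-(i : ℤ))
          rwa [zpow_neg, zpow_natCast] at this
      · exact hq.comp A hq
    intro x hx
    exact comap_le_gauss h𝒪 hG hσ (hWG hx)
  · rw [ValuationSubring.mem_comap]
    refine mem_of_prod_sub_mem (Finset.range (ℓ + 1)) W (fun i => sig N ℓ ζ i (C.jF Qb N))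
      ((HahnSeries.C : Qb →+* LaurentSeries Qb) '' rootsP Qb p) ?_ ?_ ?_ ?_ i hi
    · exact (rootsP_infinite Qb (Nat.pos_of_ne_zero hp0)).image
        (HahnSeries.C : Qb →+* LaurentSeries Qb).injective.injOn
    · rintro _ ⟨c, hc, rfl⟩
      exact mem_of_isIntegral_int W (isIntegral_of_mem_rootsP (map_mem_rootsP _ hc))
    · rintro _ ⟨c, hc, rfl⟩ _ ⟨c', hc', rfl⟩ hne
      exact valuation_sub_eq_one_of_mem_rootsP W hpW (map_mem_rootsP _ hc) (map_mem_rootsP _ hc')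
        hne
    · rintro _ ⟨c, hc, rfl⟩
      have h1 : ∏ i ∈ Finset.range (ℓ + 1), (HahnSeries.C c - sig N ℓ ζ i (C.jF Qb N)) =
          sig0 N ℓ (heckeFF ℓ hℓN ζ hζ (algebraMap Qb (FF Qb N) c - C.jF Qb N)) := by
        rw [sig0_heckeFF]
        refine Finset.prod_congr rfl fun i _ => ?_
        rw [map_sub, sig_const]
      rw [h1, ← ValuationSubring.mem_comap, hWV]
      exact heckeFF_const_sub_j_mem ℓ hℓN ζ hζ V hjV (isIntegral_of_mem_rootsP hc)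

/-- **EXPORT of LP-EIS (bridge).** -/
theorem dvd_of_slope {p : ℕ} [Fact p.Prime] (hpA : (p : Qb) ∈ A.nonunits) (hpN : p ∣ N)
    (h𝒪 : IsGaussRing A N 𝒪) {u : LaurentSeries Qb} (hu : u ∈ FF Qb N) (hu0 : u ≠ 0) (r : ℤ)
    (hslope : ∀ V : ValuationSubring (FF Qb N), V ≤ 𝒪 → C.jF Qb N ∈ V →
      ∃ a : FF Qb N, a ≠ 0 ∧
        a ^ p * ((⟨u, hu⟩ : FF Qb N) ^ 12 * (⟨dS Qb p, dS_mem_FF p Qb hpN⟩ : FF Qb N) ^ (-r)) ∈ V ∧
        (a ^ p * ((⟨u, hu⟩ : FF Qb N) ^ 12 *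
          (⟨dS Qb p, dS_mem_FF p Qb hpN⟩ : FF Qb N) ^ (-r)))⁻¹ ∈ V)
    (V₀ : ValuationSubring (FF Qb N)) (hV₀ : V₀ ≤ 𝒪) (hjV₀ : C.jF Qb N ∈ V₀)
    (hd₀ : ¬ ∃ a : FF Qb N, a ≠ 0 ∧ a ^ p * (⟨dS Qb p, dS_mem_FF p Qb hpN⟩ : FF Qb N) ∈ V₀ ∧
      (a ^ p * (⟨dS Qb p, dS_mem_FF p Qb hpN⟩ : FF Qb N))⁻¹ ∈ V₀)
    (ℓ : ℕ) [Fact ℓ.Prime] (hℓN : ¬ ℓ ∣ N) (ζ : Qbˣ) (hζ : IsPrimitiveRoot ζ ℓ) (a : ℕ)
    (hT : KummerEquiv N p (heckeMulT ℓ ζ u) (u ^ a)) :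
    (p : ℤ) ∣ r * ((ℓ : ℤ) + 1 - a) := by
  have hp : p.Prime := Fact.out
  have hℓ : ℓ.Prime := Fact.out
  obtain ⟨z, hz, hz0, hzE⟩ := hT
  have hℓp : ¬ ℓ ∣ p := fun h => hℓN (h.trans hpN)
  have hS : ∀ V ∈ fibre 𝒪, ∀ x ∈ constS N p, ∀ y ∈ constS N p, x ≠ y →
      V.valuation (x - y) = 1 := by
    rintro V hV _ ⟨c, hc, rfl⟩ _ ⟨c', hc', rfl⟩ hne
    exact valuation_sub_eq_one_of_mem_rootsP V (inv_p_notMem hp.ne_zero hpA h𝒪 hV.1)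
      (map_mem_rootsP _ hc) (map_mem_rootsP _ hc') hne
  have key := dvd_of_slopes_V (Finset.range (ℓ + 1)) hp (fibre 𝒪) (constS N p)
    (constS_infinite hp.pos) hS (sig0 N ℓ) (sig N ℓ ζ) (heckeFF ℓ hℓN ζ hζ)
    (sig0_heckeFF ℓ hℓN ζ hζ) (exists_corr hp.ne_zero hpA h𝒪 ℓ hℓN ζ hζ)
    (u := ⟨u, hu⟩) (d := ⟨dS Qb p, dS_mem_FF p Qb hpN⟩) (z := ⟨z, hz⟩)
    (fun h => hu0 (congrArg Subtype.val h))
    (fun h => dS_ne_zero (Λ := Qb) p (congrArg Subtype.val h))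
    (fun h => hz0 (congrArg Subtype.val h)) r a (ℓ + 1)
    (fun V hV => hslope V hV.1 hV.2) (Subtype.ext hzE)
    (Subtype.ext (heckeMulT_dS ℓ p hℓ hℓp ζ hζ)) (V₀ := V₀) ⟨hV₀, hjV₀⟩ hd₀
  push_cast at key
  exact key

end Fermat.Agent.LP.EIS
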