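import Fermat.Prelude.Def_ModularCurve_LaurentCoeff
import Mathlib

/-!
# LP-EIS / PL-LOC (F1), part 1: extension of the constants for valuation subrings of subfields of
`K((q))`
-/

set_option autoImplicit false

noncomputable section

namespace Fermat.Agent.LP.EIS

open ModularCurve

section aux

variable {K K' : Type*} [Field K] [Field K'] (ι : K →+* K')
  (E : IntermediateField K (LaurentSeries K)) (V : ValuationSubring E)

/-- `E → K'((q))`. -/
def DUnitExt_kap : E →+* LaurentSeries K' :=
  (coeffMap ι).comp (algebraMap E (LaurentSeries K))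

/-- the additive group generated by the `κ(v) c`, `v ∈ T`, `c ∈ K'`. -/
def DUnitExt_G (T : Set E) : AddSubgroup (LaurentSeries K') :=
  AddSubgroup.closure {x | ∃ v ∈ T, ∃ c : K', x = DUnitExt_kap ι E v * HahnSeries.C c}

theorem DUnitExt_mul {T T' T'' : Set E} (h : ∀ x ∈ T, ∀ y ∈ T', x * y ∈ T'')
    {x y : LaurentSeries K'} (hx : x ∈ DUnitExt_G ι E T) (hy : y ∈ DUnitExt_G ι E T') :
    x * y ∈ DUnitExt_G ι E T'' := by
  unfold DUnitExt_G at hx
  induction hx using AddSubgroup.closure_induction with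
  | mem x hx =>
    obtain ⟨v, hv, c, rfl⟩ := hx
    unfold DUnitExt_G at hy
    induction hy using AddSubgroup.closure_induction with
    | mem y hy =>
      obtain ⟨v', hv', c', rfl⟩ := hy
      refine AddSubgroup.subset_closure ⟨v * v', h v hv v' hv', c * c', ?_⟩
      rw [map_mul, map_mul]
      ring
    | zero => rw [mul_zero]; exact zero_mem _
    | add a b _ _ ha hb => rw [mul_add]; exact add_mem ha hb
    | neg a _ ha => rw [mul_neg]; exact neg_mem ha
  | zero => rw [zero_mul]; exact zero_mem _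
  | add a b _ _ ha hb => rw [add_mul]; exact add_mem ha hb
  | neg a _ ha => rw [neg_mul]; exact neg_mem ha

theorem DUnitExt_nonunits_mul {x y : E} (hx : x ∈ V) (hy : y ∈ V.nonunits) :
    x * y ∈ V.nonunits := by
  have hx' : V.valuation x ≤ 1 := (V.valuation_le_one_iff x).2 hx
  have hy' : V.valuation y < 1 := (V.mem_nonunits_iff).1 hy
  rw [ValuationSubring.mem_nonunits_iff, map_mul]
  exact lt_of_le_of_lt (mul_le_of_le_one_left zero_le hx') hy'

/-- the subring `κ(V)[K']`. -/
def DUnitExt_S : Subring (LaurentSeries K') where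
  carrier := DUnitExt_G ι E (V : Set E)
  mul_mem' := fun hx hy => DUnitExt_mul ι E (fun x hx y hy => V.mul_mem _ _ hx hy) hx hy
  one_mem' := AddSubgroup.subset_closure ⟨1, V.one_mem, 1, by rw [map_one, map_one, mul_one]⟩
  add_mem' := fun hx hy => add_mem hx hy
  zero_mem' := zero_mem _
  neg_mem' := fun hx => neg_mem hx

/-- the ideal generated by the maximal ideal of `V`. -/
def DUnitExt_I : Ideal (DUnitExt_S ι E V) where
  carrier := {x | (x : LaurentSeries K') ∈ DUnitExt_G ι E (V.nonunits : Set E)}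
  add_mem' := fun {a b} (hx : (a : LaurentSeries K') ∈ _) (hy : (b : LaurentSeries K') ∈ _) =>
    (add_mem hx hy : (a : LaurentSeries K') + b ∈ DUnitExt_G ι E (V.nonunits : Set E))
  zero_mem' := (zero_mem _ : (0 : LaurentSeries K') ∈ DUnitExt_G ι E (V.nonunits : Set E))
  smul_mem' := fun c _ hx =>
    DUnitExt_mul ι E (fun x hx y hy => DUnitExt_nonunits_mul E V hx hy) c.2 hx

/-- coefficientwise linear disjointness. -/
theorem DUnitExt_key (hV : ∀ c : K, algebraMap K E c ∈ V) (lam : K' → K)
    (hadd : ∀ a b, lam (a + b) = lam a + lam b) (hsmul : ∀ (a : K) b, lam (ι a * b) = a * lam b)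
    (x : LaurentSeries K') (hx : x ∈ DUnitExt_G ι E (V.nonunits : Set E)) :
    ∃ m : E, m ∈ V.nonunits ∧ ∀ n : ℤ, (m : LaurentSeries K).coeff n = lam (x.coeff n) := by
  have h0 : lam 0 = 0 := by
    have := hsmul 0 0
    rwa [map_zero, zero_mul, zero_mul] at this
  have hneg : ∀ a, lam (-a) = -lam a := by
    intro a
    have := hadd a (-a)
    rw [add_neg_cancel, h0] at this
    exact eq_neg_of_add_eq_zero_right this.symm
  unfold DUnitExt_G at hx
  induction hx using AddSubgroup.closure_induction with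
  | mem x hx =>
    obtain ⟨m, hm, c, rfl⟩ := hx
    refine ⟨algebraMap K E (lam c) * m, DUnitExt_nonunits_mul E V (hV _) hm, fun n => ?_⟩
    have h1 : ((algebraMap K E (lam c) * m : E) : LaurentSeries K) =
        HahnSeries.C (lam c) * (m : LaurentSeries K) := by
      have h2 : ((algebraMap K E (lam c) : E) : LaurentSeries K) = HahnSeries.C (lam c) := by
        have h3 : ((algebraMap K E (lam c) : E) : LaurentSeries K) =
          algebraMap K (LaurentSeries K) (lam c) := rfl
        rw [h3, algebraMap_laurentSeries_eq_single, HahnSeries.C_apply]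
      rw [← h2]
      rfl
    have h4 : (DUnitExt_kap ι E m * HahnSeries.C c).coeff n = ι ((m : LaurentSeries K).coeff n) * c := by
      rw [mul_comm, HahnSeries.C_mul_eq_smul, HahnSeries.coeff_smul, smul_eq_mul, mul_comm]
      rfl
    rw [h1, h4, hsmul, HahnSeries.C_mul_eq_smul, HahnSeries.coeff_smul, smul_eq_mul, mul_comm]
  | zero =>
    exact ⟨0, by rw [ValuationSubring.mem_nonunits_iff, map_zero]; exact zero_lt_one,
      fun n => by simp [h0]⟩
  | add x y _ _ hx hy =>
    obtain ⟨m, hm, hmn⟩ := hx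
    obtain ⟨m', hm', hmn'⟩ := hy
    refine ⟨m + m', ?_, fun n => ?_⟩
    · rw [ValuationSubring.mem_nonunits_iff] at hm hm' ⊢
      exact lt_of_le_of_lt (V.valuation.map_add _ _) (max_lt hm hm')
    · have h1 : ((m + m' : E) : LaurentSeries K) = (m : LaurentSeries K) + m' := rfl
      rw [h1, HahnSeries.coeff_add, HahnSeries.coeff_add, hadd, hmn, hmn']
  | neg x _ hx =>
    obtain ⟨m, hm, hmn⟩ := hx
    refine ⟨-m, ?_, fun n => ?_⟩
    · rw [ValuationSubring.mem_nonunits_iff] at hm ⊢
      rwa [Valuation.map_neg]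
    · have h1 : ((-m : E) : LaurentSeries K) = -(m : LaurentSeries K) := rfl
      rw [h1, HahnSeries.coeff_neg, HahnSeries.coeff_neg, hneg, hmn]

theorem DUnitExt_I_ne_top (hV : ∀ c : K, algebraMap K E c ∈ V) : DUnitExt_I ι E V ≠ ⊤ := by
  letI := ι.toAlgebra
  rw [Ideal.ne_top_iff_one]
  intro h1
  have h2 : (1 : LaurentSeries K') ∈ DUnitExt_G ι E (V.nonunits : Set E) := h1
  obtain ⟨lam, hlam⟩ := LinearMap.exists_leftInverse_of_injective (Algebra.linearMap K K')
    (LinearMap.ker_eq_bot.2 (algebraMap K K').injective)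
  obtain ⟨m, hm, hmn⟩ := DUnitExt_key ι E V hV lam (map_add lam)
    (fun a b => by
      have : ι a * b = a • b := (Algebra.smul_def a b).symm
      rw [this, map_smul, smul_eq_mul]) 1 h2
  have hl1 : lam 1 = 1 := by
    have := LinearMap.congr_fun hlam 1
    simpa using this
  have hm1 : m = 1 := by
    apply Subtype.ext
    ext n
    rw [hmn]
    show lam ((1 : LaurentSeries K').coeff n) = (1 : LaurentSeries K).coeff n
    rw [HahnSeries.coeff_one, HahnSeries.coeff_one]
    split_ifs
    · exact hl1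
    · exact map_zero _
  rw [hm1, ValuationSubring.mem_nonunits_iff, map_one] at hm
  exact lt_irrefl _ hm

end aux

/-- A valuation subring `V ⊇ K` of a subfield `E` of `K((q))` is induced by a valuation subring
`W ⊇ K'` of `K'((q))`. -/
theorem exists_valuationSubring_coeffMap {K K' : Type*} [Field K] [Field K'] (ι : K →+* K')
    (E : IntermediateField K (LaurentSeries K)) (V : ValuationSubring E)
    (hV : ∀ c : K, algebraMap K E c ∈ V) :
    ∃ W : ValuationSubring (LaurentSeries K'),
      W.comap ((coeffMap ι).comp (algebraMap E (LaurentSeries K))) = V ∧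
      ∀ c : K', (HahnSeries.C c : LaurentSeries K') ∈ W := by
  obtain ⟨W, hSW, hIW⟩ := Ideal.image_subset_nonunits_valuationSubring (DUnitExt_I ι E V)
    (DUnitExt_I_ne_top ι E V hV)
  have hgen : ∀ (T : Set E), ∀ y ∈ T, DUnitExt_kap ι E y ∈ DUnitExt_G ι E T := fun T y hy =>
    AddSubgroup.subset_closure ⟨y, hy, 1, by rw [map_one, mul_one]⟩
  have hVW : ∀ y ∈ V, DUnitExt_kap ι E y ∈ W := fun y hy => hSW (hgen _ y hy)
  refine ⟨W, ?_, fun c => ?_⟩
  · ext y
    rw [ValuationSubring.mem_comap]
    constructor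
    · intro hy
      by_contra hyV
      have h1 : y⁻¹ ∈ V.nonunits := by
        rw [ValuationSubring.mem_nonunits_iff, map_inv₀]
        rw [← V.valuation_le_one_iff, not_le] at hyV
        exact inv_lt_one_of_one_lt₀ hyV
      have h4 : DUnitExt_kap ι E y⁻¹ ∈ W.nonunits :=
        hIW ⟨⟨_, hgen _ _ (V.nonunits_subset h1)⟩, hgen _ _ h1, rfl⟩
      rw [ValuationSubring.mem_nonunits_iff, map_inv₀, map_inv₀] at h4
      have h5 : W.valuation (DUnitExt_kap ι E y) ≤ 1 := (W.valuation_le_one_iff _).2 hy
      have h6 : W.valuation (DUnitExt_kap ι E y) ≠ 0 := by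
        intro h0
        have hy0 : y = 0 := (map_eq_zero _).1 ((map_eq_zero _).1 h0)
        exact hyV (hy0 ▸ V.zero_mem)
      exact absurd h4 (not_lt.2 ((one_le_inv₀ (zero_lt_iff.2 h6)).2 h5))
    · exact hVW y
  · exact hSW (AddSubgroup.subset_closure ⟨1, V.one_mem, c, by rw [map_one, one_mul]⟩)

end Fermat.Agent.LP.EIS
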