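import Fermat.Agent.GR.A.ModFun
import Fermat.Agent.S24.Degree
import Fermat.Agent.S24.LevelOnePoly

/-!
# LP-EIS / PL-LOC (F1), part 2: the expansion of a holomorphic modular function is integral over
`ℂ[j]`
-/

set_option autoImplicit false

noncomputable section

namespace Fermat.Agent.LP.EIS

open UpperHalfPlane ModularCurve Fermat.Agent.GR Fermat.Agent.GR.A Fermat.Agent.S28

open Fermat.Agent.S24 (Hol constHol compHom MerInf jHol Cosets compHom_apply compHom_mul
  compHom_one degree_mem_MerInf_one exists_polynomial_of_invariant)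
open scoped MatrixGroups

/-- the conjugates of a holomorphic function, indexed by the cosets. -/
def DUnitInt_cj (N : ℕ) (hH : Hol) (x : Cosets N) : Hol := compHom (x.out)⁻¹ hH

theorem DUnitInt_cj_mk {N : ℕ} (hH : Hol)
    (hinv : ∀ γ ∈ CongruenceSubgroup.Gamma0 N, compHom γ hH = hH) (γ : SL(2, ℤ)) :
    DUnitInt_cj N hH (QuotientGroup.mk γ) = compHom γ⁻¹ hH := by
  obtain ⟨h, hh⟩ := QuotientGroup.mk_out_eq_mul (CongruenceSubgroup.Gamma0 N) γ
  show compHom ((QuotientGroup.mk γ : Cosets N).out)⁻¹ hH = _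
  rw [hh, mul_inv_rev, compHom_mul, hinv _ ((CongruenceSubgroup.Gamma0 N).inv_mem h.2)]

theorem DUnitInt_cj_smul {N : ℕ} (hH : Hol)
    (hinv : ∀ γ ∈ CongruenceSubgroup.Gamma0 N, compHom γ hH = hH) (γ : SL(2, ℤ)) (x : Cosets N) :
    DUnitInt_cj N hH (γ • x) = compHom γ⁻¹ (DUnitInt_cj N hH x) := by
  induction x using QuotientGroup.induction_on with
  | H g =>
    have h1 : γ • (QuotientGroup.mk g : Cosets N) = QuotientGroup.mk (γ * g) := rfl
    rw [h1, DUnitInt_cj_mk hH hinv, DUnitInt_cj_mk hH hinv, mul_inv_rev, compHom_mul]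

theorem DUnitInt_exists_monic {N : ℕ} [NeZero N] (hH : Hol)
    (hinv0 : ∀ γ ∈ CongruenceSubgroup.Gamma0 N, compHom γ hH = hH)
    (hcusp : ∀ γ : SL(2, ℤ), ((compHom γ hH : Hol) : ℍ → ℂ) ∈ MerInf N) :
    ∃ P : Polynomial (Polynomial ℂ), P.Monic ∧
      Polynomial.eval₂ (Polynomial.eval₂RingHom constHol jHol) hH P = 0 := by
  classical
  let _ := Fintype.ofFinite (Cosets N)
  let P : Polynomial Hol := ∏ x : Cosets N, (Polynomial.X - Polynomial.C (DUnitInt_cj N hH x))
  have hPmonic : P.Monic := Polynomial.monic_prod_X_sub_C _ _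
  have hPmap : ∀ γ : SL(2, ℤ), P.map (compHom γ⁻¹) = P := by
    intro γ
    simp only [P, Polynomial.map_prod, Polynomial.map_sub, Polynomial.map_X, Polynomial.map_C,
      ← DUnitInt_cj_smul hH hinv0]
    exact Equiv.prod_comp (MulAction.toPerm γ)
      (fun x : Cosets N => (Polynomial.X - Polynomial.C (DUnitInt_cj N hH x)))
  have hinv : ∀ (n : ℕ) (γ : SL(2, ℤ)), compHom γ (P.coeff n) = P.coeff n := by
    intro n γ
    have := congrArg (fun Q => Polynomial.coeff Q n) (hPmap γ⁻¹)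
    simpa [Polynomial.coeff_map] using this
  let R' : Subring Hol := (MerInf N).comap Hol.subtype
  have hPlift : P ∈ Polynomial.liftsRing R'.subtype := by
    apply Subring.prod_mem
    intro x _
    apply Subring.sub_mem
    · exact Polynomial.X_mem_lifts _
    · exact Polynomial.C_mem_lifts R'.subtype ⟨DUnitInt_cj N hH x, hcusp _⟩
  have hmerN : ∀ n, ((P.coeff n : Hol) : ℍ → ℂ) ∈ MerInf N := by
    intro n
    obtain ⟨r, hr⟩ := (Polynomial.lifts_iff_coeff_lifts P).1 hPlift n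
    rw [← hr]
    exact r.2
  have hmer1 : ∀ n, ((P.coeff n : Hol) : ℍ → ℂ) ∈ MerInf 1 := by
    intro n
    apply degree_mem_MerInf_one N _ (hmerN n)
    intro τ
    have := congrArg (fun f : Hol => (f : ℍ → ℂ) τ) (hinv n ModularGroup.T)
    simpa using this
  have hPlift2 : P ∈ Polynomial.lifts (Polynomial.eval₂RingHom constHol jHol) := by
    rw [Polynomial.lifts_iff_coeff_lifts]
    intro n
    obtain ⟨Q, hQ⟩ := exists_polynomial_of_invariant (P.coeff n) (hinv n) (hmer1 n)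
    exact ⟨Q, hQ.symm⟩
  obtain ⟨Q, hQ1, -, hQ3⟩ := Polynomial.lifts_and_natDegree_eq_and_monic hPlift2 hPmonic
  refine ⟨Q, hQ3, ?_⟩
  rw [Polynomial.eval₂_eq_eval_map, hQ1]
  simp only [P, Polynomial.eval_prod, Polynomial.eval_sub, Polynomial.eval_X, Polynomial.eval_C]
  apply Finset.prod_eq_zero (Finset.mem_univ (QuotientGroup.mk 1 : Cosets N))
  rw [DUnitInt_cj_mk hH hinv0, inv_one, compHom_one, sub_self]

theorem DUnitInt_eval₂_apply (P : Polynomial ℂ) (τ : ℍ) :
    ((Polynomial.eval₂ constHol jHol P : Hol) : ℍ → ℂ) τ = P.eval (S28.jF τ) := by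
  induction P using Polynomial.induction_on' with
  | add p q hp hq =>
    rw [Polynomial.eval₂_add, Polynomial.eval_add, ← hp, ← hq]
    rfl
  | monomial n a =>
    rw [Polynomial.eval₂_monomial, Polynomial.eval_monomial]
    rfl

theorem DUnitInt_isExp_sum {N : ℕ} (n : ℕ) (f : ℕ → ℍ → ℂ) (g : ℕ → LaurentSeries ℂ)
    (H : ∀ k, IsExp N (f k) (g k)) :
    IsExp N (∑ k ∈ Finset.range n, f k) (∑ k ∈ Finset.range n, g k) := by
  induction n with
  | zero =>
    rw [Finset.sum_range_zero, Finset.sum_range_zero]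
    exact isExp_zero N
  | succ n ih =>
    rw [Finset.sum_range_succ, Finset.sum_range_succ]
    exact ih.add (H n)

/-- a monic equation over `ℂ[j]`. -/
theorem exists_monic_of_isModFun {N : ℕ} [NeZero N] {h : ℍ → ℂ} {s : LaurentSeries ℂ}
    (hh : IsModFun N h) (hs : IsExp 1 h s) :
    ∃ (n : ℕ) (Q : ℕ → Polynomial ℂ),
      s ^ n + ∑ k ∈ Finset.range n, Polynomial.aeval (jqModC ℂ) (Q k) * s ^ k = 0 := by
  obtain ⟨P, hP, hP0⟩ := DUnitInt_exists_monic (N := N) ⟨h, hh.mdiff⟩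
    (fun γ hγ => Subtype.ext (funext fun τ => hh.inv γ hγ τ)) (fun γ => hh.cusp γ)
  refine ⟨P.natDegree, fun k => P.coeff k, ?_⟩
  have hE : IsExp 1 (h ^ P.natDegree + ∑ k ∈ Finset.range P.natDegree,
      (fun τ => (P.coeff k).eval (S28.jF τ)) * h ^ k)
      (s ^ P.natDegree + ∑ k ∈ Finset.range P.natDegree,
        Polynomial.aeval (jqModC ℂ) (P.coeff k) * s ^ k) :=
    (hs.pow _).add (DUnitInt_isExp_sum _ _ _ fun k => ((isExp_jF.aeval (P.coeff k)).mul (hs.pow k)))
  refine hE.unique one_pos ?_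
  have h0 : h ^ P.natDegree + ∑ k ∈ Finset.range P.natDegree,
      (fun τ => (P.coeff k).eval (S28.jF τ)) * h ^ k = 0 := by
    funext τ
    rw [Polynomial.eval₂_eq_sum_range, Finset.sum_range_succ, hP.coeff_natDegree, map_one,
      one_mul] at hP0
    have h1 := congrArg (fun f : Hol => (f : ℍ → ℂ) τ) hP0
    simp only [Pi.add_apply, Pi.pow_apply, Finset.sum_apply, Pi.mul_apply, Pi.zero_apply]
    rw [add_comm]
    refine Eq.trans ?_ h1
    show _ = ((∑ k ∈ Finset.range P.natDegree,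
      (Polynomial.eval₂RingHom constHol jHol) (P.coeff k) * (⟨h, hh.mdiff⟩ : Hol) ^ k : Hol) :
        ℍ → ℂ) τ + h τ ^ P.natDegree
    congr 1
    have h2 : ((∑ k ∈ Finset.range P.natDegree,
      (Polynomial.eval₂RingHom constHol jHol) (P.coeff k) * (⟨h, hh.mdiff⟩ : Hol) ^ k : Hol) :
        ℍ → ℂ) τ = ∑ k ∈ Finset.range P.natDegree,
      (((Polynomial.eval₂RingHom constHol jHol) (P.coeff k) * (⟨h, hh.mdiff⟩ : Hol) ^ k : Hol) :
        ℍ → ℂ) τ :=
      map_sum ((Pi.evalRingHom (fun _ : ℍ => ℂ) τ).comp Hol.subtype) _ _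
    rw [h2]
    refine Finset.sum_congr rfl fun k _ => ?_
    rw [← DUnitInt_eval₂_apply]
    rfl
  rw [h0]
  exact isExp_zero 1

theorem DUnitInt_aeval_mem (W : ValuationSubring (LaurentSeries ℂ))
    (hc : ∀ c : ℂ, (HahnSeries.C c : LaurentSeries ℂ) ∈ W) (hj : jqModC ℂ ∈ W)
    (Q : Polynomial ℂ) : Polynomial.aeval (jqModC ℂ) Q ∈ W := by
  induction Q using Polynomial.induction_on' with
  | add p q hp hq =>
    rw [map_add]
    exact W.add_mem _ _ hp hq
  | monomial n a =>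
    rw [Polynomial.aeval_monomial]
    refine W.mul_mem _ _ ?_ (pow_mem hj n)
    have e : algebraMap ℂ (LaurentSeries ℂ) a = HahnSeries.C a := by
      rw [algebraMap_laurentSeries_eq_single]
      rfl
    rw [e]
    exact hc a

theorem mem_of_isModFun {N : ℕ} [NeZero N] {h : ℍ → ℂ} {s : LaurentSeries ℂ}
    (hh : IsModFun N h) (hs : IsExp 1 h s) (W : ValuationSubring (LaurentSeries ℂ))
    (hc : ∀ c : ℂ, (HahnSeries.C c : LaurentSeries ℂ) ∈ W) (hj : jqModC ℂ ∈ W) : s ∈ W := by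
  by_contra hsW
  obtain ⟨n, Q, e⟩ := exists_monic_of_isModFun hh hs
  have hv : 1 < W.valuation s := by
    rw [← not_le, W.valuation_le_one_iff]
    exact hsW
  have hv0 : W.valuation s ^ n ≠ 0 := pow_ne_zero n (ne_of_gt (lt_trans zero_lt_one hv))
  have hlt : W.valuation (∑ k ∈ Finset.range n, Polynomial.aeval (jqModC ℂ) (Q k) * s ^ k) <
      W.valuation s ^ n := by
    refine Valuation.map_sum_lt _ hv0 fun k hk => ?_
    rw [map_mul, map_pow]
    have h1 : W.valuation (Polynomial.aeval (jqModC ℂ) (Q k)) ≤ 1 :=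
      (W.valuation_le_one_iff _).mpr (DUnitInt_aeval_mem W hc hj (Q k))
    calc W.valuation (Polynomial.aeval (jqModC ℂ) (Q k)) * W.valuation s ^ k
        ≤ 1 * W.valuation s ^ k := by gcongr
      _ = W.valuation s ^ k := one_mul _
      _ < W.valuation s ^ n := pow_lt_pow_right₀ hv (Finset.mem_range.mp hk)
  have e2 : s ^ n = - ∑ k ∈ Finset.range n, Polynomial.aeval (jqModC ℂ) (Q k) * s ^ k :=
    eq_neg_of_add_eq_zero_left e
  have h3 : W.valuation (s ^ n) = W.valuation s ^ n := map_pow _ _ _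
  rw [e2, Valuation.map_neg] at h3
  exact absurd h3 (ne_of_lt hlt)

end Fermat.Agent.LP.EIS
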