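import Fermat.Agent.LP.EIS.Mem
import Fermat.Agent.LP.EIS.Formal
import Fermat.Agent.GS.WQ

/-!
# LP-EIS / PL-LOC (F2): `w_p d = p^12 / d`
-/

set_option autoImplicit false
set_option synthInstance.maxHeartbeats 400000

noncomputable section

namespace Fermat.Agent.LP.EIS

open UpperHalfPlane ModularCurve Fermat.Agent.GR Fermat.Agent.S28
open scoped MatrixGroups

theorem DUnitW_affH_eq_mulPos (p : ℕ) [NeZero p] (τ : ℍ) : affH p 0 1 τ = S24.mulPos p τ := by
  apply UpperHalfPlane.ext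
  rw [coe_affH 0 (Nat.pos_of_ne_zero (NeZero.ne p)) one_pos, S24.coe_mulPos]
  simp

/-- the effect of the Atkin-Lehner map on `d`. -/
theorem DUnitW_dFun_al {p N0 : ℕ} [NeZero p] (x v : ℤ) (hxv : x * p + v * N0 = 1)
    (γ₀ : SL(2, ℤ)) (h00 : γ₀ 0 0 = x) (h01 : γ₀ 0 1 = -v) (h10 : γ₀ 1 0 = N0) (h11 : γ₀ 1 1 = p)
    (τ : ℍ) : dFun p (γ₀ • S24.mulPos p τ) = (p : ℂ) ^ 12 * (dFun p τ)⁻¹ := by
  have hp : 0 < p := Nat.pos_of_ne_zero (NeZero.ne p)
  have hpC : (p : ℂ) ≠ 0 := by exact_mod_cast hp.ne'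
  have hdet1 : (!![(p : ℤ) * x, -v; (N0 : ℤ), 1] : Matrix (Fin 2) (Fin 2) ℤ).det = 1 := by
    rw [Matrix.det_fin_two_of]
    linear_combination hxv
  let δ : SL(2, ℤ) := ⟨!![(p : ℤ) * x, -v; (N0 : ℤ), 1], hdet1⟩
  have key : S24.mulPos p (γ₀ • S24.mulPos p τ) = δ • τ := by
    refine S24.Conj.mulPos_smul_eq p γ₀ δ 1 p 0 hp ?_ ?_ ?_ ?_ (S24.mulPos p τ) τ ?_
    · show (p : ℤ) * γ₀ 0 0 = (p : ℤ) * x * (1 : ℕ)
      rw [h00]; simp
    · show (p : ℤ) * γ₀ 0 1 = (p : ℤ) * x * 0 + (-v) * p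
      rw [h01]; ring
    · show γ₀ 1 0 = (N0 : ℤ) * (1 : ℕ)
      rw [h10]; simp
    · show γ₀ 1 1 = (N0 : ℤ) * 0 + 1 * p
      rw [h11]; ring
    · rw [S24.coe_mulPos]
      field_simp
      simp
  have hd1 : denom γ₀ (S24.mulPos p τ) = (p : ℂ) * denom δ τ := by
    rw [ModularGroup.denom_apply, ModularGroup.denom_apply, S24.coe_mulPos, h10, h11]
    show ((N0 : ℤ) : ℂ) * ((p : ℂ) * τ) + ((p : ℤ) : ℂ) = (p : ℂ) * (((N0 : ℤ) : ℂ) * τ + ((1 : ℤ) : ℂ))
    push_cast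
    ring
  have hden : denom δ τ ≠ 0 := denom_ne_zero _ τ
  unfold dFun
  rw [DUnitW_affH_eq_mulPos, DUnitW_affH_eq_mulPos, key, DeltaF_smul, DeltaF_smul, hd1, inv_div,
    mul_pow]
  have h1 : DeltaF τ ≠ 0 := DeltaF_ne_zero τ
  field_simp

set_option linter.unusedVariables false in
/-- the Atkin-Lehner map, with its effect on `d`. -/
theorem exists_atkinLehner_map_dFun {p N0 : ℕ} [NeZero p] (hN0 : N0 ≠ 0) (hcop : p.Coprime N0) :
    ∃ g : ℍ → ℍ, Function.Surjective g ∧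
      (∀ (d : ℕ) (_ : NeZero d) (_ : NeZero (GT.EMB.alIdx p d)), d ∣ p * N0 →
        ∀ τ, S24.jdfun d (g τ) = S24.jdfun (GT.EMB.alIdx p d) τ) ∧
      ∀ τ, dFun p (g τ) = (p : ℂ) ^ 12 * (dFun p τ)⁻¹ := by
  obtain ⟨x, v, hxv⟩ := Nat.isCoprime_iff_coprime.2 hcop
  have hdet0 : (!![x, -v; (N0 : ℤ), (p : ℤ)] : Matrix (Fin 2) (Fin 2) ℤ).det = 1 := by
    rw [Matrix.det_fin_two_of]
    linear_combination hxv
  let γ₀ : SL(2, ℤ) := ⟨!![x, -v; (N0 : ℤ), (p : ℤ)], hdet0⟩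
  refine ⟨fun τ => γ₀ • S24.mulPos p τ, ?_, ?_, ?_⟩
  · exact (MulAction.surjective γ₀).comp (GT.EMB.ALMap_mulPos_surjective p)
  · intro d _ _ hd τ
    obtain ⟨d0, p', hc, hd0, hp'⟩ := Nat.exists_coprime d p
    set g0 := Nat.gcd d p with hg0
    have hg0pos : 0 < g0 := Nat.gcd_pos_of_pos_right _ (Nat.pos_of_ne_zero (NeZero.ne p))
    have hd0N0 : d0 ∣ N0 := by
      have h1 : d0 * g0 ∣ p' * N0 * g0 := by
        have : p' * N0 * g0 = p * N0 := by
          conv_rhs => rw [hp']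
          ring
        rw [this, ← hd0]
        exact hd
      exact hc.dvd_of_dvd_mul_left (Nat.dvd_of_mul_dvd_mul_right hg0pos h1)
    obtain ⟨n1, hn1⟩ := hd0N0
    have hal : GT.EMB.alIdx p d = p' * d0 := by
      unfold GT.EMB.alIdx
      rw [← hg0]
      have e1 : p / g0 = p' := by
        conv_lhs => rw [hp']
        exact Nat.mul_div_cancel _ hg0pos
      have e2 : d / g0 = d0 := by
        conv_lhs => rw [hd0]
        exact Nat.mul_div_cancel _ hg0pos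
      rw [e1, e2]
    have hpz : (p : ℤ) = p' * g0 := by exact_mod_cast hp'
    have hdz : (d : ℤ) = d0 * g0 := by exact_mod_cast hd0
    have hNz : (N0 : ℤ) = d0 * n1 := by exact_mod_cast hn1
    have hdet1 : (!![(g0 : ℤ) * x, (d0 : ℤ) * (-v); (n1 : ℤ), (p' : ℤ)] :
        Matrix (Fin 2) (Fin 2) ℤ).det = 1 := by
      rw [Matrix.det_fin_two_of]
      rw [hpz, hNz] at hxv
      linear_combination hxv
    let δ : SL(2, ℤ) := ⟨!![(g0 : ℤ) * x, (d0 : ℤ) * (-v); (n1 : ℤ), (p' : ℤ)], hdet1⟩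
    have key : S24.mulPos d (γ₀ • S24.mulPos p τ) = δ • S24.mulPos (GT.EMB.alIdx p d) τ := by
      refine S24.Conj.mulPos_smul_eq d γ₀ δ d0 g0 0 hg0pos ?_ ?_ ?_ ?_ (S24.mulPos p τ)
        (S24.mulPos (GT.EMB.alIdx p d) τ) ?_
      · show (d : ℤ) * x = (g0 : ℤ) * x * d0
        rw [hdz]; ring
      · show (d : ℤ) * (-v) = (g0 : ℤ) * x * 0 + (d0 : ℤ) * (-v) * g0
        rw [hdz]; ring
      · show (N0 : ℤ) = (n1 : ℤ) * d0
        rw [hNz]; ring
      · show (p : ℤ) = (n1 : ℤ) * 0 + (p' : ℤ) * g0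
        rw [hpz]; ring
      · rw [S24.coe_mulPos, S24.coe_mulPos]
        have hgC : (g0 : ℂ) ≠ 0 := by exact_mod_cast hg0pos.ne'
        have hpC : (p : ℂ) = p' * g0 := by exact_mod_cast hp'
        have halC : ((GT.EMB.alIdx p d : ℕ) : ℂ) = p' * d0 := by exact_mod_cast hal
        rw [halC, hpC]
        field_simp
        simp
    rw [S24.jdfun, key, S24.jfun_smul, S24.jdfun]
  · intro τ
    exact DUnitW_dFun_al x v hxv γ₀ rfl rfl rfl rfl τ

/-- simultaneous expansions of `a` and `w a` -/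
theorem DUnitW_exists_fun {K : Type} [Field K] (ι : K →+* ℂ) {p N0 : ℕ} [NeZero p]
    [NeZero (p * N0)] (hcop : p.Coprime N0) {w : FF K (p * N0) ≃ₐ[K] FF K (p * N0)}
    (hw : GS.IsWQ K p N0 w) (g : ℍ → ℍ)
    (hg : ∀ (d : ℕ) (_ : NeZero d) (_ : NeZero (GT.EMB.alIdx p d)), d ∣ p * N0 →
        ∀ τ, S24.jdfun d (g τ) = S24.jdfun (GT.EMB.alIdx p d) τ) (a : A.A1 K (p * N0)) :
    ∃ h : ℍ → ℂ, IsExp 1 h (coeffMap ι (a : LaurentSeries K)) ∧
      IsExp 1 (fun τ => h (g τ))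
        (coeffMap ι ((w (A.incl K (p * N0) a) : FF K (p * N0)) : LaurentSeries K)) := by
  induction a using A.A1_induction with
  | hgen d hd0 hd =>
    have hne : NeZero (GT.EMB.alIdx p d) := ⟨GT.EMB.AtkinLehner_alIdx_ne_zero hcop hd⟩
    refine ⟨S24.jdfun d, ?_, ?_⟩
    · have h1 := B.isExp_jdfun d
      rw [← A.coeffMap_qExpand_jq ι d] at h1
      exact h1
    · have e1 : A.incl K (p * N0) (A.jdA K (p * N0) d hd) = GT.EMB.gen K (p * N0) d hd :=
        Subtype.ext (GT.EMB.jd_eq K d).symm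
      rw [e1, (GS.isWQ_iff_gen hcop w).1 hw d hd, GT.EMB.coeffMap_jd, GT.EMB.jd_eq]
      exact (B.isExp_jdfun (GT.EMB.alIdx p d)).congr (fun τ => (hg d hd0 hne hd τ).symm)
  | hconst c =>
    refine ⟨fun _ => ι c, ?_, ?_⟩
    · have h1 := isExp_C 1 (ι c)
      rw [← A.coeffMap_algebraMap ι c] at h1
      exact h1
    · rw [(A.incl K (p * N0)).commutes, w.commutes]
      have h1 := isExp_C 1 (ι c)
      rw [← A.coeffMap_algebraMap ι c] at h1
      exact h1
  | hadd a b iha ihb =>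
    obtain ⟨ha, ha1, ha2⟩ := iha
    obtain ⟨hb, hb1, hb2⟩ := ihb
    refine ⟨ha + hb, ?_, ?_⟩
    · have := ha1.add hb1
      rw [← map_add] at this
      exact this
    · have := ha2.add hb2
      rw [← map_add] at this
      rw [map_add, map_add]
      exact this
  | hmul a b iha ihb =>
    obtain ⟨ha, ha1, ha2⟩ := iha
    obtain ⟨hb, hb1, hb2⟩ := ihb
    refine ⟨ha * hb, ?_, ?_⟩
    · have := ha1.mul hb1
      rw [← map_mul] at this
      exact this
    · have := ha2.mul hb2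
      rw [← map_mul] at this
      rw [map_mul, map_mul]
      exact this

/-- (F2) -/
theorem isWQ_dS {K : Type} [Field K] (ι : K →+* ℂ) {p N0 : ℕ} [NeZero p] [NeZero (p * N0)]
    (hcop : p.Coprime N0) {w : FF K (p * N0) ≃ₐ[K] FF K (p * N0)} (hw : GS.IsWQ K p N0 w)
    {dd : FF K (p * N0)} (hdd : (dd : LaurentSeries K) = dS K p) :
    ((w dd : FF K (p * N0)) : LaurentSeries K) = HahnSeries.C ((p : K) ^ 12) * dInvS K p := by
  have hN0 : N0 ≠ 0 := right_ne_zero_of_mul (NeZero.ne (p * N0))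
  obtain ⟨g, -, hg, hgd⟩ := exists_atkinLehner_map_dFun (p := p) hN0 hcop
  obtain ⟨a, b, hb, hab⟩ := A.exists_frac K (p * N0) dd
  obtain ⟨fa, fa1, fa2⟩ := DUnitW_exists_fun ι hcop hw g hg a
  obtain ⟨fb, fb1, fb2⟩ := DUnitW_exists_fun ι hcop hw g hg b
  have hib : A.incl K (p * N0) b ≠ 0 := fun h =>
    hb (A.incl_injective K (p * N0) (h.trans (map_zero _).symm))
  have hmul : dd * A.incl K (p * N0) b = A.incl K (p * N0) a := by
    rw [hab, div_mul_cancel₀ _ hib]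
  have hmulS : dS K p * (b : LaurentSeries K) = (a : LaurentSeries K) := by
    rw [← hdd]
    exact congrArg Subtype.val hmul
  -- functions
  have hfun : ∀ τ, dFun p τ * fb τ = fa τ := by
    have h1 : IsExp 1 (dFun p * fb) (coeffMap ι (a : LaurentSeries K)) := by
      rw [← hmulS, map_mul, coeffMap_dS]
      exact (isExp_dFun p).mul fb1
    exact fun τ => h1.fun_unique fa1 τ
  have h2 : IsExp 1 (fun τ => fa (g τ))
      (HahnSeries.C ((p : ℂ) ^ 12) * dInvS ℂ p *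
        coeffMap ι ((w (A.incl K (p * N0) b) : FF K (p * N0)) : LaurentSeries K)) := by
    refine (((isExp_C 1 ((p : ℂ) ^ 12)).mul (isExp_dFun_inv p)).mul fb2).congr ?_
    intro τ
    rw [← hfun (g τ), hgd]
    rfl
  have h3 := h2.unique one_pos fa2
  have h4 : HahnSeries.C ((p : K) ^ 12) * dInvS K p *
      ((w (A.incl K (p * N0) b) : FF K (p * N0)) : LaurentSeries K)
      = ((w (A.incl K (p * N0) a) : FF K (p * N0)) : LaurentSeries K) := by
    apply A.coeffMap_injective ι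
    rw [← h3, map_mul, map_mul, coeffMap_dInvS]
    congr 2
    rw [HahnSeries.C_apply, coeffMap_single, HahnSeries.C_apply, map_pow, map_natCast]
  have hwb : ((w (A.incl K (p * N0) b) : FF K (p * N0)) : LaurentSeries K) ≠ 0 := by
    intro h
    apply hib
    have : w (A.incl K (p * N0) b) = 0 := Subtype.ext h
    exact (map_eq_zero_iff w w.injective).1 this
  have h5 : ((w dd : FF K (p * N0)) : LaurentSeries K) *
      ((w (A.incl K (p * N0) b) : FF K (p * N0)) : LaurentSeries K)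
      = ((w (A.incl K (p * N0) a) : FF K (p * N0)) : LaurentSeries K) := by
    rw [← hmul, map_mul]
    rfl
  exact mul_right_cancel₀ hwb (h5.trans h4.symm)

end Fermat.Agent.LP.EIS
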