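import Fermat.Agent.LP.EIS.DUnitPrim
import Fermat.Agent.LP.EIS.DUnitExt
import Fermat.Agent.LP.EIS.DUnitInt
import Fermat.Agent.LP.EIS.DUnitW

/-!
# LP-EIS / PL-LOC (F): the facts about `d = Δ(q)/Δ(q^p)`

* (F0) `dd_mem_gauss` : unit at the Gauss valuation;
* (F1) `dd_mem_of_j_mem` : unit at every valuation subring containing the constants and `j`;
* (F2) `isWQ_dS` : `w_p d = p^12 / d`.
-/

set_option autoImplicit false
set_option synthInstance.maxHeartbeats 400000

noncomputable section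

namespace Fermat.Agent.LP.EIS

open ModularCurve Fermat.Agent.GR

/-- (F1) -/
theorem dd_mem_of_j_mem {K : Type} [Field K] (ι : K →+* ℂ) {p N : ℕ} [NeZero p]
    (V : ValuationSubring (FF K N)) (hV : ∀ c : K, algebraMap K (FF K N) c ∈ V)
    {jj dd : FF K N} (hjj : (jj : LaurentSeries K) = jqModC K)
    (hdd : (dd : LaurentSeries K) = dS K p) (hj : jj ∈ V) : dd ∈ V ∧ dd⁻¹ ∈ V := by
  obtain ⟨W, hWV, hW⟩ := exists_valuationSubring_coeffMap ι (FF K N) V hV
  have hjW : jqModC ℂ ∈ W := by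
    rw [← hWV, ValuationSubring.mem_comap] at hj
    have h1 : ((coeffMap ι).comp (algebraMap (FF K N) (LaurentSeries K))) jj = jqModC ℂ := by
      rw [RingHom.comp_apply, ← coeffMap_jqModC ι, ← hjj]
      rfl
    rwa [h1] at hj
  constructor
  · rw [← hWV, ValuationSubring.mem_comap]
    have h1 : ((coeffMap ι).comp (algebraMap (FF K N) (LaurentSeries K))) dd = dS ℂ p := by
      rw [RingHom.comp_apply, ← coeffMap_dS ι, ← hdd]
      rfl
    rw [h1]
    exact mem_of_isModFun (isModFun_dFun p) (isExp_dFun p) W hW hjW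
  · rw [← hWV, ValuationSubring.mem_comap]
    have h1 : ((coeffMap ι).comp (algebraMap (FF K N) (LaurentSeries K))) dd⁻¹ = dInvS ℂ p := by
      rw [map_inv₀, RingHom.comp_apply, dInvS_eq_inv, ← coeffMap_dS ι, ← hdd]
      rfl
    rw [h1]
    exact mem_of_isModFun (isModFun_dFun_inv p) (isExp_dFun_inv p) W hW hjW

end Fermat.Agent.LP.EIS
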