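import Fermat.Agent.LP.EIS.Formal
import Fermat.Agent.GR.S.R.Gauss

/-!
# LP-EIS / PL-LOC (F0): `d = Δ(q)/Δ(q^p)` is a unit at every Gauss valuation
-/

set_option autoImplicit false
set_option synthInstance.maxHeartbeats 400000

noncomputable section

namespace Fermat.Agent.LP.EIS

open ModularCurve Fermat.Agent.GR Fermat.Agent.GR.E Fermat.Agent.GR.S.R

variable {K : Type*} [Field K] (R : ValuationSubring K) (p : ℕ) [NeZero p]

theorem isInt_dS : IsInt R (dS K p) := by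
  intro n
  rw [← coeffMap_dS (Int.castRingHom K) p, coeffMap_coeff]
  exact intCast_mem R _

theorem isInt_dInvS : IsInt R (dInvS K p) := by
  intro n
  rw [← coeffMap_dInvS (Int.castRingHom K) p, coeffMap_coeff]
  exact intCast_mem R _

theorem isPrim_dS : IsPrim R (dS K p) := by
  refine ⟨isInt_dS R p, ?_⟩
  by_contra h
  push Not at h
  have h1 := Gauss_not_isPrim_mul R h (isInt_dInvS R p)
  rw [dS_mul_dInvS] at h1
  exact h1 (Gauss_isPrim_one R)

theorem isPrim_dInvS : IsPrim R (dInvS K p) := by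
  refine ⟨isInt_dInvS R p, ?_⟩
  by_contra h
  push Not at h
  have h1 := Gauss_not_isPrim_mul R h (isInt_dS R p)
  rw [mul_comm, dS_mul_dInvS] at h1
  exact h1 (Gauss_isPrim_one R)

/-- (F0) -/
theorem dd_mem_gauss {N : ℕ} {𝒪 : ValuationSubring (FF K N)}
    (h𝒪 : ∀ u, u ∈ 𝒪 ↔ IsGaussInt R N u) {dd : FF K N} (hdd : (dd : LaurentSeries K) = dS K p) :
    dd ∈ 𝒪 ∧ dd⁻¹ ∈ 𝒪 := by
  constructor
  · rw [h𝒪]
    refine ⟨dd, 1, dd.2, one_mem _, ?_, Gauss_isPrim_one R, mul_one _⟩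
    rw [hdd]
    exact isInt_dS R p
  · rw [h𝒪]
    refine ⟨(dd⁻¹ : FF K N), 1, (dd⁻¹ : FF K N).2, one_mem _, ?_, Gauss_isPrim_one R, mul_one _⟩
    have : ((dd⁻¹ : FF K N) : LaurentSeries K) = dInvS K p := by
      rw [dInvS_eq_inv, ← hdd]
      rfl
    rw [this]
    exact isInt_dInvS R p

end Fermat.Agent.LP.EIS
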