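import Fermat.Agent.LP.EIS.Group
import Fermat.Agent.GR.G.Main
import Fermat.Agent.GR.H.Cyc
import Fermat.Prelude.Def_FLTPrelim_GaloisRep
import Fermat.Prelude.Def_EllipticCurve_FrobeniusTrace

/-!
# LP-EIS: an elliptic curve with `a_ℓ ≡ ℓ + 1 (mod p)` for almost all `ℓ` has reducible `E[p]`

Inputs (as hypotheses, to be discharged by the module EL): `#E[p] = p²` and the Frobenius relation
`σ² - a_ℓ σ + ℓ = 0` on `E[p]`.  Frobenius' density theorem is `GR.G.exists_frobenius_pow_mem`.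
-/

set_option autoImplicit false

open scoped WeierstrassCurve.Affine

namespace Fermat.Agent.LP.EIS

open WeierstrassCurve WeierstrassCurve.Affine WeierstrassCurve.Affine.Point

local notation "Qb" => AlgebraicClosure ℚ
local notation "GQ" => (AlgebraicClosure ℚ ≃ₐ[ℚ] AlgebraicClosure ℚ)

variable (E : WeierstrassCurve ℚ) (p : ℕ)

/-- the set of coordinates of a point. -/
def Eis_coords : (E⁄Qb).Point → Set Qb
  | .zero => ∅
  | .some x y _ => {x, y}

theorem Eis_coords_finite (P : (E⁄Qb).Point) : (Eis_coords E P).Finite := by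
  cases P with
  | zero => exact Set.finite_empty
  | some x y h => exact (Set.toFinite ({x, y} : Set Qb))

theorem Eis_smul_eq (σ : GQ) (P : (E⁄Qb).Point) (h : ∀ c ∈ Eis_coords E P, σ c = c) :
    σ • P = P := by
  cases P with
  | zero => rfl
  | some x y hxy =>
    have hx : σ x = x := h x (Or.inl rfl)
    have hy : σ y = y := h y (Or.inr rfl)
    rw [algEquiv_smul_def, Point.map_some]
    simp only [Point.some.injEq]
    exact ⟨hx, hy⟩

/-- there is an open normal subgroup of `G_ℚ` acting trivially on `E[p]` and on `μ_p`. -/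
theorem exists_open_normal_trivial (hp : 0 < p)
    (hfin : Finite (Submodule.torsionBy ℤ (E⁄Qb).Point p)) :
    ∃ U : Subgroup GQ, U.Normal ∧ IsOpen (U : Set GQ) ∧
      (∀ σ ∈ U, ∀ x : Submodule.torsionBy ℤ (E⁄Qb).Point p, σ • x = x) ∧
      (∀ σ ∈ U, ∀ ζ : Qb, ζ ^ p = 1 → σ ζ = ζ) := by
  classical
  have hac : IsAlgClosure ℚ (AlgebraicClosure ℚ) :=
    @AlgebraicClosure.instIsAlgClosure ℚ _
  have hgal : IsGalois ℚ (AlgebraicClosure ℚ) := ⟨⟩
  let T : Set Qb := (⋃ x : Submodule.torsionBy ℤ (E⁄Qb).Point p, Eis_coords E x.1) ∪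
    {ζ : Qb | ζ ^ p = 1}
  have hT : T.Finite := by
    refine Set.Finite.union (Set.finite_iUnion fun x => Eis_coords_finite E x.1) ?_
    refine (Polynomial.nthRootsFinset p (1 : Qb)).finite_toSet.subset ?_
    intro ζ hζ
    exact (Polynomial.mem_nthRootsFinset hp (1 : Qb)).mpr hζ
  haveI : Finite T := hT
  let L : IntermediateField ℚ Qb := IntermediateField.adjoin ℚ T
  have hL : FiniteDimensional ℚ L :=
    IntermediateField.finiteDimensional_adjoin fun x _ => Algebra.IsIntegral.isIntegral x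
  let F : IntermediateField ℚ (AlgebraicClosure ℚ) := IntermediateField.normalClosure ℚ L _
  have hLF : L ≤ F := L.le_normalClosure
  have hFfin : FiniteDimensional ℚ F := normalClosure.is_finiteDimensional ℚ L _
  have hFn : Normal ℚ F := normalClosure.normal ℚ L _
  have hUn : F.fixingSubgroup.Normal := inferInstance
  have hUo : IsOpen (F.fixingSubgroup : Set GQ) := F.fixingSubgroup_isOpen
  have hfix : ∀ σ ∈ F.fixingSubgroup, ∀ c ∈ T, σ c = c := by
    intro σ hσ c hc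
    exact (IntermediateField.mem_fixingSubgroup_iff F σ).mp hσ c
      (hLF (IntermediateField.subset_adjoin ℚ T hc))
  refine ⟨F.fixingSubgroup, hUn, hUo, ?_, ?_⟩
  · intro σ hσ x
    apply Subtype.ext
    show σ • (x : (E⁄Qb).Point) = x
    refine Eis_smul_eq E σ x.1 fun c hc => hfix σ hσ c (Or.inl ?_)
    exact Set.mem_iUnion.mpr ⟨x, hc⟩
  · intro σ hσ ζ hζ
    exact hfix σ hσ ζ (Or.inr hζ)

/-- the mod `p` cyclotomic character. -/
noncomputable def Eis_omega [Fact p.Prime] : GQ →* (ZMod p)ˣ :=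
  haveI : NeZero p := ⟨(Fact.out : p.Prime).ne_zero⟩
  MonoidHom.mk'
    (fun σ => modularCyclotomicCharacter Qb
      (HasEnoughRootsOfUnity.natCard_rootsOfUnity Qb p) (σ : Qb ≃+* Qb))
    (fun a b => by rw [← map_mul]; congr 1)

theorem Eis_omega_eq [Fact p.Prime] (σ : GQ) (m : ℕ) (h : ∀ ζ : Qb, ζ ^ p = 1 → σ ζ = ζ ^ m) :
    ((Eis_omega p σ : (ZMod p)ˣ) : ZMod p) = (m : ZMod p) := by
  haveI : NeZero p := ⟨(Fact.out : p.Prime).ne_zero⟩
  symm
  apply modularCyclotomicCharacter.unique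
  intro t ht
  have ht1 : (t : Qb) ^ p = 1 := by
    have := (mem_rootsOfUnity p t).mp ht
    rw [← Units.val_pow_eq_pow_val, this, Units.val_one]
  have h1 : σ (t : Qb) = (t : Qb) ^ m := h _ ht1
  show σ (t : Qb) = _
  rw [h1, ZMod.val_natCast]
  exact pow_eq_pow_mod m ht1

/-- polynomial identity: `(T - 1)(T - c) = 0` implies `(T ^ k - 1)(T ^ k - c ^ k) = 0`. -/
theorem Eis_pow_rel {k' : Type*} [Field k'] {V : Type*} [AddCommGroup V] [Module k' V]
    (T : Module.End k' V) (c : k') (h : (T - 1) * (T - algebraMap k' _ c) = 0) (k : ℕ) :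
    (T ^ k - 1) * (T ^ k - algebraMap k' _ (c ^ k)) = 0 := by
  have h1 : (Polynomial.X - 1 : Polynomial k') ∣ Polynomial.X ^ k - 1 := by
    have := sub_dvd_pow_sub_pow (Polynomial.X : Polynomial k') 1 k
    rwa [one_pow] at this
  have h2 : (Polynomial.X - Polynomial.C c : Polynomial k') ∣
      Polynomial.X ^ k - Polynomial.C (c ^ k) := by
    have := sub_dvd_pow_sub_pow (Polynomial.X : Polynomial k') (Polynomial.C c) k
    rwa [← Polynomial.C_pow] at this
  obtain ⟨g, hg⟩ := mul_dvd_mul h1 h2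
  have h3 := congrArg (Polynomial.aeval T) hg
  simp only [map_mul, map_sub, map_pow, Polynomial.aeval_X, Polynomial.aeval_C, map_one] at h3
  rw [map_pow, h3, h, zero_mul]

/-- **Eisenstein congruences contradict irreducibility.** -/
theorem not_irreducible_of_eisenstein [Fact p.Prime]
    (hcard : Nat.card (Submodule.torsionBy ℤ (E⁄Qb).Point p) = p ^ 2)
    (S : Finset ℕ) (hpS : p ∈ S) (a : ℕ → ℤ)
    (hfrob : ∀ ℓ : ℕ, ℓ.Prime → ℓ ∉ S → ∀ (A : ValuationSubring Qb) (σ : GQ),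
      A.LiesOverPrime ℓ → A.IsFrobeniusAt σ ℓ →
      ∀ x : Submodule.torsionBy ℤ (E⁄Qb).Point p, σ • σ • x - a ℓ • σ • x + (ℓ : ℤ) • x = 0)
    (heis : ∀ ℓ : ℕ, ℓ.Prime → ℓ ∉ S → (p : ℤ) ∣ a ℓ - ((ℓ : ℤ) + 1)) :
    ¬ GaloisRepIsIrreducible (K := Qb) ℚ E p := by
  classical
  intro hirr
  have hp : p.Prime := Fact.out
  haveI : NeZero p := ⟨hp.ne_zero⟩
  have hfin : Finite (Submodule.torsionBy ℤ (E⁄Qb).Point p) :=
    Nat.finite_of_card_ne_zero (by rw [hcard]; exact pow_ne_zero 2 hp.ne_zero)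
  have hV : Module.finrank (ZMod p) (Submodule.torsionBy ℤ (E⁄Qb).Point p) = 2 := by
    have h1 := Module.natCard_eq_pow_finrank (K := ZMod p)
      (V := Submodule.torsionBy ℤ (E⁄Qb).Point p)
    rw [hcard, Nat.card_zmod] at h1
    exact (Nat.pow_right_injective hp.two_le h1).symm
  obtain ⟨U, hUn, hUo, hUV, hUμ⟩ := exists_open_normal_trivial E p hp.pos hfin
  have hzs : ∀ (m : ℤ) (x : Submodule.torsionBy ℤ (E⁄Qb).Point p), m • x = (m : ZMod p) • x := by
    intro m x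
    exact (Int.cast_smul_eq_zsmul (ZMod p) m x).symm
  have key : ∀ σ : GQ, (galoisRepModuleEnd ℚ E p σ - 1) *
      (galoisRepModuleEnd ℚ E p σ -
        algebraMap (ZMod p) _ ((Eis_omega p σ : (ZMod p)ˣ) : ZMod p)) = 0 := by
    intro σ
    obtain ⟨ℓ, A, τ, hℓ, hℓS, hA, hτ, ⟨k, hk⟩, -⟩ := GR.G.exists_frobenius_pow_mem U hUn hUo S σ
    have hℓp : ¬ ℓ ∣ p := by
      intro hd
      have : ℓ = p := (Nat.prime_dvd_prime_iff_eq hℓ hp).mp hd
      exact hℓS (this ▸ hpS)
    -- the relation for `τ`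
    have hT : (galoisRepModuleEnd ℚ E p τ - 1) *
        (galoisRepModuleEnd ℚ E p τ - algebraMap (ZMod p) _ ((ℓ : ℕ) : ZMod p)) = 0 := by
      ext1 x
      have h1 := hfrob ℓ hℓ hℓS A τ hA hτ x
      have h2 : ((a ℓ : ℤ) : ZMod p) = (ℓ : ZMod p) + 1 := by
        have := (ZMod.intCast_zmod_eq_zero_iff_dvd (a ℓ - ((ℓ : ℤ) + 1)) p).mpr (heis ℓ hℓ hℓS)
        push_cast at this
        linear_combination this
      rw [hzs, hzs, h2, Int.cast_natCast] at h1
      have h3 : τ • (((ℓ : ℕ) : ZMod p) • x) = ((ℓ : ℕ) : ZMod p) • τ • x := smul_comm _ _ _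
      show τ • (τ • x - ((ℓ : ℕ) : ZMod p) • x) - (τ • x - ((ℓ : ℕ) : ZMod p) • x) = 0
      rw [smul_sub, h3]
      generalize τ • τ • x = z at h1 ⊢
      generalize τ • x = y at h1 ⊢
      rw [← h1]
      module
    have hTk := Eis_pow_rel _ _ hT k
    -- `σ` and `τ ^ k` agree on `E[p]` and on `μ_p`
    have hρ : galoisRepModuleEnd ℚ E p σ = galoisRepModuleEnd ℚ E p τ ^ k := by
      rw [← map_pow]
      ext1 x
      have h1 := hUV _ hk x
      rw [galoisRepModuleEnd_apply, galoisRepModuleEnd_apply]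
      have h2 : σ • ((σ⁻¹ * τ ^ k) • x) = τ ^ k • x := by
        rw [← mul_smul, mul_inv_cancel_left]
      rw [← h2, h1]
    have hτk : ∀ (j : ℕ) (ζ : Qb), ζ ^ p = 1 → (τ ^ j) ζ = ζ ^ (ℓ ^ j) := by
      intro j
      induction j with
      | zero => intro ζ _; simp
      | succ j ih =>
        intro ζ hζ
        rw [pow_succ, AlgEquiv.mul_apply, GR.H.frobenius_rootOfUnity A ℓ hℓ hA τ hτ p hℓp ζ hζ,
          map_pow, ih ζ hζ, ← pow_mul, ← pow_succ]
    have hω : ((Eis_omega p σ : (ZMod p)ˣ) : ZMod p) = ((ℓ : ℕ) : ZMod p) ^ k := by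
      rw [← Nat.cast_pow]
      apply Eis_omega_eq
      intro ζ hζ
      have h1 := hUμ _ hk ζ hζ
      have h2 : σ ((σ⁻¹ * τ ^ k) ζ) = (τ ^ k) ζ := by
        rw [AlgEquiv.mul_apply]
        exact AlgEquiv.apply_symm_apply σ _
      rw [← hτk k ζ hζ, ← h2, h1]
    rw [hρ, hω]
    exact hTk
  obtain ⟨N, hN0, hN1, hN⟩ := exists_stable_line hV (galoisRepModuleEnd ℚ E p) (Eis_omega p) key
  rcases hirr.2 N (fun σ x hx => hN σ x hx) with h | h
  · exact hN0 h
  · exact hN1 h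

end Fermat.Agent.LP.EIS
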