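import Fermat.Agent.LP.EIS.Defs

/-!
# LP-EIS, formal part 1: the exact finite identity
`∏_j P_{ℓM}(ζ^j t) · P_M(t^{ℓ²}) = P_{ℓM}(t^ℓ) · P_M(t^ℓ)^ℓ`, `P_M = ∏_{n ≤ M} (1 - t^n)`.
-/

set_option autoImplicit false

noncomputable section

namespace Fermat.Agent.LP.EIS

open ModularCurve Fermat.Agent.GR

variable {Λ : Type*} [CommRing Λ] [IsDomain Λ]

omit [IsDomain Λ] in
theorem EtaFin_scaleHom_single (c : Λˣ) (n : ℕ) :
    scaleHom c (HahnSeries.single (n : ℤ) (1 : Λ))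
      = HahnSeries.C (((c ^ n : Λˣ) : Λ)) * HahnSeries.single (n : ℤ) (1 : Λ) := by
  ext k
  rw [scaleHom_coeff, HahnSeries.C_mul_eq_smul, HahnSeries.coeff_smul, HahnSeries.coeff_single]
  split_ifs with h
  · subst h
    rw [zpow_natCast, smul_eq_mul]
  · rw [mul_zero, smul_zero]

/-- `∏_j (1 - ξ^j x) = 1 - x^ℓ` -/
theorem EtaFin_prod_one_sub {A : Type*} [CommRing A] [IsDomain A] {ℓ : ℕ} (hℓ : 0 < ℓ) {ξ : A}
    (hξ : IsPrimitiveRoot ξ ℓ) (x : A) :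
    ∏ j ∈ Finset.range ℓ, (1 - ξ ^ j * x) = 1 - x ^ ℓ := by
  classical
  have h := hξ.pow_sub_pow_eq_prod_sub_mul 1 x hℓ
  rw [one_pow] at h
  rw [h]
  have himg : (Finset.range ℓ).image (fun j => ξ ^ j) = Polynomial.nthRootsFinset ℓ (1 : A) := by
    apply Finset.eq_of_subset_of_card_le
    · intro y hy
      obtain ⟨j, -, rfl⟩ := Finset.mem_image.1 hy
      rw [Polynomial.mem_nthRootsFinset hℓ, ← pow_mul, mul_comm, pow_mul, hξ.pow_eq_one, one_pow]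
    · rw [hξ.card_nthRootsFinset, Finset.card_image_of_injOn, Finset.card_range]
      intro i hi j hj hij
      exact hξ.pow_inj (Finset.mem_range.1 hi) (Finset.mem_range.1 hj) hij
  rw [← himg, Finset.prod_image]
  intro i hi j hj hij
  exact hξ.pow_inj (Finset.mem_range.1 hi) (Finset.mem_range.1 hj) hij

theorem EtaFin_prod_split {α : Type*} [CommRing α] (ℓ : ℕ) (hℓ : 0 < ℓ) (G A B D : ℕ → α)
    (h1 : ∀ n, ¬ ℓ ∣ n + 1 → G n = A n)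
    (h2 : ∀ m, G (ℓ * m + (ℓ - 1)) = B m) (h3 : ∀ m, A (ℓ * m + (ℓ - 1)) = D m) (M : ℕ) :
    (∏ n ∈ Finset.range (ℓ * M), G n) * ∏ m ∈ Finset.range M, D m =
      (∏ n ∈ Finset.range (ℓ * M), A n) * ∏ m ∈ Finset.range M, B m := by
  obtain ⟨k, rfl⟩ : ∃ k, ℓ = k + 1 := ⟨ℓ - 1, by omega⟩
  simp only [Nat.add_sub_cancel] at h2 h3
  induction M with
  | zero => simp
  | succ M ih =>
    have e : (k + 1) * (M + 1) = (k + 1) * M + k + 1 := by ring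
    have h4 : ∏ i ∈ Finset.range k, G ((k + 1) * M + i) =
        ∏ i ∈ Finset.range k, A ((k + 1) * M + i) := by
      refine Finset.prod_congr rfl fun i hi => h1 _ ?_
      have hi' := Finset.mem_range.1 hi
      intro hd
      rw [add_assoc, Nat.dvd_add_right (dvd_mul_right _ _)] at hd
      have := Nat.le_of_dvd (Nat.succ_pos i) hd
      omega
    rw [e, Finset.prod_range_succ G, Finset.prod_range_succ A, Finset.prod_range_add G,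
      Finset.prod_range_add A, Finset.prod_range_succ D, Finset.prod_range_succ B, h2, h3, h4]
    linear_combination ((∏ i ∈ Finset.range k, A ((k + 1) * M + i)) * B M * D M) * ih

/-- `∏_j (1 - ζ^{jn} t^n) = 1 - t^{nℓ}` if `ℓ ∤ n` (`ℓ` prime). -/
theorem prod_scaleHom_one_sub_of_not_dvd (ℓ : ℕ) (hℓ : ℓ.Prime) (ζ : Λˣ)
    (hζ : IsPrimitiveRoot ζ ℓ) {n : ℕ} (hn : ¬ ℓ ∣ n) :
    ∏ j ∈ Finset.range ℓ, scaleHom (ζ ^ j) (1 - HahnSeries.single (n : ℤ) (1 : Λ))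
      = 1 - HahnSeries.single ((n : ℤ) * ℓ) (1 : Λ) := by
  have hξ : IsPrimitiveRoot (ζ ^ n) ℓ :=
    hζ.pow_of_coprime n ((Nat.Prime.coprime_iff_not_dvd hℓ).2 hn).symm
  have hξ' : IsPrimitiveRoot (((ζ ^ n : Λˣ) : Λ)) ℓ := IsPrimitiveRoot.coe_units_iff.2 hξ
  have hξ'' : IsPrimitiveRoot (HahnSeries.C (((ζ ^ n : Λˣ) : Λ)) : LaurentSeries Λ) ℓ :=
    hξ'.map_of_injective (f := (HahnSeries.C : Λ →+* LaurentSeries Λ)) HahnSeries.C_injective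
  have h := EtaFin_prod_one_sub hℓ.pos hξ'' (HahnSeries.single (n : ℤ) (1 : Λ))
  rw [HahnSeries.single_pow, one_pow, nsmul_eq_mul, mul_comm (ℓ : ℤ)] at h
  rw [← h]
  refine Finset.prod_congr rfl fun j _ => ?_
  rw [map_sub, map_one, EtaFin_scaleHom_single, ← map_pow, ← Units.val_pow_eq_pow_val,
    ← pow_mul, ← pow_mul, mul_comm j n]

/-- `∏_j (1 - ζ^{jn} t^n) = (1 - t^n)^ℓ` if `ℓ ∣ n`. -/
theorem prod_scaleHom_one_sub_of_dvd (ℓ : ℕ) (ζ : Λˣ) (hζ : ζ ^ ℓ = 1) {n : ℕ} (hn : ℓ ∣ n) :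
    ∏ j ∈ Finset.range ℓ, scaleHom (ζ ^ j) (1 - HahnSeries.single (n : ℤ) (1 : Λ))
      = (1 - HahnSeries.single (n : ℤ) (1 : Λ)) ^ ℓ := by
  obtain ⟨k, rfl⟩ := hn
  have h : ∀ j ∈ Finset.range ℓ, scaleHom (ζ ^ j) (1 - HahnSeries.single ((ℓ * k : ℕ) : ℤ) (1 : Λ))
      = 1 - HahnSeries.single ((ℓ * k : ℕ) : ℤ) (1 : Λ) := by
    intro j _
    have e : (ζ ^ j) ^ (ℓ * k) = 1 := by
      rw [← pow_mul, mul_comm j, mul_assoc, pow_mul, hζ, one_pow]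
    rw [map_sub, map_one, EtaFin_scaleHom_single, e, Units.val_one, map_one, one_mul]
  rw [Finset.prod_congr rfl h, Finset.prod_const, Finset.card_range]

theorem qExpand_etaFin (ℓ : ℕ) [NeZero ℓ] (M : ℕ) :
    qExpand Λ ℓ (etaFin Λ M)
      = ∏ n ∈ Finset.range M, (1 - HahnSeries.single ((ℓ : ℤ) * ((n : ℤ) + 1)) (1 : Λ)) := by
  unfold etaFin
  rw [map_prod]
  refine Finset.prod_congr rfl fun n _ => ?_
  rw [map_sub, map_one, qExpand_single]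

/-- the exact finite identity. -/
theorem prod_scaleHom_etaFin (ℓ : ℕ) [NeZero ℓ] [NeZero (ℓ * ℓ)] (hℓ : ℓ.Prime) (ζ : Λˣ)
    (hζ : IsPrimitiveRoot ζ ℓ) (M : ℕ) :
    (∏ j ∈ Finset.range ℓ, scaleHom (ζ ^ j) (etaFin Λ (ℓ * M))) * qExpand Λ (ℓ * ℓ) (etaFin Λ M)
      = qExpand Λ ℓ (etaFin Λ (ℓ * M)) * qExpand Λ ℓ (etaFin Λ M) ^ ℓ := by
  have hcast : ∀ m : ℕ, ((ℓ * m + (ℓ - 1) : ℕ) : ℤ) + 1 = (ℓ : ℤ) * ((m : ℤ) + 1) := by
    intro m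
    have h : ℓ * m + (ℓ - 1) + 1 = ℓ * (m + 1) := by
      have := hℓ.pos
      rw [Nat.mul_succ]
      omega
    exact_mod_cast h
  have hL : ∏ j ∈ Finset.range ℓ, scaleHom (ζ ^ j) (etaFin Λ (ℓ * M)) =
      ∏ n ∈ Finset.range (ℓ * M), ∏ j ∈ Finset.range ℓ,
        scaleHom (ζ ^ j) (1 - HahnSeries.single ((n : ℤ) + 1) (1 : Λ)) := by
    unfold etaFin
    simp_rw [map_prod]
    exact Finset.prod_comm
  rw [hL, qExpand_etaFin, qExpand_etaFin, qExpand_etaFin, ← Finset.prod_pow]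
  refine EtaFin_prod_split ℓ hℓ.pos
    (fun n => ∏ j ∈ Finset.range ℓ, scaleHom (ζ ^ j) (1 - HahnSeries.single ((n : ℤ) + 1) (1 : Λ)))
    (fun n => 1 - HahnSeries.single ((ℓ : ℤ) * ((n : ℤ) + 1)) (1 : Λ))
    (fun m => (1 - HahnSeries.single ((ℓ : ℤ) * ((m : ℤ) + 1)) (1 : Λ)) ^ ℓ)
    (fun m => 1 - HahnSeries.single (((ℓ * ℓ : ℕ) : ℤ) * ((m : ℤ) + 1)) (1 : Λ)) ?_ ?_ ?_ M
  · intro n hn
    have h := prod_scaleHom_one_sub_of_not_dvd ℓ hℓ ζ hζ hn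
    rw [Nat.cast_succ, mul_comm] at h
    exact h
  · intro m
    have h := prod_scaleHom_one_sub_of_dvd ℓ ζ hζ.pow_eq_one (n := ℓ * (m + 1)) (dvd_mul_right _ _)
    have e : ((ℓ * (m + 1) : ℕ) : ℤ) = (ℓ : ℤ) * ((m : ℤ) + 1) := by push_cast; ring
    rw [e] at h
    rw [hcast]
    exact h
  · intro m
    rw [hcast, Nat.cast_mul, mul_assoc]

end Fermat.Agent.LP.EIS
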