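import Fermat.Agent.LP.EIS.EtaFin

/-!
# LP-EIS, formal part 2: passage to the limit, `T_ℓ η = η^{ℓ+1}` for `η = ∏ (1 - q^n)`.
-/

set_option autoImplicit false

noncomputable section

namespace Fermat.Agent.LP.EIS

open ModularCurve Fermat.Agent.GR

variable {Λ : Type*} [CommRing Λ]

/-- congruence modulo `t^m` of Laurent series. -/
def CongT (m : ℤ) (f g : LaurentSeries Λ) : Prop := ∀ i : ℤ, i < m → f.coeff i = g.coeff i

/-- a Laurent series without negative terms. -/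
def IsPow (f : LaurentSeries Λ) : Prop := ∀ i : ℤ, i < 0 → f.coeff i = 0

theorem EtaLim_coeff_neg (g : PowerSeries Λ) {i : ℤ} (hi : i < 0) :
    (HahnSeries.ofPowerSeries ℤ Λ g).coeff i = 0 := by
  have h := PowerSeries.coeff_coe g i
  rw [if_pos hi] at h
  exact h

theorem EtaLim_coeff_nat (g : PowerSeries Λ) (n : ℕ) :
    (HahnSeries.ofPowerSeries ℤ Λ g).coeff (n : ℤ) = PowerSeries.coeff n g := by
  have h := PowerSeries.coeff_coe g (n : ℤ)
  rw [if_neg (by omega), Int.natAbs_natCast] at h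
  exact h

theorem EtaLim_isPow_ofPowerSeries (g : PowerSeries Λ) : IsPow (HahnSeries.ofPowerSeries ℤ Λ g) :=
  fun _ hi => EtaLim_coeff_neg g hi

theorem EtaLim_exists_of_isPow {f : LaurentSeries Λ} (hf : IsPow f) :
    ∃ g : PowerSeries Λ, f = HahnSeries.ofPowerSeries ℤ Λ g := by
  refine ⟨PowerSeries.mk fun n => f.coeff (n : ℤ), ?_⟩
  ext i
  rcases lt_or_ge i 0 with hi | hi
  · rw [hf i hi, EtaLim_coeff_neg _ hi]
  · obtain ⟨n, rfl⟩ := Int.eq_ofNat_of_zero_le hi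
    rw [EtaLim_coeff_nat, PowerSeries.coeff_mk]

theorem EtaLim_congT_ofPowerSeries {m : ℤ} {g g' : PowerSeries Λ} :
    CongT m (HahnSeries.ofPowerSeries ℤ Λ g) (HahnSeries.ofPowerSeries ℤ Λ g') ↔
      ∀ n : ℕ, (n : ℤ) < m → PowerSeries.coeff n g = PowerSeries.coeff n g' := by
  constructor
  · intro h n hn
    have := h n hn
    rwa [EtaLim_coeff_nat, EtaLim_coeff_nat] at this
  · intro h i hi
    rcases lt_or_ge i 0 with hi0 | hi0
    · rw [EtaLim_coeff_neg _ hi0, EtaLim_coeff_neg _ hi0]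
    · obtain ⟨n, rfl⟩ := Int.eq_ofNat_of_zero_le hi0
      rw [EtaLim_coeff_nat, EtaLim_coeff_nat]
      exact h n hi

theorem EtaLim_congT_refl (m : ℤ) (f : LaurentSeries Λ) : CongT m f f := fun _ _ => rfl

theorem EtaLim_congT_symm {m : ℤ} {f g : LaurentSeries Λ} (h : CongT m f g) : CongT m g f :=
  fun i hi => (h i hi).symm

theorem EtaLim_congT_trans {m : ℤ} {f g k : LaurentSeries Λ} (h : CongT m f g)
    (h' : CongT m g k) : CongT m f k := fun i hi => (h i hi).trans (h' i hi)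

theorem EtaLim_etaFin_eq (M : ℕ) :
    etaFin Λ M = HahnSeries.ofPowerSeries ℤ Λ
      (∏ n ∈ Finset.range M, (1 - PowerSeries.X ^ (n + 1) : PowerSeries Λ)) := by
  unfold etaFin
  rw [map_prod]
  refine Finset.prod_congr rfl fun n _ => ?_
  rw [map_sub (HahnSeries.ofPowerSeries ℤ Λ), map_one (HahnSeries.ofPowerSeries ℤ Λ),
    HahnSeries.ofPowerSeries_X_pow]
  push_cast
  rfl

theorem eq_of_forall_congT {f g : LaurentSeries Λ} (h : ∀ m : ℕ, CongT (m : ℤ) f g) : f = g := by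
  ext i
  exact h (i.toNat + 1) i (by push_cast; omega)

theorem isPow_etaL : IsPow (etaL Λ) := EtaLim_isPow_ofPowerSeries _

theorem isPow_etaFin (M : ℕ) : IsPow (etaFin Λ M) := by
  rw [EtaLim_etaFin_eq]
  exact EtaLim_isPow_ofPowerSeries _

/-- from `Lib.TruncSeries.coeff_etaProd`. -/
theorem congT_etaL_etaFin {m M : ℕ} (h : m ≤ M) : CongT (m : ℤ) (etaL Λ) (etaFin Λ M) := by
  rw [EtaLim_etaFin_eq]
  unfold etaL
  rw [EtaLim_congT_ofPowerSeries]
  intro n hn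
  have hn' : n < M := by omega
  rw [PowerSeries.coeff_map, Fermat.Agent.Lib.TruncSeries.coeff_etaProd hn', ← PowerSeries.coeff_map]
  congr 1
  rw [map_prod]
  refine Finset.prod_congr rfl fun k _ => ?_
  rw [map_sub, map_one, map_pow, PowerSeries.map_X]

theorem IsPow.mul {f g : LaurentSeries Λ} (hf : IsPow f) (hg : IsPow g) : IsPow (f * g) := by
  obtain ⟨a, rfl⟩ := EtaLim_exists_of_isPow hf
  obtain ⟨b, rfl⟩ := EtaLim_exists_of_isPow hg
  rw [← map_mul]
  exact EtaLim_isPow_ofPowerSeries _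

theorem EtaLim_isPow_one : IsPow (1 : LaurentSeries Λ) := by
  rw [← map_one (HahnSeries.ofPowerSeries ℤ Λ)]
  exact EtaLim_isPow_ofPowerSeries _

theorem IsPow.pow {f : LaurentSeries Λ} (hf : IsPow f) (n : ℕ) : IsPow (f ^ n) := by
  induction n with
  | zero => rw [pow_zero]; exact EtaLim_isPow_one
  | succ n ih => rw [pow_succ]; exact ih.mul hf

theorem IsPow.prod {ι : Type*} (s : Finset ι) {f : ι → LaurentSeries Λ}
    (hf : ∀ i ∈ s, IsPow (f i)) : IsPow (∏ i ∈ s, f i) := by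
  classical
  induction s using Finset.induction_on with
  | empty => rw [Finset.prod_empty]; exact EtaLim_isPow_one
  | insert a s ha ih =>
    rw [Finset.prod_insert ha]
    exact (hf a (Finset.mem_insert_self _ _)).mul
      (ih fun i hi => hf i (Finset.mem_insert_of_mem hi))

theorem IsPow.scaleHom {f : LaurentSeries Λ} (hf : IsPow f) (c : Λˣ) : IsPow (scaleHom c f) := by
  intro i hi
  rw [scaleHom_coeff, hf i hi, mul_zero]

theorem IsPow.qExpand {f : LaurentSeries Λ} (hf : IsPow f) (ℓ : ℕ) [NeZero ℓ] :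
    IsPow (qExpand Λ ℓ f) := by
  intro i hi
  by_cases hd : (ℓ : ℤ) ∣ i
  · obtain ⟨k, rfl⟩ := hd
    rw [qExpand_coeff_mul]
    apply hf
    by_contra hk
    push Not at hk
    have : (0 : ℤ) ≤ (ℓ : ℤ) * k := mul_nonneg (by positivity) hk
    omega
  · exact qExpand_coeff_of_not_dvd ℓ f hd

theorem CongT.mul {m : ℤ} {f f' g g' : LaurentSeries Λ} (hf : IsPow f) (hf' : IsPow f')
    (hg : IsPow g) (hg' : IsPow g') (h1 : CongT m f f') (h2 : CongT m g g') :
    CongT m (f * g) (f' * g') := by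
  obtain ⟨a, rfl⟩ := EtaLim_exists_of_isPow hf
  obtain ⟨a', rfl⟩ := EtaLim_exists_of_isPow hf'
  obtain ⟨b, rfl⟩ := EtaLim_exists_of_isPow hg
  obtain ⟨b', rfl⟩ := EtaLim_exists_of_isPow hg'
  rw [EtaLim_congT_ofPowerSeries] at h1 h2
  rw [← map_mul, ← map_mul, EtaLim_congT_ofPowerSeries]
  intro n hn
  rw [PowerSeries.coeff_mul, PowerSeries.coeff_mul]
  refine Finset.sum_congr rfl fun p hp => ?_
  have hp' : p.1 + p.2 = n := Finset.HasAntidiagonal.mem_antidiagonal.1 hp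
  rw [h1 p.1 (by omega), h2 p.2 (by omega)]

theorem CongT.pow {m : ℤ} {f f' : LaurentSeries Λ} (hf : IsPow f) (hf' : IsPow f')
    (h1 : CongT m f f') (n : ℕ) : CongT m (f ^ n) (f' ^ n) := by
  induction n with
  | zero => rw [pow_zero, pow_zero]; exact EtaLim_congT_refl _ _
  | succ n ih =>
    rw [pow_succ, pow_succ]
    exact CongT.mul (hf.pow n) (hf'.pow n) hf hf' ih h1

theorem CongT.prod {m : ℤ} {ι : Type*} (s : Finset ι) {f f' : ι → LaurentSeries Λ}
    (hf : ∀ i ∈ s, IsPow (f i)) (hf' : ∀ i ∈ s, IsPow (f' i))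
    (h1 : ∀ i ∈ s, CongT m (f i) (f' i)) : CongT m (∏ i ∈ s, f i) (∏ i ∈ s, f' i) := by
  classical
  induction s using Finset.induction_on with
  | empty => rw [Finset.prod_empty, Finset.prod_empty]; exact EtaLim_congT_refl _ _
  | insert a s ha ih =>
    rw [Finset.prod_insert ha, Finset.prod_insert ha]
    exact CongT.mul (hf a (Finset.mem_insert_self _ _)) (hf' a (Finset.mem_insert_self _ _))
      (IsPow.prod s fun i hi => hf i (Finset.mem_insert_of_mem hi))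
      (IsPow.prod s fun i hi => hf' i (Finset.mem_insert_of_mem hi))
      (h1 a (Finset.mem_insert_self _ _))
      (ih (fun i hi => hf i (Finset.mem_insert_of_mem hi))
        (fun i hi => hf' i (Finset.mem_insert_of_mem hi))
        (fun i hi => h1 i (Finset.mem_insert_of_mem hi)))

theorem CongT.scaleHom {m : ℤ} {f f' : LaurentSeries Λ} (h1 : CongT m f f') (c : Λˣ) :
    CongT m (scaleHom c f) (scaleHom c f') := by
  intro i hi
  rw [scaleHom_coeff, scaleHom_coeff, h1 i hi]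

theorem CongT.qExpand {m : ℕ} {f f' : LaurentSeries Λ} (h1 : CongT (m : ℤ) f f') (ℓ : ℕ)
    [NeZero ℓ] : CongT (m : ℤ) (qExpand Λ ℓ f) (qExpand Λ ℓ f') := by
  intro i hi
  by_cases hd : (ℓ : ℤ) ∣ i
  · obtain ⟨k, rfl⟩ := hd
    rw [qExpand_coeff_mul, qExpand_coeff_mul]
    apply h1
    by_contra hk
    push Not at hk
    have hk0 : (0 : ℤ) ≤ k := le_trans (by positivity) hk
    have hℓ : (1 : ℤ) ≤ (ℓ : ℤ) := by
      have := Nat.pos_of_ne_zero (NeZero.ne ℓ)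
      omega
    have : k ≤ (ℓ : ℤ) * k := le_mul_of_one_le_left hk0 hℓ
    omega
  · rw [qExpand_coeff_of_not_dvd ℓ f hd, qExpand_coeff_of_not_dvd ℓ f' hd]

/-- the identity for the infinite product. -/
theorem prod_scaleHom_etaL [IsDomain Λ] (ℓ : ℕ) [NeZero ℓ] [NeZero (ℓ * ℓ)] (hℓ : ℓ.Prime)
    (ζ : Λˣ) (hζ : IsPrimitiveRoot ζ ℓ) :
    (∏ j ∈ Finset.range ℓ, scaleHom (ζ ^ j) (etaL Λ)) * qExpand Λ (ℓ * ℓ) (etaL Λ)
      = qExpand Λ ℓ (etaL Λ) ^ (ℓ + 1) := by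
  apply eq_of_forall_congT
  intro m
  have hm : m ≤ ℓ * m := Nat.le_mul_of_pos_left _ hℓ.pos
  have c1 : CongT (m : ℤ) (etaL Λ) (etaFin Λ (ℓ * m)) := congT_etaL_etaFin hm
  have c2 : CongT (m : ℤ) (etaL Λ) (etaFin Λ m) := congT_etaL_etaFin le_rfl
  have L : CongT (m : ℤ)
      ((∏ j ∈ Finset.range ℓ, scaleHom (ζ ^ j) (etaL Λ)) * qExpand Λ (ℓ * ℓ) (etaL Λ))
      ((∏ j ∈ Finset.range ℓ, scaleHom (ζ ^ j) (etaFin Λ (ℓ * m))) *
        qExpand Λ (ℓ * ℓ) (etaFin Λ m)) :=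
    CongT.mul (IsPow.prod _ fun j _ => isPow_etaL.scaleHom _)
      (IsPow.prod _ fun j _ => (isPow_etaFin _).scaleHom _)
      (isPow_etaL.qExpand _) ((isPow_etaFin _).qExpand _)
      (CongT.prod _ (fun j _ => isPow_etaL.scaleHom _) (fun j _ => (isPow_etaFin _).scaleHom _)
        fun j _ => c1.scaleHom _)
      (c2.qExpand _)
  have R : CongT (m : ℤ) (qExpand Λ ℓ (etaL Λ) * qExpand Λ ℓ (etaL Λ) ^ ℓ)
      (qExpand Λ ℓ (etaFin Λ (ℓ * m)) * qExpand Λ ℓ (etaFin Λ m) ^ ℓ) :=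
    CongT.mul (isPow_etaL.qExpand _) ((isPow_etaFin _).qExpand _)
      ((isPow_etaL.qExpand _).pow _) (((isPow_etaFin _).qExpand _).pow _)
      (c1.qExpand _)
      (CongT.pow (isPow_etaL.qExpand _) ((isPow_etaFin _).qExpand _) (c2.qExpand _) _)
  rw [prod_scaleHom_etaFin ℓ hℓ ζ hζ m] at L
  rw [pow_succ']
  exact EtaLim_congT_trans L (EtaLim_congT_symm R)

/-- `T_ℓ η = η^{ℓ+1}`. -/
theorem heckeMulT_etaL [IsDomain Λ] (ℓ : ℕ) [NeZero ℓ] (hℓ : ℓ.Prime) (ζ : Λˣ)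
    (hζ : IsPrimitiveRoot ζ ℓ) : heckeMulT ℓ ζ (etaL Λ) = etaL Λ ^ (ℓ + 1) := by
  apply qExpand_injective (R := Λ) ℓ
  unfold heckeMulT
  rw [map_mul, qExpand_normT ℓ ζ hζ, qExpand_qExpand, map_pow, mul_comm]
  exact prod_scaleHom_etaL ℓ hℓ ζ hζ

end Fermat.Agent.LP.EIS
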