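import Mathlib

/-!
# LP-EIS, group theory: an "Eisenstein" two-dimensional representation over `𝔽_p` is reducible

If `(ρ g - 1)(ρ g - ω g) = 0` for all `g` (`ω` a character), then `ρ` has a stable line.
-/

set_option autoImplicit false

namespace Fermat.Agent.LP.EIS

variable {p : ℕ} [Fact p.Prime] {G V : Type*} [Group G] [AddCommGroup V] [Module (ZMod p) V]

/-- a commuting family of endomorphisms of a plane, each killed by a split quadratic polynomial,
has a common stable line. -/
theorem exists_stable_of_commute (hV : Module.finrank (ZMod p) V = 2)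
    (ρ : G →* Module.End (ZMod p) V) (hcomm : ∀ g g' : G, Commute (ρ g) (ρ g'))
    (h : ∀ g : G, ∃ c : ZMod p, (ρ g - 1) * (ρ g - algebraMap (ZMod p) _ c) = 0) :
    ∃ N : Submodule (ZMod p) V, N ≠ ⊥ ∧ N ≠ ⊤ ∧ ∀ g : G, ∀ x ∈ N, ρ g x ∈ N := by
  by_cases hsc : ∀ g : G, ∃ c : ZMod p, ρ g = algebraMap (ZMod p) _ c
  · have : Nontrivial V := Module.nontrivial_of_finrank_pos (R := ZMod p) (by omega)
    obtain ⟨v, hv⟩ := exists_ne (0 : V)
    refine ⟨Submodule.span (ZMod p) {v}, ?_, ?_, ?_⟩
    · rw [Ne, Submodule.span_singleton_eq_bot]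
      exact hv
    · intro htop
      have h1 : Module.finrank (ZMod p) (Submodule.span (ZMod p) {v}) = 1 :=
        finrank_span_singleton hv
      rw [htop, finrank_top, hV] at h1
      omega
    · intro g x hx
      obtain ⟨c, hc⟩ := hsc g
      rw [hc, Module.algebraMap_end_apply]
      exact Submodule.smul_mem _ c hx
  · push Not at hsc
    obtain ⟨g, hg⟩ := hsc
    obtain ⟨c, hc⟩ := h g
    refine ⟨LinearMap.ker (ρ g - 1), ?_, ?_, ?_⟩
    · intro hbot
      apply hg c
      ext x
      have h1 := congrArg (fun f : Module.End (ZMod p) V => f x) hc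
      simp only [Module.End.mul_apply, LinearMap.zero_apply] at h1
      have h2 : (ρ g - algebraMap (ZMod p) _ c) x ∈ LinearMap.ker (ρ g - 1) := h1
      rw [hbot, Submodule.mem_bot, LinearMap.sub_apply, sub_eq_zero] at h2
      exact h2
    · intro htop
      apply hg 1
      rw [map_one]
      ext x
      have h2 : x ∈ LinearMap.ker (ρ g - 1) := by rw [htop]; exact Submodule.mem_top
      rw [LinearMap.mem_ker, LinearMap.sub_apply, sub_eq_zero] at h2
      exact h2
    · intro g' x hx
      rw [LinearMap.mem_ker, LinearMap.sub_apply, sub_eq_zero, Module.End.one_apply] at hx ⊢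
      have h1 := congrArg (fun f : Module.End (ZMod p) V => f x) (hcomm g g').eq
      simp only [Module.End.mul_apply] at h1
      rw [h1, hx]

theorem Group_one_add_pow (n : Module.End (ZMod p) V) (h : n * n = 0) (k : ℕ) :
    (1 + n) ^ k = 1 + k • n := by
  induction k with
  | zero => simp
  | succ k ih =>
    rw [pow_succ, ih, add_mul, mul_add, mul_add, smul_mul_assoc, smul_mul_assoc, h, smul_zero,
      one_mul, mul_one, one_mul, succ_nsmul]
    abel

theorem Group_pow_eq_of_sq_zero (x : Module.End (ZMod p) V) (h : (x - 1) * (x - 1) = 0) (k : ℕ) :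
    x ^ k = 1 + k • (x - 1) := by
  have hx : x = 1 + (x - 1) := by abel
  conv_lhs => rw [hx]
  exact Group_one_add_pow _ h k

theorem Group_pow_char_eq_one (x : Module.End (ZMod p) V) (h : (x - 1) * (x - 1) = 0) :
    x ^ p = 1 := by
  rw [Group_pow_eq_of_sq_zero x h p, ← Nat.cast_smul_eq_nsmul (ZMod p), CharP.cast_eq_zero,
    zero_smul, add_zero]

/-- a group of unipotent automorphisms of a nonzero finite `𝔽_p`-vector space has a nonzero fixed
vector (`p`-group fixed point theorem). -/
theorem exists_fixed_of_unipotent [Finite V] [Nontrivial V] (ρ : G →* Module.End (ZMod p) V)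
    (h : ∀ g : G, (ρ g - 1) * (ρ g - 1) = 0) :
    ∃ v : V, v ≠ 0 ∧ ∀ g : G, ρ g v = v := by
  let _ : MulAction G V := MulAction.compHom V ρ
  have hsmul : ∀ (g : G) (v : V), g • v = ρ g v := fun _ _ => rfl
  let H : Subgroup (Equiv.Perm V) := (MulAction.toPermHom G V).range
  have hH : IsPGroup p H := by
    rintro ⟨x, g, rfl⟩
    refine ⟨1, Subtype.ext ?_⟩
    rw [pow_one]
    change (MulAction.toPermHom G V g) ^ p = 1
    rw [← map_pow]
    ext v
    change (g ^ p) • v = v
    rw [hsmul, map_pow, Group_pow_char_eq_one (ρ g) (h g), Module.End.one_apply]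
  have hdvd : p ∣ Nat.card V := by
    obtain ⟨v, hv⟩ := exists_ne (0 : V)
    have h1 : addOrderOf v = p := by
      refine addOrderOf_eq_prime ?_ hv
      rw [← Nat.cast_smul_eq_nsmul (ZMod p), CharP.cast_eq_zero, zero_smul]
    rw [← h1]
    exact addOrderOf_dvd_natCard v
  have h0 : (0 : V) ∈ MulAction.fixedPoints H V := by
    rintro ⟨x, g, rfl⟩
    change g • (0 : V) = 0
    rw [hsmul, map_zero]
  obtain ⟨b, hb, hb0⟩ := hH.exists_fixed_point_of_prime_dvd_card_of_fixed_point V hdvd h0
  refine ⟨b, hb0.symm, fun g => ?_⟩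
  exact hb ⟨MulAction.toPermHom G V g, g, rfl⟩

/-- **Eisenstein representations are reducible.** -/
theorem exists_stable_line (hV : Module.finrank (ZMod p) V = 2)
    (ρ : G →* Module.End (ZMod p) V) (ω : G →* (ZMod p)ˣ)
    (h : ∀ g : G, (ρ g - 1) * (ρ g - algebraMap (ZMod p) _ ((ω g : (ZMod p)ˣ) : ZMod p)) = 0) :
    ∃ N : Submodule (ZMod p) V, N ≠ ⊥ ∧ N ≠ ⊤ ∧ ∀ g : G, ∀ x ∈ N, ρ g x ∈ N := by
  have : Nontrivial V := Module.nontrivial_of_finrank_pos (R := ZMod p) (by omega)
  have : Module.Finite (ZMod p) V := Module.finite_of_finrank_pos (by omega)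
  have : Finite V := Module.finite_of_finite (ZMod p)
  let N : Submodule (ZMod p) V :=
    { carrier := {v | ∀ x ∈ ω.ker, ρ x v = v}
      add_mem' := by
        intro a b ha hb x hx
        rw [map_add, ha x hx, hb x hx]
      zero_mem' := by
        intro x _
        rw [map_zero]
      smul_mem' := by
        intro c a ha x hx
        rw [map_smul, ha x hx] }
  have hNbot : N ≠ ⊥ := by
    obtain ⟨v, hv0, hv⟩ := exists_fixed_of_unipotent (ρ.comp ω.ker.subtype) (by
      rintro ⟨x, hx⟩
      have h1 := h x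
      rw [MonoidHom.mem_ker.1 hx, Units.val_one, map_one] at h1
      exact h1)
    intro hbot
    have : v ∈ N := fun x hx => hv ⟨x, hx⟩
    rw [hbot, Submodule.mem_bot] at this
    exact hv0 this
  have hNst : ∀ g : G, ∀ x ∈ N, ρ g x ∈ N := by
    intro g x hx y hy
    have h1 : g⁻¹ * y * g ∈ ω.ker := by
      rw [MonoidHom.mem_ker] at hy ⊢
      rw [map_mul, map_mul, hy, mul_one, map_inv, inv_mul_cancel]
    have h2 := hx _ h1
    have h3 : ρ y (ρ g x) = ρ g (ρ (g⁻¹ * y * g) x) := by
      rw [← Module.End.mul_apply, ← Module.End.mul_apply, ← map_mul, ← map_mul]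
      congr 2
      group
    rw [h3, h2]
  by_cases hNtop : N = ⊤
  · refine exists_stable_of_commute hV ρ ?_ fun g => ⟨_, h g⟩
    intro g g'
    have h1 : (g' * g)⁻¹ * (g * g') ∈ ω.ker := by
      rw [MonoidHom.mem_ker, map_mul, map_inv, map_mul, map_mul, mul_comm (ω g') (ω g),
        inv_mul_cancel]
    have h2 : ρ ((g' * g)⁻¹ * (g * g')) = 1 := by
      ext x
      have : x ∈ N := by rw [hNtop]; exact Submodule.mem_top
      exact this _ h1
    change ρ g * ρ g' = ρ g' * ρ g
    rw [← map_mul, ← map_mul]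
    have h3 : g * g' = (g' * g) * ((g' * g)⁻¹ * (g * g')) := by group
    rw [h3, map_mul, h2, mul_one]
  · exact ⟨N, hNbot, hNtop, hNst⟩

end Fermat.Agent.LP.EIS
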