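import Fermat.Agent.GR.B.KummerMain
import Fermat.Agent.S24.LevelOnePoly

/-!
# LP-EIS: `T_ℓ (c - j)` is a polynomial in `j` (analytic part, over `ℂ`)
-/

set_option autoImplicit false

noncomputable section

namespace Fermat.Agent.LP.EIS

open ModularCurve Fermat.Agent.GR

local notation "Qb" => AlgebraicClosure ℚ

theorem ModPolyA_isModFun_jF : GR.A.IsModFun 1 S28.jF := by
  refine ⟨S24.jfun_mdiff, fun γ _ τ => S24.jfun_smul γ τ, fun γ => ?_⟩
  have h : (fun τ => S28.jF (γ • τ)) = S28.jF := funext (S24.jfun_smul γ)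
  rw [h]
  exact GR.A.mem_MerInf_of_isExp 1 S28.isExp_jF

theorem ModPolyA_eval₂_apply (P : Polynomial ℂ) (τ : UpperHalfPlane) :
    ((Polynomial.eval₂ S24.constHol S24.jHol P : S24.Hol) : UpperHalfPlane → ℂ) τ =
      P.eval (S28.jF τ) := by
  induction P using Polynomial.induction_on' with
  | add p q hp hq =>
    rw [Polynomial.eval₂_add, Polynomial.eval_add, ← hp, ← hq]
    rfl
  | monomial n a =>
    rw [Polynomial.eval₂_monomial, Polynomial.eval_monomial]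
    rfl

/-- (MP-a), analytic: `T_ℓ(c - j)` is a holomorphic modular function of level one. -/
theorem exists_poly_heckeMulT_complex (ℓ : ℕ) [Fact ℓ.Prime] (ζ : ℂˣ) (hζ : IsPrimitiveRoot ζ ℓ)
    (c : ℂ) : ∃ P : Polynomial ℂ,
      heckeMulT ℓ ζ (HahnSeries.C c - jqModC ℂ) = Polynomial.aeval (jqModC ℂ) P := by
  have hℓ : ℓ.Prime := Fact.out
  have : NeZero ℓ := ⟨hℓ.ne_zero⟩
  have hpN : ¬ ℓ ∣ 1 := fun h => hℓ.one_lt.ne' (Nat.dvd_one.mp h)
  have ha : GR.A.IsModFun 1 ((fun _ => c) + -S28.jF) :=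
    (GR.A.isModFun_const 1 c).add ModPolyA_isModFun_jF.neg
  have hea : S28.IsExp 1 ((fun _ => c) + -S28.jF) (HahnSeries.C c - jqModC ℂ) := by
    rw [sub_eq_add_neg]
    exact (S28.isExp_C 1 c).add S28.isExp_jF.neg
  have h1 := (GR.B.repsT ℓ hpN).isModFun_mulFun (GR.B.repsT_isInt ℓ hpN) ha
  have h2 := GR.B.isExp_mulFun_repsT ℓ hpN hea
  have e0 : heckeMulT ℓ ζ (HahnSeries.C c - jqModC ℂ) =
      heckeMulT ℓ (S28.rootU 1 ℓ) (HahnSeries.C c - jqModC ℂ) := by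
    unfold heckeMulT
    rw [normT_eq_of_isPrimitiveRoot ℓ ζ (S28.rootU 1 ℓ) hζ (GR.B.isPrimitiveRoot_rootU ℓ)]
  obtain ⟨P, hP⟩ := S24.exists_polynomial_of_invariant
    ⟨(GR.B.repsT ℓ hpN).mulFun ((fun _ => c) + -S28.jF), h1.1⟩
    (fun γ => Subtype.ext (funext fun τ => h1.2.1 γ
      (by rw [CongruenceSubgroup.Gamma0_mem]; exact Subsingleton.elim _ _) τ))
    (GR.A.IsModFun.mem_MerInf h1)
  refine ⟨P, ?_⟩
  rw [e0]
  refine h2.unique one_pos ?_
  have h3 := S28.isExp_jF.aeval P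
  refine h3.congr (fun τ => ?_)
  rw [← ModPolyA_eval₂_apply, ← hP]

end Fermat.Agent.LP.EIS
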