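import Fermat.Agent.LP.Iface
import Fermat.Agent.LP.EIS.Bridge

/-!
# LP-EIS: the export in the shape of `LP/Iface.lean`
-/

set_option autoImplicit false
set_option synthInstance.maxHeartbeats 400000

noncomputable section

namespace Fermat.Agent.LP.EIS

open ModularCurve Fermat.Agent.GR

/-- **OUTPUT of LP-EIS.** -/
theorem eisOut (p M0 : ℕ) [NeZero p] (hp : p.Prime) (A : ValuationSubring Qbar)
    (hA : A.LiesOverPrime p) : EisOut p M0 A := by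
  intro 𝒪 h𝒪 u2 dd jj hdd hjj hu2 r hslope hV₀ ℓ _ ζ hℓ hℓN hζ e hT
  obtain ⟨V₀, hV₀, hjV₀, hd₀⟩ := hV₀
  have : Fact p.Prime := ⟨hp⟩
  have : Fact ℓ.Prime := ⟨hℓ⟩
  have : NeZero (p * (4 * M0)) := ⟨fun h => hℓN (h ▸ dvd_zero ℓ)⟩
  have hpN : p ∣ p * (4 * M0) := dvd_mul_right _ _
  have hjj' : jj = C.jF Qbar (p * (4 * M0)) := Subtype.ext hjj
  have hdd' : dd = ⟨dS Qbar p, dS_mem_FF p Qbar hpN⟩ := Subtype.ext hdd
  subst hjj' hdd'
  refine dvd_of_slope (A := A) (𝒪 := 𝒪) hA hpN h𝒪 u2.2 (fun h => hu2 (Subtype.ext h)) (r : ℤ)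
    ?_ V₀ hV₀ hjV₀ hd₀ ℓ hℓN ζ hζ e hT
  intro V hV hjV
  have h := hslope V hV hjV
  rw [div_eq_mul_inv] at h
  rw [zpow_neg, zpow_natCast]
  exact h

end Fermat.Agent.LP.EIS
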