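import Fermat.Agent.LP.EIS.VApprox
import Fermat.Agent.LP.EIS.VExt

/-!
# LP-EIS: the slope argument in the language of valuation subrings (pure algebra)
-/

set_option autoImplicit false

namespace Fermat.Agent.LP.EIS

variable {F Ω : Type*} [Field F] [Field Ω]

section mult

variable {ι : Type*} {s : Finset ι} {ι₀ : F →+* Ω} {σ : ι → F →+* Ω} {T : F → F}

theorem VAbs_mul (hT : ∀ g, ι₀ (T g) = ∏ i ∈ s, σ i g) (x y : F) : T (x * y) = T x * T y := by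
  apply ι₀.injective
  rw [map_mul, hT, hT, hT, ← Finset.prod_mul_distrib]
  exact Finset.prod_congr rfl fun i _ => map_mul _ _ _

theorem VAbs_pow (hT : ∀ g, ι₀ (T g) = ∏ i ∈ s, σ i g) (x : F) (n : ℕ) : T (x ^ n) = T x ^ n := by
  apply ι₀.injective
  rw [map_pow, hT, hT, ← Finset.prod_pow]
  exact Finset.prod_congr rfl fun i _ => map_pow _ _ _

theorem VAbs_zpow (hT : ∀ g, ι₀ (T g) = ∏ i ∈ s, σ i g) (x : F) (n : ℤ) : T (x ^ n) = T x ^ n := by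
  apply ι₀.injective
  rw [map_zpow₀, hT, hT, ← Finset.prod_zpow]
  exact Finset.prod_congr rfl fun i _ => map_zpow₀ _ _ _

theorem VAbs_ne_zero (hT : ∀ g, ι₀ (T g) = ∏ i ∈ s, σ i g) {x : F} (hx : x ≠ 0) : T x ≠ 0 := by
  intro h
  have h1 := hT x
  rw [h, map_zero] at h1
  obtain ⟨i, -, hi⟩ := Finset.prod_eq_zero_iff.1 h1.symm
  exact hx ((map_eq_zero _).1 hi)

end mult

/-- **Transfer.** -/
theorem vdiv_of_prod {ι : Type*} (s : Finset ι) {p : ℕ} (hp : 2 ≤ p)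
    (𝒱 : Set (ValuationSubring F)) (S : Set F) (hSinf : S.Infinite)
    (hS : ∀ V ∈ 𝒱, ∀ x ∈ S, ∀ y ∈ S, x ≠ y → V.valuation (x - y) = 1)
    (ι₀ : F →+* Ω) (σ : ι → F →+* Ω) (T : F → F) (hT : ∀ g, ι₀ (T g) = ∏ i ∈ s, σ i g)
    (hcorr : ∀ V ∈ 𝒱, ∃ W : ValuationSubring Ω, W.comap ι₀ = V ∧ ∀ i ∈ s, W.comap (σ i) ∈ 𝒱)
    {f : F} (hf : ∀ V ∈ 𝒱, VDiv V p f) : ∀ V ∈ 𝒱, VDiv V p (T f) := by
  classical
  intro V hV
  obtain ⟨W, rfl, hW⟩ := hcorr V hV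
  have ht : ∀ V' ∈ s.image (fun i => W.comap (σ i)), V' ∈ 𝒱 := by
    intro V' hV'
    obtain ⟨i, hi, rfl⟩ := Finset.mem_image.1 hV'
    exact hW i hi
  obtain ⟨a, ha0, ha⟩ := exists_common_root hp (s.image (fun i => W.comap (σ i))) S hSinf
    (fun V' hV' => hS V' (ht V' hV')) (fun V' hV' => hf V' (ht V' hV'))
  refine ⟨T a, VAbs_ne_zero hT ha0, ?_⟩
  rw [← VAbs_pow hT, ← VAbs_mul hT]
  constructor
  · rw [ValuationSubring.mem_comap, hT]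
    exact Subring.prod_mem W.toSubring fun i hi =>
      (ha _ (Finset.mem_image_of_mem _ hi)).1
  · rw [ValuationSubring.mem_comap, map_inv₀, hT, ← Finset.prod_inv_distrib]
    refine Subring.prod_mem W.toSubring fun i hi => ?_
    have h := (ha _ (Finset.mem_image_of_mem _ hi)).2
    rw [ValuationSubring.mem_comap, map_inv₀] at h
    exact h

/-- **The Eisenstein congruence.** -/
theorem dvd_of_slopes_V {ι : Type*} (s : Finset ι) {p : ℕ} (hp : p.Prime)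
    (𝒱 : Set (ValuationSubring F)) (S : Set F) (hSinf : S.Infinite)
    (hS : ∀ V ∈ 𝒱, ∀ x ∈ S, ∀ y ∈ S, x ≠ y → V.valuation (x - y) = 1)
    (ι₀ : F →+* Ω) (σ : ι → F →+* Ω) (T : F → F) (hT : ∀ g, ι₀ (T g) = ∏ i ∈ s, σ i g)
    (hcorr : ∀ V ∈ 𝒱, ∃ W : ValuationSubring Ω, W.comap ι₀ = V ∧ ∀ i ∈ s, W.comap (σ i) ∈ 𝒱)
    {u d z : F} (hu : u ≠ 0) (hd : d ≠ 0) (hz : z ≠ 0) (r : ℤ) (a m : ℕ)
    (hslope : ∀ V ∈ 𝒱, VDiv V p (u ^ 12 * d ^ (-r)))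
    (hTu : u ^ a = T u * z ^ p) (hTd : T d = d ^ m)
    {V₀ : ValuationSubring F} (hV₀ : V₀ ∈ 𝒱) (hd₀ : ¬ VDiv V₀ p d) :
    (p : ℤ) ∣ r * ((m : ℤ) - a) := by
  by_contra hnd
  apply hd₀
  have h1 : VDiv V₀ p (T (u ^ 12 * d ^ (-r))) :=
    vdiv_of_prod s hp.two_le 𝒱 S hSinf hS ι₀ σ T hT hcorr hslope V₀ hV₀
  have h2 : VDiv V₀ p ((u ^ 12 * d ^ (-r)) ^ a) := (hslope V₀ hV₀).pow a
  have h3 : VDiv V₀ p ((z ^ 12) ^ p) := vdiv_pow_self V₀ p _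
  have h4 : d ^ (r * ((m : ℤ) - a)) =
      ((T (u ^ 12 * d ^ (-r)))⁻¹ * (u ^ 12 * d ^ (-r)) ^ a) * ((z ^ 12) ^ p)⁻¹ := by
    have hTu0 : T u ≠ 0 := VAbs_ne_zero hT hu
    rw [VAbs_mul hT, VAbs_pow hT, VAbs_zpow hT, hTd, mul_pow, ← pow_mul, mul_comm 12 a, pow_mul, hTu]
    have e1 : d ^ (r * ((m : ℤ) - a)) = (d ^ r) ^ m * ((d ^ r) ^ a)⁻¹ := by
      rw [mul_sub, zpow_sub₀ hd, zpow_mul, zpow_mul, zpow_natCast, zpow_natCast, div_eq_mul_inv]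
    have e2 : (d ^ m) ^ (-r) = ((d ^ r) ^ m)⁻¹ := by
      rw [zpow_neg, ← zpow_natCast d m, ← zpow_mul, mul_comm, zpow_mul, zpow_natCast]
    have e3 : (d ^ (-r)) ^ a = ((d ^ r) ^ a)⁻¹ := by
      rw [zpow_neg, inv_pow]
    rw [e1, e2, e3]
    have hdr : d ^ r ≠ 0 := zpow_ne_zero _ hd
    field_simp
    rw [← pow_mul, ← pow_mul, mul_comm]
  exact vdiv_of_zpow hp hnd (h4 ▸ (h1.inv.mul h2).mul h3.inv)

end Fermat.Agent.LP.EIS
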