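import Fermat.Agent.LP.EIS.VDefs

/-!
# LP-EIS: approximation: a common `p`-th root for finitely many valuation subrings
-/

set_option autoImplicit false

namespace Fermat.Agent.LP.EIS

variable {F Ω : Type*} [Field F] [Field Ω]

/-- at most one `s ∈ S` makes `x + (s - s0) y` smaller than `y`. -/
theorem VApprox_bad_subsingleton {Γ : Type*} [LinearOrderedCommGroupWithZero Γ]
    (v : Valuation F Γ) (S : Set F) (hS : ∀ x ∈ S, ∀ y ∈ S, x ≠ y → v (x - y) = 1) (s0 x y : F) :
    {s | s ∈ S ∧ v (x + (s - s0) * y) < v y}.Subsingleton := by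
  intro s hs s' hs'
  by_contra hne
  have h1 : v ((x + (s - s0) * y) - (x + (s' - s0) * y)) < v y :=
    Valuation.map_sub_lt v hs.2 hs'.2
  have h2 : (x + (s - s0) * y) - (x + (s' - s0) * y) = (s - s') * y := by ring
  rw [h2, map_mul, hS s hs.1 s' hs'.1 hne, one_mul] at h1
  exact lt_irrefl _ h1

/-- the computation at a valuation where `g` is a unit. -/
theorem VApprox_at_V {Γ : Type*} [LinearOrderedCommGroupWithZero Γ] (v : Valuation F Γ)
    {b g lam : F} (hg : v g = 1) (hl : v lam = 1)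
    (h1 : ¬ v (b + lam * g) < v g) (h2 : ¬ v (1 + lam * b) < v b) :
    v (b + lam * g) = v (1 + lam * b) := by
  have hlg : v (lam * g) = 1 := by rw [map_mul, hl, hg, one_mul]
  have hlb : v (lam * b) = v b := by rw [map_mul, hl, one_mul]
  rcases lt_trichotomy (v b) 1 with h | h | h
  · rw [Valuation.map_add_eq_of_lt_right v (by rw [hlg]; exact h), hlg,
      Valuation.map_add_eq_of_lt_left v (by rw [hlb, map_one]; exact h), map_one]
  · rw [hg] at h1
    rw [h] at h2
    have e1 : v (b + lam * g) ≤ 1 := Valuation.map_add_le v h.le hlg.le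
    have e2 : v (1 + lam * b) ≤ 1 := Valuation.map_add_le v (map_one v).le (hlb.trans h).le
    rw [le_antisymm e1 (not_lt.1 h1), le_antisymm e2 (not_lt.1 h2)]
  · rw [Valuation.map_add_eq_of_lt_left v (by rw [hlg]; exact h),
      Valuation.map_add_eq_of_lt_right v (by rw [hlb, map_one]; exact h), hlb]

/-- KEY LEMMA, case `v_W(b) < 1`. -/
theorem VApprox_key_lt {p : ℕ} (hp : 2 ≤ p) (t : Finset (ValuationSubring F))
    (W : ValuationSubring F) (S : Set F) (hSinf : S.Infinite)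
    (hSW : ∀ x ∈ S, ∀ y ∈ S, x ≠ y → W.valuation (x - y) = 1)
    (hS : ∀ V ∈ t, ∀ x ∈ S, ∀ y ∈ S, x ≠ y → V.valuation (x - y) = 1)
    {f b : F} (hb0 : b ≠ 0) (hf : ∀ V ∈ t, V.valuation f = 1)
    (hW : W.valuation (b ^ p * f) = 1) (hb : W.valuation b < 1) :
    ∃ c : F, c ≠ 0 ∧ (∀ V ∈ t, V.valuation c = 1) ∧ W.valuation c = W.valuation b := by
  classical
  obtain ⟨s0, hs0⟩ := hSinf.nonempty
  set g : F := f⁻¹ with hgdef
  have hfin : (({s0} : Set F) ∪ ⋃ V ∈ (t : Set (ValuationSubring F)),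
      ({s | s ∈ S ∧ V.valuation (b + (s - s0) * g) < V.valuation g} ∪
        {s | s ∈ S ∧ V.valuation (1 + (s - s0) * b) < V.valuation b})).Finite := by
    refine (Set.finite_singleton s0).union (Set.Finite.biUnion t.finite_toSet ?_)
    intro V hV
    exact (VApprox_bad_subsingleton V.valuation S (hS V hV) s0 b g).finite.union
      (VApprox_bad_subsingleton V.valuation S (hS V hV) s0 1 b).finite
  obtain ⟨s, hsS, hsbad⟩ := hSinf.exists_notMem_finite hfin
  rw [Set.mem_union, not_or] at hsbad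
  obtain ⟨hs_ne, hsbad⟩ := hsbad
  have hs_ne' : s ≠ s0 := fun h => hs_ne (by rw [h]; exact Set.mem_singleton s0)
  set lam : F := s - s0 with hlam
  have hl : ∀ V ∈ t, V.valuation lam = 1 := fun V hV => hS V hV s hsS s0 hs0 hs_ne'
  -- at `W`
  have hbW0 : 0 < W.valuation b := by
    rw [zero_lt_iff]; exact (Valuation.ne_zero_iff _).2 hb0
  have hgW : W.valuation g = W.valuation b ^ p := by
    rw [map_mul, map_pow] at hW
    rw [hgdef, map_inv₀]
    exact (eq_inv_of_mul_eq_one_left hW).symm ▸ rfl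
  have hgb : W.valuation g < W.valuation b := by
    rw [hgW]; exact pow_lt_self_of_lt_one₀ hbW0 hb (by omega)
  have hlW : W.valuation lam = 1 := hSW s hsS s0 hs0 hs_ne'
  have hN : W.valuation (b + lam * g) = W.valuation b :=
    Valuation.map_add_eq_of_lt_left _ (by rw [map_mul, hlW, one_mul]; exact hgb)
  have hD : W.valuation (1 + lam * b) = 1 := by
    rw [Valuation.map_add_eq_of_lt_left _ (by rw [map_mul, hlW, one_mul, map_one]; exact hb),
      map_one]
  have hcW : W.valuation ((b + lam * g) / (1 + lam * b)) = W.valuation b := by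
    rw [map_div₀, hN, hD, div_one]
  refine ⟨(b + lam * g) / (1 + lam * b), ?_, ?_, hcW⟩
  · rw [← Valuation.ne_zero_iff W.valuation, hcW]
    exact hbW0.ne'
  · intro V hV
    have hgV : V.valuation g = 1 := by rw [hgdef, map_inv₀, hf V hV, inv_one]
    have hb1 : ¬ V.valuation (b + lam * g) < V.valuation g := by
      intro h
      exact hsbad (Set.mem_biUnion (Finset.mem_coe.2 hV) (Or.inl ⟨hsS, h⟩))
    have hb2 : ¬ V.valuation (1 + lam * b) < V.valuation b := by
      intro h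
      exact hsbad (Set.mem_biUnion (Finset.mem_coe.2 hV) (Or.inr ⟨hsS, h⟩))
    have e := VApprox_at_V V.valuation hgV (hl V hV) hb1 hb2
    rw [map_div₀, e]
    refine div_self ?_
    intro h0
    rw [h0] at hb2
    exact hb2 (by rw [zero_lt_iff]; exact (Valuation.ne_zero_iff _).2 hb0)

/-- KEY LEMMA. -/
theorem VApprox_key {p : ℕ} (hp : 2 ≤ p) (t : Finset (ValuationSubring F))
    (W : ValuationSubring F) (S : Set F) (hSinf : S.Infinite)
    (hSW : ∀ x ∈ S, ∀ y ∈ S, x ≠ y → W.valuation (x - y) = 1)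
    (hS : ∀ V ∈ t, ∀ x ∈ S, ∀ y ∈ S, x ≠ y → V.valuation (x - y) = 1)
    {f b : F} (hb0 : b ≠ 0) (hf : ∀ V ∈ t, V.valuation f = 1)
    (hW : W.valuation (b ^ p * f) = 1) :
    ∃ c : F, c ≠ 0 ∧ (∀ V ∈ t, V.valuation c = 1) ∧ W.valuation c = W.valuation b := by
  rcases lt_trichotomy (W.valuation b) 1 with h | h | h
  · exact VApprox_key_lt hp t W S hSinf hSW hS hb0 hf hW h
  · exact ⟨1, one_ne_zero, fun V _ => map_one _, by rw [map_one, h]⟩
  · have hf' : ∀ V ∈ t, V.valuation f⁻¹ = 1 := fun V hV => by rw [map_inv₀, hf V hV, inv_one]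
    have hW' : W.valuation ((b⁻¹) ^ p * f⁻¹) = 1 := by
      rw [inv_pow, ← mul_inv, map_inv₀, hW, inv_one]
    have hb' : W.valuation b⁻¹ < 1 := by
      rw [map_inv₀]; exact inv_lt_one_of_one_lt₀ h
    obtain ⟨c, hc0, hcV, hcW⟩ :=
      VApprox_key_lt hp t W S hSinf hSW hS (inv_ne_zero hb0) hf' hW' hb'
    refine ⟨c⁻¹, inv_ne_zero hc0, fun V hV => by rw [map_inv₀, hcV V hV, inv_one], ?_⟩
    rw [map_inv₀, hcW, map_inv₀, inv_inv]

/-- the valuation form of the approximation statement. -/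
theorem VApprox_val {p : ℕ} (hp : 2 ≤ p) (t : Finset (ValuationSubring F))
    (S : Set F) (hSinf : S.Infinite)
    (hS : ∀ V ∈ t, ∀ x ∈ S, ∀ y ∈ S, x ≠ y → V.valuation (x - y) = 1)
    {f : F} (hf : ∀ V ∈ t, ∃ a : F, a ≠ 0 ∧ V.valuation (a ^ p * f) = 1) :
    ∃ a : F, a ≠ 0 ∧ ∀ V ∈ t, V.valuation (a ^ p * f) = 1 := by
  classical
  induction t using Finset.induction_on with
  | empty => exact ⟨1, one_ne_zero, fun V hV => absurd hV (Finset.notMem_empty V)⟩
  | insert W t' _ ih =>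
    obtain ⟨a0, ha0, hA⟩ := ih (fun V hV => hS V (Finset.mem_insert_of_mem hV))
      (fun V hV => hf V (Finset.mem_insert_of_mem hV))
    obtain ⟨b0, hb0, hB⟩ := hf W (Finset.mem_insert_self W t')
    have hW : W.valuation ((b0 / a0) ^ p * (a0 ^ p * f)) = 1 := by
      have e : (b0 / a0) ^ p * (a0 ^ p * f) = b0 ^ p * f := by
        rw [div_pow]
        have : a0 ^ p ≠ 0 := pow_ne_zero _ ha0
        field_simp
      rw [e, hB]
    obtain ⟨c, hc0, hcV, hcW⟩ := VApprox_key hp t' W S hSinf (hS W (Finset.mem_insert_self W t'))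
      (fun V hV => hS V (Finset.mem_insert_of_mem hV)) (div_ne_zero hb0 ha0) hA hW
    refine ⟨c * a0, mul_ne_zero hc0 ha0, ?_⟩
    intro V hV
    have e : (c * a0) ^ p * f = c ^ p * (a0 ^ p * f) := by ring
    rcases Finset.mem_insert.1 hV with rfl | hV
    · rw [e, map_mul, map_pow, hcW, ← map_pow, ← map_mul, hW]
    · rw [e, map_mul, map_pow, hcV V hV, one_pow, one_mul, hA V hV]

/-- **Approximation.**  `S` is an infinite set of constants whose differences are units. -/
theorem exists_common_root {p : ℕ} (hp : 2 ≤ p) (t : Finset (ValuationSubring F))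
    (S : Set F) (hSinf : S.Infinite)
    (hS : ∀ V ∈ t, ∀ x ∈ S, ∀ y ∈ S, x ≠ y → V.valuation (x - y) = 1)
    {f : F} (hf : ∀ V ∈ t, VDiv V p f) :
    ∃ a : F, a ≠ 0 ∧ ∀ V ∈ t, a ^ p * f ∈ V ∧ (a ^ p * f)⁻¹ ∈ V := by
  by_cases hf0 : f = 0
  · refine ⟨1, one_ne_zero, fun V _ => ?_⟩
    rw [hf0, mul_zero, inv_zero]
    exact ⟨V.zero_mem, V.zero_mem⟩
  · obtain ⟨a, ha0, ha⟩ := VApprox_val hp t S hSinf hS
      (fun V hV => (vdiv_iff V p hf0).1 (hf V hV))
    refine ⟨a, ha0, fun V hV => ?_⟩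
    exact (mem_and_inv_mem_iff V (mul_ne_zero (pow_ne_zero _ ha0) hf0)).2 (ha V hV)

end Fermat.Agent.LP.EIS
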