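import Mathlib

/-!
# LP-EIS: `VDiv V p y` : `y` is a unit of the valuation subring `V` times a `p`-th power
-/

set_option autoImplicit false

namespace Fermat.Agent.LP.EIS

variable {F Ω : Type*} [Field F] [Field Ω]

/-- `y` is a unit of `V` times a `p`-th power. -/
def VDiv (V : ValuationSubring F) (p : ℕ) (y : F) : Prop :=
  ∃ a : F, a ≠ 0 ∧ a ^ p * y ∈ V ∧ (a ^ p * y)⁻¹ ∈ V

theorem mem_and_inv_mem_iff (V : ValuationSubring F) {x : F} (hx : x ≠ 0) :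
    (x ∈ V ∧ x⁻¹ ∈ V) ↔ V.valuation x = 1 := by
  have h0 : V.valuation x ≠ 0 := (V.valuation.ne_zero_iff).mpr hx
  rw [← V.valuation_le_one_iff, ← V.valuation_le_one_iff, map_inv₀]
  constructor
  · rintro ⟨h1, h2⟩
    refine le_antisymm h1 ?_
    rwa [inv_le_one₀ (zero_lt_iff.mpr h0)] at h2
  · intro h
    rw [h, inv_one]
    exact ⟨le_rfl, le_rfl⟩

theorem vdiv_iff (V : ValuationSubring F) (p : ℕ) {y : F} (hy : y ≠ 0) :
    VDiv V p y ↔ ∃ a : F, a ≠ 0 ∧ V.valuation (a ^ p * y) = 1 := by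
  constructor
  · rintro ⟨a, ha, h1, h2⟩
    exact ⟨a, ha, (mem_and_inv_mem_iff V (mul_ne_zero (pow_ne_zero p ha) hy)).mp ⟨h1, h2⟩⟩
  · rintro ⟨a, ha, h⟩
    obtain ⟨h1, h2⟩ := (mem_and_inv_mem_iff V (mul_ne_zero (pow_ne_zero p ha) hy)).mpr h
    exact ⟨a, ha, h1, h2⟩

theorem VDiv.mul {V : ValuationSubring F} {p : ℕ} {x y : F} (hx : VDiv V p x) (hy : VDiv V p y) :
    VDiv V p (x * y) := by
  obtain ⟨a, ha, h1, h2⟩ := hx
  obtain ⟨b, hb, h3, h4⟩ := hy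
  have e : (a * b) ^ p * (x * y) = a ^ p * x * (b ^ p * y) := by
    rw [mul_pow]
    ring
  refine ⟨a * b, mul_ne_zero ha hb, ?_, ?_⟩
  · rw [e]
    exact V.mul_mem _ _ h1 h3
  · rw [e, mul_inv]
    exact V.mul_mem _ _ h2 h4

theorem VDiv.inv {V : ValuationSubring F} {p : ℕ} {x : F} (hx : VDiv V p x) : VDiv V p x⁻¹ := by
  obtain ⟨a, ha, h1, h2⟩ := hx
  have e : a⁻¹ ^ p * x⁻¹ = (a ^ p * x)⁻¹ := by
    rw [mul_inv, inv_pow]
  refine ⟨a⁻¹, inv_ne_zero ha, ?_, ?_⟩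
  · rw [e]
    exact h2
  · rw [e, inv_inv]
    exact h1

theorem VDefs_vdiv_one (V : ValuationSubring F) (p : ℕ) : VDiv V p 1 :=
  ⟨1, one_ne_zero, by simp, by simp⟩

theorem VDiv.pow {V : ValuationSubring F} {p : ℕ} {x : F} (hx : VDiv V p x) (n : ℕ) :
    VDiv V p (x ^ n) := by
  induction n with
  | zero =>
    rw [pow_zero]
    exact VDefs_vdiv_one V p
  | succ n ih =>
    rw [pow_succ]
    exact ih.mul hx

theorem VDiv.zpow {V : ValuationSubring F} {p : ℕ} {x : F} (hx : VDiv V p x) (n : ℤ) :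
    VDiv V p (x ^ n) := by
  obtain ⟨k, rfl | rfl⟩ := n.eq_nat_or_neg
  · rw [zpow_natCast]
    exact hx.pow k
  · rw [zpow_neg, zpow_natCast]
    exact (hx.pow k).inv

theorem vdiv_pow_self (V : ValuationSubring F) (p : ℕ) (x : F) : VDiv V p (x ^ p) := by
  by_cases hx : x = 0
  · subst hx
    by_cases hp : p = 0
    · subst hp
      rw [pow_zero]
      exact VDefs_vdiv_one V 0
    · rw [zero_pow hp]
      exact ⟨1, one_ne_zero, by simp, by simp⟩
  · refine ⟨x⁻¹, inv_ne_zero hx, ?_, ?_⟩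
    · rw [← mul_pow, inv_mul_cancel₀ hx, one_pow]
      exact V.one_mem
    · rw [← mul_pow, inv_mul_cancel₀ hx, one_pow, inv_one]
      exact V.one_mem

/-- if `d ^ m` is divisible and `p ∤ m` then `d` is divisible. -/
theorem vdiv_of_zpow {V : ValuationSubring F} {p : ℕ} (hp : p.Prime) {d : F} {m : ℤ}
    (hm : ¬ (p : ℤ) ∣ m) (h : VDiv V p (d ^ m)) : VDiv V p d := by
  by_cases hd : d = 0
  · subst hd
    exact ⟨1, one_ne_zero, by simp, by simp⟩
  · have hcop : IsCoprime m (p : ℤ) :=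
      ((Nat.prime_iff_prime_int.mp hp).coprime_iff_not_dvd.mpr hm).symm
    obtain ⟨s, t, hst⟩ := hcop
    have e : d = (d ^ m) ^ s * (d ^ t) ^ p := by
      rw [← zpow_mul, ← zpow_natCast, ← zpow_mul, ← zpow_add₀ hd, mul_comm m s, hst, zpow_one]
    rw [e]
    exact (h.zpow s).mul (vdiv_pow_self V p _)

end Fermat.Agent.LP.EIS
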